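import Mathlib
import Fermat.Prelude.Thm_CongruenceSubgroup_one_mem_strictPeriods_Gamma0

/-!
# The ring of nice functions and its `q`-expansion homomorphism (helper87, cluster S23)

A function `F : ℍ → ℂ` is *nice* if it is `1`-periodic, holomorphic and bounded at `i∞`.
Nice functions form a subring of `ℍ → ℂ` containing all modular forms (of any weight) for any
group having `1` as a strict period (e.g. `Γ₀(N)` and `SL(2, ℤ)`), and `qExpansion 1` restricts
to an injective ring homomorphism from nice functions to `ℂ⟦X⟧`.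

This is the bookkeeping device used to transfer polynomial identities between functions on the
upper half plane and their `q`-expansions.
-/

set_option autoImplicit false

open UpperHalfPlane Function
open scoped MatrixGroups ModularForm Manifold

noncomputable section

namespace Fermat.Agent.S23.helper87

/-- A function on the upper half plane is nice if it is `1`-periodic, holomorphic and bounded at
`i∞`. -/
structure IsNice (F : ℍ → ℂ) : Prop where
  per : Function.Periodic (F ∘ ofComplex) ((1 : ℝ) : ℂ)
  holo : MDiff F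
  bdd : IsBoundedAtImInfty F

namespace IsNice

variable {F G : ℍ → ℂ}

theorem analyticAt (hF : IsNice F) : AnalyticAt ℂ (cuspFunction 1 F) 0 :=
  analyticAt_cuspFunction_zero one_pos hF.per hF.holo hF.bdd

theorem const (c : ℂ) : IsNice (fun _ : ℍ => c) where
  per := fun _ => rfl
  holo := mdifferentiable_const
  bdd := Filter.const_boundedAtFilter _ c

theorem zero : IsNice (0 : ℍ → ℂ) := const 0

theorem one : IsNice (1 : ℍ → ℂ) := const 1

theorem add (hF : IsNice F) (hG : IsNice G) : IsNice (F + G) where
  per := fun z => by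
    have h1 := hF.per z
    have h2 := hG.per z
    simp only [comp_apply, Pi.add_apply] at h1 h2 ⊢
    rw [h1, h2]
  holo := hF.holo.add hG.holo
  bdd := hF.bdd.add hG.bdd

theorem neg (hF : IsNice F) : IsNice (-F) where
  per := fun z => by
    have h1 := hF.per z
    simp only [comp_apply, Pi.neg_apply] at h1 ⊢
    rw [h1]
  holo := hF.holo.neg
  bdd := hF.bdd.neg

theorem sub (hF : IsNice F) (hG : IsNice G) : IsNice (F - G) := by
  rw [sub_eq_add_neg]
  exact hF.add hG.neg

theorem mul (hF : IsNice F) (hG : IsNice G) : IsNice (F * G) where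
  per := fun z => by
    have h1 := hF.per z
    have h2 := hG.per z
    simp only [comp_apply, Pi.mul_apply] at h1 h2 ⊢
    rw [h1, h2]
  holo := hF.holo.mul hG.holo
  bdd := hF.bdd.mul hG.bdd

theorem smul (c : ℂ) (hF : IsNice F) : IsNice (c • F) := by
  have h : c • F = (fun _ : ℍ => c) * F := by
    funext z
    simp
  rw [h]
  exact (const c).mul hF

theorem pow (hF : IsNice F) (n : ℕ) : IsNice (F ^ n) := by
  induction n with
  | zero => simpa using one
  | succ n ih =>
    rw [pow_succ]
    exact ih.mul hF

theorem sum {ι : Type*} (s : Finset ι) (F : ι → ℍ → ℂ) (hF : ∀ i ∈ s, IsNice (F i)) :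
    IsNice (∑ i ∈ s, F i) := by
  classical
  induction s using Finset.induction_on with
  | empty => simpa using zero
  | insert i t hi IH =>
    rw [Finset.sum_insert hi]
    exact (hF i (Finset.mem_insert_self i t)).add
      (IH fun j hj => hF j (Finset.mem_insert_of_mem hj))

theorem prod {ι : Type*} (s : Finset ι) (F : ι → ℍ → ℂ) (hF : ∀ i ∈ s, IsNice (F i)) :
    IsNice (∏ i ∈ s, F i) := by
  classical
  induction s using Finset.induction_on with
  | empty => simpa using one
  | insert i t hi IH =>
    rw [Finset.prod_insert hi]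
    exact (hF i (Finset.mem_insert_self i t)).mul
      (IH fun j hj => hF j (Finset.mem_insert_of_mem hj))

/-- Modular forms for a group with strict period `1` are nice. -/
theorem of_modularForm {Γ : Subgroup (GL (Fin 2) ℝ)} {k : ℤ} {M : Type*} [FunLike M ℍ ℂ]
    [ModularFormClass M Γ k] (hΓ : (1 : ℝ) ∈ Γ.strictPeriods) (f : M) : IsNice (⇑f) where
  per := SlashInvariantFormClass.periodic_comp_ofComplex f hΓ
  holo := ModularFormClass.holo f
  bdd :=
    have : Fact (IsCusp OnePoint.infty Γ) := ⟨Γ.isCusp_of_mem_strictPeriods one_pos hΓ⟩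
    ModularFormClass.bdd_at_infty f

/-- Level one modular forms are nice. -/
theorem of_levelOne {k : ℤ} (f : ModularForm 𝒮ℒ k) : IsNice (⇑f) :=
  of_modularForm one_mem_strictPeriods_SL f

/-- Modular forms on `Γ₀(N)` are nice. -/
theorem of_Gamma0 {N : ℕ} {k : ℤ} (f : ModularForm (CongruenceSubgroup.Gamma0 N) k) :
    IsNice (⇑f) :=
  of_modularForm (CongruenceSubgroup.one_mem_strictPeriods_Gamma0 N) f

/-- Cusp forms on `Γ₀(N)` are nice. -/
theorem of_cuspForm_Gamma0 {N : ℕ} {k : ℤ} (f : CuspForm (CongruenceSubgroup.Gamma0 N) k) :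
    IsNice (⇑f) :=
  of_modularForm (CongruenceSubgroup.one_mem_strictPeriods_Gamma0 N) f

/-! ### `q`-expansions of nice functions -/

theorem qExpansion_add (hF : IsNice F) (hG : IsNice G) :
    qExpansion 1 (F + G) = qExpansion 1 F + qExpansion 1 G :=
  UpperHalfPlane.qExpansion_add hF.analyticAt hG.analyticAt

theorem qExpansion_mul (hF : IsNice F) (hG : IsNice G) :
    qExpansion 1 (F * G) = qExpansion 1 F * qExpansion 1 G :=
  UpperHalfPlane.qExpansion_mul hF.analyticAt hG.analyticAt

theorem qExpansion_neg (hF : IsNice F) : qExpansion 1 (-F) = -qExpansion 1 F :=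
  UpperHalfPlane.qExpansion_neg hF.analyticAt

theorem qExpansion_sub (hF : IsNice F) (hG : IsNice G) :
    qExpansion 1 (F - G) = qExpansion 1 F - qExpansion 1 G :=
  UpperHalfPlane.qExpansion_sub hF.analyticAt hG.analyticAt

theorem qExpansion_smul (c : ℂ) (hF : IsNice F) :
    qExpansion 1 (c • F) = c • qExpansion 1 F :=
  UpperHalfPlane.qExpansion_smul hF.analyticAt c

theorem qExpansion_pow (hF : IsNice F) (n : ℕ) :
    qExpansion 1 (F ^ n) = qExpansion 1 F ^ n := by
  induction n with
  | zero => simpa using UpperHalfPlane.qExpansion_one 1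
  | succ n ih => rw [pow_succ, qExpansion_mul (hF.pow n) hF, ih, pow_succ]

theorem qExpansion_sum {ι : Type*} (s : Finset ι) (F : ι → ℍ → ℂ) (hF : ∀ i ∈ s, IsNice (F i)) :
    qExpansion 1 (∑ i ∈ s, F i) = ∑ i ∈ s, qExpansion 1 (F i) := by
  classical
  induction s using Finset.induction_on with
  | empty => simpa using UpperHalfPlane.qExpansion_zero 1
  | insert i t hi IH =>
    have hi' : IsNice (F i) := hF i (Finset.mem_insert_self i t)
    have ht : ∀ j ∈ t, IsNice (F j) := fun j hj => hF j (Finset.mem_insert_of_mem hj)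
    rw [Finset.sum_insert hi, Finset.sum_insert hi, qExpansion_add hi' (sum t F ht), IH ht]

theorem qExpansion_prod {ι : Type*} (s : Finset ι) (F : ι → ℍ → ℂ)
    (hF : ∀ i ∈ s, IsNice (F i)) :
    qExpansion 1 (∏ i ∈ s, F i) = ∏ i ∈ s, qExpansion 1 (F i) := by
  classical
  induction s using Finset.induction_on with
  | empty => simpa using UpperHalfPlane.qExpansion_one 1
  | insert i t hi IH =>
    have hi' : IsNice (F i) := hF i (Finset.mem_insert_self i t)
    have ht : ∀ j ∈ t, IsNice (F j) := fun j hj => hF j (Finset.mem_insert_of_mem hj)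
    rw [Finset.prod_insert hi, Finset.prod_insert hi, qExpansion_mul hi' (prod t F ht), IH ht]

theorem qExpansion_const (c : ℂ) : qExpansion 1 (fun _ : ℍ => c) = PowerSeries.C c := by
  have h : (fun _ : ℍ => c) = c • (1 : ℍ → ℂ) := by
    funext z
    simp
  rw [h, qExpansion_smul c one, UpperHalfPlane.qExpansion_one, PowerSeries.smul_eq_C_mul,
    mul_one]

theorem qExpansion_eq_zero_iff (hF : IsNice F) : qExpansion 1 F = 0 ↔ F = 0 :=
  UpperHalfPlane.qExpansion_eq_zero_iff one_pos hF.per hF.holo hF.bdd

/-- The `q`-expansion principle for nice functions. -/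
theorem eq_of_qExpansion_eq (hF : IsNice F) (hG : IsNice G)
    (h : qExpansion 1 F = qExpansion 1 G) : F = G := by
  have h1 : qExpansion 1 (F - G) = 0 := by rw [qExpansion_sub hF hG, h, sub_self]
  exact sub_eq_zero.mp ((qExpansion_eq_zero_iff (hF.sub hG)).mp h1)

/-- The constant coefficient of the `q`-expansion is the limit at `i∞`. -/
theorem qExpansion_coeff_zero_eq_of_tendsto (hF : IsNice F) {c : ℂ}
    (h : Filter.Tendsto F atImInfty (nhds c)) : (qExpansion 1 F).coeff 0 = c := by
  rw [UpperHalfPlane.qExpansion_coeff_zero one_pos hF.analyticAt hF.per]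
  exact h.limUnder_eq

theorem tendsto_coeff_zero (hF : IsNice F) :
    Filter.Tendsto F atImInfty (nhds ((qExpansion 1 F).coeff 0)) := by
  have h1 : (cuspFunction 1 F ∘ fun τ : ℍ => Function.Periodic.qParam 1 τ) = F := by
    funext τ
    simpa using eq_cuspFunction τ one_ne_zero hF.per
  have h2 := hF.analyticAt.continuousAt.tendsto.comp (qParam_tendsto_atImInfty one_pos)
  rw [h1] at h2
  have h3 : (qExpansion 1 F).coeff 0 = cuspFunction 1 F 0 := by
    simp [UpperHalfPlane.qExpansion_coeff]
  rw [h3]
  exact h2

end IsNice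

/-- The subring of nice functions. -/
def niceRing : Subring (ℍ → ℂ) where
  carrier := {F | IsNice F}
  mul_mem' := fun hF hG => hF.mul hG
  one_mem' := IsNice.one
  add_mem' := fun hF hG => hF.add hG
  zero_mem' := IsNice.zero
  neg_mem' := fun hF => hF.neg

theorem mem_niceRing {F : ℍ → ℂ} : F ∈ niceRing ↔ IsNice F := Iff.rfl

/-- The `q`-expansion ring homomorphism on nice functions. -/
def qExpHom : niceRing →+* PowerSeries ℂ where
  toFun F := qExpansion 1 (F : ℍ → ℂ)
  map_one' := UpperHalfPlane.qExpansion_one 1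
  map_mul' F G := IsNice.qExpansion_mul F.2 G.2
  map_zero' := UpperHalfPlane.qExpansion_zero 1
  map_add' F G := IsNice.qExpansion_add F.2 G.2

@[simp] theorem qExpHom_apply (F : niceRing) : qExpHom F = qExpansion 1 (F : ℍ → ℂ) := rfl

theorem qExpHom_injective : Function.Injective qExpHom := fun F G h =>
  Subtype.ext (IsNice.eq_of_qExpansion_eq F.2 G.2 h)

end Fermat.Agent.S23.helper87
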