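import Fermat.Agent.S23.helper74_EtaFun

open ModularForm Complex Filter Function Metric
open UpperHalfPlane hiding I
open scoped MatrixGroups ModularForm Manifold Topology Real

noncomputable section

namespace Fermat.Agent.S23.helper74

local notation "𝕢" => Periodic.qParam

/-- positivity of the imaginary part of `(a τ + b) / d` -/
lemma affPt_im_pos (a d : ℕ) (b : ℤ) (ha : 0 < a) (hd : 0 < d) (τ : ℍ) :
    0 < (((a : ℂ) * τ + b) / d).im := by
  have had : (0:ℝ) < a := by exact_mod_cast ha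
  have hdd : (0:ℝ) < d := by exact_mod_cast hd
  have : (((a : ℂ) * τ + b) / d).im = a * τ.im / d := by
    simp [Complex.div_natCast_im]
  rw [this]
  have := τ.im_pos
  positivity

/-- The point `(a τ + b) / d` of the upper half plane. -/
def affPt (a d : ℕ) (b : ℤ) (ha : 0 < a) (hd : 0 < d) (τ : ℍ) : ℍ :=
  ⟨((a : ℂ) * τ + b) / d, affPt_im_pos a d b ha hd τ⟩

@[simp] lemma coe_affPt (a d : ℕ) (b : ℤ) (ha : 0 < a) (hd : 0 < d) (τ : ℍ) :
    (affPt a d b ha hd τ : ℂ) = ((a : ℂ) * τ + b) / d := rfl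

/-- The root of unity `exp (2 π i b / d)`. -/
def xi (d : ℕ) (b : ℤ) : ℂ := cexp (2 * π * I * b / d)

lemma xi_pow (d : ℕ) (b : ℤ) (hd : 0 < d) : xi d b ^ d = 1 := by
  have hd' : (d : ℂ) ≠ 0 := by exact_mod_cast hd.ne'
  rw [xi, ← Complex.exp_nat_mul]
  rw [show (d : ℂ) * (2 * π * I * b / d) = b * (2 * π * I) by field_simp]
  exact Complex.exp_int_mul_two_pi_mul_I b

lemma xi_ne_zero (d : ℕ) (b : ℤ) : xi d b ≠ 0 := Complex.exp_ne_zero _

lemma norm_xi (d : ℕ) (b : ℤ) : ‖xi d b‖ = 1 := by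
  rw [xi, Complex.norm_exp]
  simp [Complex.div_natCast_re]

lemma isIntegral_xi (d : ℕ) (b : ℤ) (hd : 0 < d) : IsIntegral ℤ (xi d b) :=
  IsIntegral.of_pow hd (by rw [xi_pow d b hd]; exact isIntegral_one)

lemma isIntegral_xi_inv (d : ℕ) (b : ℤ) (hd : 0 < d) : IsIntegral ℤ (xi d b)⁻¹ := by
  have : (xi d b)⁻¹ = xi d b ^ (d - 1) := by
    have h1 := xi_pow d b hd
    have h2 : xi d b ^ (d - 1) * xi d b = 1 := by
      rw [← pow_succ, Nat.sub_add_cancel hd, h1]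
    exact (eq_inv_of_mul_eq_one_left h2).symm
  rw [this]
  exact (isIntegral_xi d b hd).pow _

lemma qParam_affPt (a d : ℕ) (b : ℤ) (ha : 0 < a) (hd : 0 < d) (τ : ℍ) :
    𝕢 1 (affPt a d b ha hd τ) = xi d b * 𝕢 ((a * d : ℕ) : ℝ) τ ^ (a ^ 2) := by
  have hd' : (d : ℂ) ≠ 0 := by exact_mod_cast hd.ne'
  have ha' : (a : ℂ) ≠ 0 := by exact_mod_cast ha.ne'
  simp only [Periodic.qParam, xi, coe_affPt, ← Complex.exp_nat_mul, ← Complex.exp_add]
  congr 1
  push_cast
  field_simp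
  ring

end Fermat.Agent.S23.helper74
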