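import Mathlib

/-!
# Hermite decomposition of `diag(N,1) * γ` for `γ ∈ SL(2,ℤ)`

For `γ ∈ SL(2, ℤ)` and `N > 0` we write `diag(N,1) * γ = δ * [[A, B], [0, D]]` with
`δ ∈ SL(2, ℤ)`, `A = gcd(N, γ₁₀)`, `A * D = N`.
-/

open scoped MatrixGroups

namespace Fermat.Agent.S23.helper35

/-- Integer-matrix Hermite decomposition. -/
theorem hermite_int (N : ℕ) (hN : 0 < N) (γ : SL(2, ℤ)) :
    ∃ (δ : SL(2, ℤ)) (A D : ℕ) (B : ℤ), 0 < A ∧ 0 < D ∧ A * D = N ∧
      A = Nat.gcd N (γ 1 0).natAbs ∧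
      (!![(N : ℤ), 0; 0, 1] * (γ : Matrix (Fin 2) (Fin 2) ℤ) =
        (δ : Matrix (Fin 2) (Fin 2) ℤ) * !![(A : ℤ), B; 0, (D : ℤ)]) := by
  obtain ⟨a, b, c, d, hγ, hdet⟩ : ∃ a b c d : ℤ,
      (γ : Matrix (Fin 2) (Fin 2) ℤ) = !![a, b; c, d] ∧ a * d - b * c = 1 := by
    refine ⟨γ 0 0, γ 0 1, γ 1 0, γ 1 1, ?_, ?_⟩
    · exact Matrix.eta_fin_two _
    · have := γ.det_coe
      rw [Matrix.det_fin_two] at this
      linarith
  have hc : γ 1 0 = c := by
    have := congrFun (congrFun hγ 1) 0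
    simpa using this
  set g₀ : ℕ := Nat.gcd N c.natAbs with hg₀
  have hg₀pos : 0 < g₀ := Nat.gcd_pos_of_pos_left _ hN
  obtain ⟨D', hD'⟩ : g₀ ∣ N := Nat.gcd_dvd_left _ _
  obtain ⟨c', hc'⟩ : (g₀ : ℤ) ∣ c := by
    have : g₀ ∣ c.natAbs := Nat.gcd_dvd_right _ _
    exact Int.natCast_dvd.mpr this
  have hD'pos : 0 < D' := by
    rcases Nat.eq_zero_or_pos D' with h | h
    · subst h; simp at hD'; omega
    · exact h
  -- coprimality of D' * a and c'
  have hcop1 : IsCoprime (D' : ℤ) c' := by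
    have h1 : Int.gcd (N : ℤ) c = g₀ := by
      simp [hg₀, Int.gcd]
    have h2 : Int.gcd ((g₀ : ℤ) * D') ((g₀ : ℤ) * c') = g₀ := by
      rw [← hc', ← h1]
      congr 1
      exact_mod_cast hD'.symm
    rw [Int.gcd_mul_left] at h2
    have h3 : Int.gcd (D' : ℤ) c' = 1 := by
      have : (g₀ : ℤ).natAbs = g₀ := Int.natAbs_natCast _
      rw [this] at h2
      exact Nat.eq_of_mul_eq_mul_left hg₀pos (by simpa using h2)
    exact Int.isCoprime_iff_gcd_eq_one.mpr h3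
  have hcop2 : IsCoprime a c' := by
    have : IsCoprime a c := ⟨d, -b, by linear_combination hdet⟩
    rw [hc'] at this
    exact this.of_mul_right_right
  have hcop : IsCoprime ((D' : ℤ) * a) c' := hcop1.mul_left hcop2
  obtain ⟨x, y, hxy⟩ := hcop
  -- x * (D' * a) + y * c' = 1
  have hdetδ : Matrix.det !![(D' : ℤ) * a, -y; c', x] = 1 := by
    rw [Matrix.det_fin_two_of]
    linear_combination hxy
  refine ⟨⟨!![(D' : ℤ) * a, -y; c', x], hdetδ⟩, g₀, D', x * N * b + y * d, hg₀pos, hD'pos,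
    hD'.symm, ?_, ?_⟩
  · rw [hc]
  · rw [hγ]
    have hN' : (N : ℤ) = g₀ * D' := by exact_mod_cast hD'
    ext i j
    fin_cases i <;> fin_cases j
    · simp [Matrix.mul_apply, Fin.sum_univ_two]
      rw [hN']; ring
    · simp [Matrix.mul_apply, Fin.sum_univ_two]
      rw [hN']
      linear_combination (-(g₀ : ℤ) * D' * b) * hxy - (D' : ℤ) * y * hdet - (D' : ℤ) * b * y * hc'
    · simp [Matrix.mul_apply, Fin.sum_univ_two]
      rw [hc']; ring
    · simp [Matrix.mul_apply, Fin.sum_univ_two]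
      rw [hN']
      linear_combination (-d) * hxy + x * D' * hdet + x * D' * b * hc'

end Fermat.Agent.S23.helper35
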