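import Mathlib

/-!
# Hermite normal form of `diag(N,1) * h` for `h ∈ SL(2,ℤ)` (helper74, S23-T3)
-/

open scoped MatrixGroups

namespace Fermat.Agent.S23.helper74

/-- Hermite normal form of `diag(N,1) * h` for `h ∈ SL(2,ℤ)`:
`diag(N,1) * h = γ' * [[a, b], [0, d]]` with `γ' ∈ SL(2,ℤ)`, `a d = N`, `a = gcd(N, h 1 0)`. -/
lemma exists_hermite (N : ℕ) (hN : 0 < N) (h : SL(2, ℤ)) :
    ∃ (a d : ℕ) (b : ℤ) (γ' : SL(2, ℤ)), 0 < a ∧ 0 < d ∧ a * d = N ∧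
      (a = N ↔ h ∈ CongruenceSubgroup.Gamma0 N) ∧
      (N : ℤ) * h 0 0 = γ' 0 0 * a ∧ (N : ℤ) * h 0 1 = γ' 0 0 * b + γ' 0 1 * d ∧
      h 1 0 = γ' 1 0 * a ∧ h 1 1 = γ' 1 0 * b + γ' 1 1 * d := by
  obtain ⟨α, hα⟩ : ∃ α, α = h 0 0 := ⟨_, rfl⟩
  obtain ⟨β, hβ⟩ : ∃ β, β = h 0 1 := ⟨_, rfl⟩
  obtain ⟨γ, hγ⟩ : ∃ γ, γ = h 1 0 := ⟨_, rfl⟩
  obtain ⟨δ, hδ⟩ : ∃ δ, δ = h 1 1 := ⟨_, rfl⟩
  have hdet : α * δ - β * γ = 1 := by
    have := h.det_coe
    rw [Matrix.det_fin_two] at this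
    rw [hα, hβ, hγ, hδ]
    exact this
  have hN0 : (N : ℤ) ≠ 0 := by exact_mod_cast hN.ne'
  obtain ⟨a, ha⟩ : ∃ a, a = Int.gcd N γ := ⟨_, rfl⟩
  have ha_pos : 0 < a := by rw [ha]; exact Int.gcd_pos_of_ne_zero_left _ hN0
  have haN : (a : ℤ) ∣ N := by rw [ha]; exact Int.gcd_dvd_left _ _
  have haγ : (a : ℤ) ∣ γ := by rw [ha]; exact Int.gcd_dvd_right _ _
  obtain ⟨d', hd'⟩ := haN
  obtain ⟨r, hr⟩ := haγ
  have ha0 : (a : ℤ) ≠ 0 := by exact_mod_cast ha_pos.ne'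
  have ha0' : (0 : ℤ) < a := by exact_mod_cast ha_pos
  have hd'pos : 0 < d' := by
    have h1 : (0 : ℤ) < a * d' := by rw [← hd']; exact_mod_cast hN
    exact (mul_pos_iff_of_pos_left ha0').mp h1
  obtain ⟨d, rfl⟩ : ∃ d : ℕ, (d : ℤ) = d' := ⟨d'.toNat, Int.toNat_of_nonneg hd'pos.le⟩
  have hd_pos : 0 < d := by exact_mod_cast hd'pos
  have hcop_dr : IsCoprime (d : ℤ) r := by
    rw [Int.isCoprime_iff_gcd_eq_one]
    have h1 := Int.gcd_div_gcd_div_gcd (i := (N : ℤ)) (j := γ) (by rw [← ha]; exact ha_pos)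
    rw [← ha] at h1
    have e1 : (N : ℤ) / a = d := by rw [hd']; exact Int.mul_ediv_cancel_left _ ha0
    have e2 : γ / a = r := by rw [hr]; exact Int.mul_ediv_cancel_left _ ha0
    rwa [e1, e2] at h1
  have hcop_αγ : IsCoprime α γ := ⟨δ, -β, by linear_combination hdet⟩
  have hcop_αr : IsCoprime α r := by
    rw [hr] at hcop_αγ
    exact hcop_αγ.of_mul_right_right
  have hcop : IsCoprime ((d : ℤ) * α) r := hcop_dr.mul_left hcop_αr
  obtain ⟨u, v, huv⟩ := hcop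
  refine ⟨a, d, u * N * β + v * δ,
    ⟨!![(d : ℤ) * α, -v; r, u], by rw [Matrix.det_fin_two_of]; linear_combination huv⟩,
    ha_pos, hd_pos, by exact_mod_cast hd'.symm, ?_, ?_, ?_, ?_, ?_⟩
  · rw [CongruenceSubgroup.Gamma0_mem, ZMod.intCast_zmod_eq_zero_iff_dvd, ← hγ]
    constructor
    · intro haN
      rw [hr, ← haN]
      exact dvd_mul_right _ _
    · intro hdvd
      have h1 : ((Int.gcd (N : ℤ) γ : ℕ) : ℤ) = (N : ℤ) :=
        Int.gcd_eq_left (by positivity) hdvd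
      rw [ha]
      exact_mod_cast h1
  · rw [← hα]
    simp only [Matrix.of_apply, Matrix.cons_val', Matrix.cons_val_zero,
      Matrix.cons_val_fin_one]
    rw [hd']; ring
  · rw [← hβ]
    simp only [Matrix.of_apply, Matrix.cons_val', Matrix.cons_val_zero,
      Matrix.cons_val_fin_one, Matrix.cons_val_one]
    linear_combination (v * β * r) * hd' - (v * β * d) * hr - ((N : ℤ) * β) * huv - (v * d) * hdet
  · rw [← hγ]
    simp only [Matrix.of_apply, Matrix.cons_val', Matrix.cons_val_zero,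
      Matrix.cons_val_fin_one, Matrix.cons_val_one]
    rw [hr]; ring
  · rw [← hδ]
    simp only [Matrix.of_apply, Matrix.cons_val', Matrix.cons_val_zero,
      Matrix.cons_val_fin_one, Matrix.cons_val_one]
    linear_combination (-(u * β * r)) * hd' + (u * β * d) * hr + (u * d) * hdet - δ * huv

end Fermat.Agent.S23.helper74
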