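import Fermat.Agent.S23.helper74_EtaInt
import Fermat.Agent.S23.helper74_Hermite

open ModularForm Complex Filter Function Metric
open UpperHalfPlane hiding I
open scoped MatrixGroups ModularForm Manifold Topology Real

noncomputable section

namespace Fermat.Agent.S23.helper74

local notation "𝕢" => Periodic.qParam

lemma discriminant_SL_smul (h : SL(2, ℤ)) (z : ℍ) :
    discriminant (h • z) = ((h 1 0 : ℂ) * z + (h 1 1 : ℂ)) ^ 12 * discriminant z := by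
  have hmem : Matrix.SpecialLinearGroup.mapGL ℝ h ∈ (Matrix.SpecialLinearGroup.mapGL ℝ).range (G := SL(2, ℤ)) :=
    ⟨h, rfl⟩
  have h1 := SlashInvariantForm.slash_action_eqn' CuspForm.discriminant hmem z
  rw [CuspForm.coe_discriminant] at h1
  have h2 : (Matrix.SpecialLinearGroup.mapGL ℝ h) • z = h • z := rfl
  rw [h2] at h1
  rw [h1]
  simp

lemma SL_denom_ne_zero (h : SL(2, ℤ)) (z : ℍ) : ((h 1 0 : ℂ) * z + (h 1 1 : ℂ)) ≠ 0 := by
  have := UpperHalfPlane.denom_ne_zero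
    (Matrix.SpecialLinearGroup.toGL ((Matrix.SpecialLinearGroup.map (Int.castRingHom ℝ)) h)) z
  rwa [ModularGroup.denom_apply] at this

lemma hermite_denom (a d : ℕ) (b : ℤ) (ha : 0 < a) (hd : 0 < d) (h γ' : SL(2, ℤ))
    (e3 : h 1 0 = γ' 1 0 * a) (e4 : h 1 1 = γ' 1 0 * b + γ' 1 1 * d) (τ : ℍ) :
    (γ' 1 0 : ℂ) * (affPt a d b ha hd τ) + (γ' 1 1 : ℂ) = ((h 1 0 : ℂ) * τ + (h 1 1 : ℂ)) / d := by
  have hd' : (d : ℂ) ≠ 0 := by exact_mod_cast hd.ne'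
  have E3 : (h 1 0 : ℂ) = γ' 1 0 * a := by exact_mod_cast e3
  have E4 : (h 1 1 : ℂ) = γ' 1 0 * b + γ' 1 1 * d := by exact_mod_cast e4
  rw [coe_affPt, E3, E4]
  field_simp
  ring

lemma hermite_num (N a d : ℕ) (b : ℤ) (ha : 0 < a) (hd : 0 < d) (h γ' : SL(2, ℤ))
    (e1 : (N : ℤ) * h 0 0 = γ' 0 0 * a) (e2 : (N : ℤ) * h 0 1 = γ' 0 0 * b + γ' 0 1 * d) (τ : ℍ) :
    (γ' 0 0 : ℂ) * (affPt a d b ha hd τ) + (γ' 0 1 : ℂ) =
      (N : ℂ) * ((h 0 0 : ℂ) * τ + (h 0 1 : ℂ)) / d := by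
  have hd' : (d : ℂ) ≠ 0 := by exact_mod_cast hd.ne'
  have E1 : (N : ℂ) * (h 0 0 : ℂ) = γ' 0 0 * a := by exact_mod_cast e1
  have E2 : (N : ℂ) * (h 0 1 : ℂ) = γ' 0 0 * b + γ' 0 1 * d := by exact_mod_cast e2
  rw [coe_affPt, mul_add, ← mul_assoc, E1, E2]
  field_simp
  ring

lemma affPt_smul (N a d : ℕ) (b : ℤ) (hN : 0 < N) (ha : 0 < a) (hd : 0 < d) (h γ' : SL(2, ℤ))
    (e1 : (N : ℤ) * h 0 0 = γ' 0 0 * a) (e2 : (N : ℤ) * h 0 1 = γ' 0 0 * b + γ' 0 1 * d)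
    (e3 : h 1 0 = γ' 1 0 * a) (e4 : h 1 1 = γ' 1 0 * b + γ' 1 1 * d) (τ : ℍ) :
    affPt N 1 0 hN one_pos (h • τ) = γ' • affPt a d b ha hd τ := by
  apply UpperHalfPlane.ext
  have hd' : (d : ℂ) ≠ 0 := by exact_mod_cast hd.ne'
  have hj := SL_denom_ne_zero h τ
  rw [coe_affPt, coe_specialLinearGroup_apply, coe_specialLinearGroup_apply]
  simp only [eq_intCast, ofReal_intCast, Int.cast_zero, add_zero, Nat.cast_one, div_one]
  rw [hermite_num N a d b ha hd h γ' e1 e2 τ, hermite_denom a d b ha hd h γ' e3 e4 τ]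
  field_simp

/-- The slash formula for the eta quotient. -/
lemma etaSlash_slash (a d : ℕ) (b : ℤ) (ha : 0 < a) (hd : 0 < d) (h γ' : SL(2, ℤ))
    (e1 : ((a * d : ℕ) : ℤ) * h 0 0 = γ' 0 0 * a)
    (e2 : ((a * d : ℕ) : ℤ) * h 0 1 = γ' 0 0 * b + γ' 0 1 * d)
    (e3 : h 1 0 = γ' 1 0 * a) (e4 : h 1 1 = γ' 1 0 * b + γ' 1 1 * d) :
    (etaSlash (a * d) 1 0 (Nat.mul_pos ha hd) one_pos) ∣[(12 * ((a * d : ℕ) : ℤ) - 12 : ℤ)] h =
      etaSlash a d b ha hd := by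
  funext τ
  have hd' : (d : ℂ) ≠ 0 := by exact_mod_cast hd.ne'
  have hj := SL_denom_ne_zero h τ
  rw [SL_slash_apply, ModularGroup.denom_apply]
  unfold etaSlash
  rw [affPt_smul (a * d) a d b (Nat.mul_pos ha hd) ha hd h γ' e1 e2 e3 e4 τ,
    discriminant_SL_smul h τ, discriminant_SL_smul γ' (affPt a d b ha hd τ),
    hermite_denom a d b ha hd h γ' e3 e4 τ]
  set j := (h 1 0 : ℂ) * τ + (h 1 1 : ℂ) with hjdef
  have hΔ1 := discriminant_ne_zero (affPt a d b ha hd τ)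
  have hzp : j ^ (12 * (a * d)) * j ^ (-(12 * ((a * d : ℕ) : ℤ) - 12)) = j ^ 12 := by
    rw [← zpow_natCast j (12 * (a * d)), ← zpow_add₀ hj, ← zpow_natCast j 12]
    congr 1
    push_cast
    ring
  simp only [Nat.cast_one, one_pow, one_mul, mul_one]
  rw [mul_pow, ← pow_mul, div_pow]
  calc (j ^ (12 * (a * d)) * discriminant τ ^ (a * d)) /
        (j ^ 12 / (d : ℂ) ^ 12 * discriminant (affPt a d b ha hd τ)) *
        j ^ (-(12 * ((a * d : ℕ) : ℤ) - 12))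
      = (j ^ (12 * (a * d)) * j ^ (-(12 * ((a * d : ℕ) : ℤ) - 12))) * discriminant τ ^ (a * d) /
        (j ^ 12 / (d : ℂ) ^ 12 * discriminant (affPt a d b ha hd τ)) := by ring
    _ = j ^ 12 * discriminant τ ^ (a * d) /
        (j ^ 12 / (d : ℂ) ^ 12 * discriminant (affPt a d b ha hd τ)) := by rw [hzp]
    _ = (d : ℂ) ^ 12 * discriminant τ ^ (a * d) / discriminant (affPt a d b ha hd τ) := by
      field_simp

end Fermat.Agent.S23.helper74
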