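import Mathlib

/-!
# Galois descent for spaces of sequences (helper87, cluster S23)

* `exists_rat_of_forall_ringEquiv_fixed`: a complex number fixed by every ring automorphism of `ℂ`
  is rational.
* `span_rat_points_eq`: a finite-dimensional subspace of `ℕ → ℂ` which is stable under the
  coefficientwise action of every ring automorphism of `ℂ` is spanned by its rational points.
-/

set_option autoImplicit false

noncomputable section

namespace Fermat.Agent.S23.helper87

open MvPolynomial

/-- Any ring automorphism of the polynomial ring on a transcendence basis of `ℂ` over `R`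
extends to a ring automorphism of `ℂ`. -/
theorem exists_ringEquiv_extending {R : Type*} [Field R] [Algebra R ℂ] {ι : Type*}
    (v : ι → ℂ) (hv : IsTranscendenceBasis R v)
    (φ : MvPolynomial ι R ≃+* MvPolynomial ι R) :
    ∃ σ : ℂ ≃+* ℂ, ∀ p : MvPolynomial ι R, σ (aeval v p) = aeval v (φ p) := by
  let _ := IsAlgClosed.isAlgClosure_of_transcendence_basis v hv
  let e : Algebra.adjoin R (Set.range v) ≃+* Algebra.adjoin R (Set.range v) :=
    hv.1.aevalEquiv.symm.toRingEquiv.trans (φ.trans hv.1.aevalEquiv.toRingEquiv)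
  refine ⟨IsAlgClosure.equivOfEquiv ℂ ℂ e, fun p => ?_⟩
  have h1 : aeval v p = algebraMap (Algebra.adjoin R (Set.range v)) ℂ (hv.1.aevalEquiv p) := by
    simp
  have h2 : aeval v (φ p) =
      algebraMap (Algebra.adjoin R (Set.range v)) ℂ (hv.1.aevalEquiv (φ p)) := by
    simp
  rw [h1, h2, IsAlgClosure.equivOfEquiv_algebraMap]
  congr 1
  simp [e]

/-- A transcendental complex number is moved by some ring automorphism of `ℂ`. -/
theorem exists_ringEquiv_ne_of_transcendental {x : ℂ} (hx : Transcendental ℚ x) :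
    ∃ σ : ℂ ≃+* ℂ, σ x ≠ x := by
  classical
  have hs : AlgebraicIndepOn ℚ id ({x} : Set ℂ) := by
    have : AlgebraicIndependent ℚ (fun i : ({x} : Set ℂ) => (i : ℂ)) := by
      rw [algebraicIndependent_singleton_iff ⟨x, rfl⟩]
      exact hx
    exact this
  obtain ⟨t, hst, ht⟩ := exists_isTranscendenceBasis_superset hs
  have hxt : x ∈ t := hst rfl
  let i₀ : t := ⟨x, hxt⟩
  let f : MvPolynomial t ℚ →ₐ[ℚ] MvPolynomial t ℚ :=
    aeval fun i => X i + C (if i = i₀ then (1 : ℚ) else 0)
  let g : MvPolynomial t ℚ →ₐ[ℚ] MvPolynomial t ℚ :=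
    aeval fun i => X i - C (if i = i₀ then (1 : ℚ) else 0)
  have hfg : f.comp g = AlgHom.id ℚ _ := by
    apply MvPolynomial.algHom_ext
    intro i
    simp [f, g]
  have hgf : g.comp f = AlgHom.id ℚ _ := by
    apply MvPolynomial.algHom_ext
    intro i
    simp [f, g]
  let φ : MvPolynomial t ℚ ≃ₐ[ℚ] MvPolynomial t ℚ := AlgEquiv.ofAlgHom f g hfg hgf
  obtain ⟨σ, hσ⟩ := exists_ringEquiv_extending (fun i : t => (i : ℂ)) ht φ.toRingEquiv
  refine ⟨σ, ?_⟩
  have h := hσ (X i₀)
  have hφ : φ.toRingEquiv (X i₀) = X i₀ + C 1 := by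
    change f (X i₀) = _
    simp [f]
  rw [hφ] at h
  simp only [aeval_X, map_add, map_one] at h
  have : σ x = x + 1 := h
  rw [this]
  simp

/-- An algebraic irrational complex number is moved by some ring automorphism of `ℂ`. -/
theorem exists_ringEquiv_ne_of_isAlgebraic {x : ℂ} (hx : IsAlgebraic ℚ x)
    (hxQ : x ∉ Set.range (algebraMap ℚ ℂ)) :
    ∃ σ : ℂ ≃+* ℂ, σ x ≠ x := by
  classical
  have hxA : x ∈ algebraicClosure ℚ ℂ := (mem_algebraicClosure_iff).mpr hx
  let alg : Algebra ℚ (algebraicClosure ℚ ℂ) := (algebraicClosure ℚ ℂ).algebra'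
  have hcl : IsAlgClosure ℚ (algebraicClosure ℚ ℂ) := algebraicClosure.isAlgClosure ℚ ℂ
  have hgal : IsGalois ℚ (algebraicClosure ℚ ℂ) := IsAlgClosure.isGalois ℚ _
  let x' : algebraicClosure ℚ ℂ := ⟨x, hxA⟩
  have hx' : x' ∉ (⊥ : IntermediateField ℚ (algebraicClosure ℚ ℂ)) := by
    intro h
    rw [IntermediateField.mem_bot] at h
    obtain ⟨r, hr⟩ := h
    apply hxQ
    refine ⟨r, ?_⟩
    have := congrArg (fun a : algebraicClosure ℚ ℂ => (a : ℂ)) hr
    simpa using this
  have hex : ∃ f : algebraicClosure ℚ ℂ ≃ₐ[ℚ] algebraicClosure ℚ ℂ, f x' ≠ x' := by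
    by_contra hcon
    push Not at hcon
    exact hx' ((InfiniteGalois.mem_bot_iff_fixed x').mpr hcon)
  obtain ⟨f, hf⟩ := hex
  obtain ⟨ι, v, hv⟩ := exists_isTranscendenceBasis' (algebraicClosure ℚ ℂ) ℂ
  obtain ⟨σ, hσ⟩ := exists_ringEquiv_extending v hv (MvPolynomial.mapEquiv ι f.toRingEquiv)
  refine ⟨σ, ?_⟩
  have h := hσ (C x')
  simp only [MvPolynomial.mapEquiv_apply, MvPolynomial.map_C, aeval_C] at h
  intro hcon
  apply hf
  apply Subtype.ext
  have h1 : algebraMap (algebraicClosure ℚ ℂ) ℂ x' = x := rfl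
  rw [h1, hcon] at h
  exact h.symm

/-- **Fixed field of `Aut(ℂ)`**: a complex number fixed by every ring automorphism of `ℂ`
is rational. -/
theorem exists_rat_of_forall_ringEquiv_fixed (x : ℂ) (h : ∀ σ : ℂ ≃+* ℂ, σ x = x) :
    ∃ r : ℚ, x = (r : ℂ) := by
  by_cases hx : IsAlgebraic ℚ x
  · by_contra hcon
    have hxQ : x ∉ Set.range (algebraMap ℚ ℂ) := by
      rintro ⟨r, hr⟩
      exact hcon ⟨r, by rw [← hr]; simp⟩
    obtain ⟨σ, hσ⟩ := exists_ringEquiv_ne_of_isAlgebraic hx hxQ
    exact hσ (h σ)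
  · obtain ⟨σ, hσ⟩ := exists_ringEquiv_ne_of_transcendental (x := x) hx
    exact absurd (h σ) hσ

/-- **Galois descent**: a finite-dimensional `ℂ`-subspace `V` of the space of sequences
`ℕ → ℂ` which is stable under the coefficientwise action of all ring automorphisms of `ℂ`
is spanned by its rational points. -/
theorem span_rat_points_eq {ι : Type*} (V : Submodule ℂ (ι → ℂ)) [FiniteDimensional ℂ V]
    (hV : ∀ σ : ℂ ≃+* ℂ, ∀ v ∈ V, (fun n => σ (v n)) ∈ V) :
    Submodule.span ℂ {v | v ∈ V ∧ ∀ n, ∃ r : ℚ, v n = (r : ℂ)} = V := by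
  classical
  apply le_antisymm
  · rw [Submodule.span_le]
    intro v hv
    exact hv.1
  -- the coordinate functionals restricted to `V`
  let ev : ι → Module.Dual ℂ V := fun n => (LinearMap.proj n).comp V.subtype
  have hev : ∀ n (v : V), ev n v = (v : ι → ℂ) n := fun n v => rfl
  -- they span the dual
  have hspan : Submodule.span ℂ (Set.range ev) = ⊤ := by
    have hco : (Submodule.span ℂ (Set.range ev)).dualCoannihilator = ⊥ := by
      rw [eq_bot_iff]
      intro v hv
      rw [Submodule.mem_dualCoannihilator] at hv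
      rw [Submodule.mem_bot]
      apply Subtype.ext
      funext n
      have := hv (ev n) (Submodule.subset_span ⟨n, rfl⟩)
      simpa [hev] using this
    have h2 := Subspace.dualCoannihilator_dualAnnihilator_eq
      (W := Submodule.span ℂ (Set.range ev))
    rw [hco, Submodule.dualAnnihilator_bot] at h2
    exact h2.symm
  obtain ⟨f, hf_mem, hf_span, hf_li⟩ :=
    Submodule.exists_fun_fin_finrank_span_eq ℂ (Set.range ev)
  -- a basis of the dual consisting of coordinate functionals
  let B : Module.Basis _ ℂ (Module.Dual ℂ V) :=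
    Module.Basis.mk hf_li (by rw [hf_span, hspan])
  have hB : ∀ i, B i = f i := fun i => by simp [B]
  -- the predual basis of `V`
  let b : Module.Basis _ ℂ V := B.dualBasis.map (Module.evalEquiv ℂ V).symm
  have hb : ∀ i j, B i (b j) = if j = i then 1 else 0 := by
    intro i j
    have h1 : Module.evalEquiv ℂ V (b j) = B.dualBasis j := by simp [b]
    have h2 : B i (b j) = (Module.evalEquiv ℂ V (b j)) (B i) := by simp
    rw [h2, h1, Module.Basis.dualBasis_apply_self]
    simp only [eq_comm]
  -- each `b j` is fixed by all automorphisms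
  have hfix : ∀ (σ : ℂ ≃+* ℂ) j n, σ ((b j : ι → ℂ) n) = (b j : ι → ℂ) n := by
    intro σ j n
    let w : V := ⟨fun n => σ ((b j : ι → ℂ) n), hV σ _ (b j).2⟩
    have hw : w = b j := by
      have hz : w - b j = 0 := by
        rw [← Module.forall_dual_apply_eq_zero_iff ℂ]
        intro φ
        have hφ : φ ∈ Submodule.span ℂ (Set.range B) := by
          rw [B.span_eq]; trivial
        refine Submodule.span_induction ?_ ?_ ?_ ?_ hφ
        · rintro _ ⟨i, rfl⟩
          obtain ⟨m, hm⟩ := hf_mem i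
          rw [map_sub, sub_eq_zero]
          have e1 : B i w = σ ((b j : ι → ℂ) m) := by
            rw [hB, ← hm, hev]
          have e2 : B i (b j) = (b j : ι → ℂ) m := by
            rw [hB, ← hm, hev]
          rw [e1, ← e2, hb]
          split_ifs <;> simp
        · simp
        · intro x y _ _ hx hy
          simp [hx, hy]
        · intro a x _ hx
          simp [hx]
      exact sub_eq_zero.mp hz
    have := congrArg (fun v : V => (v : ι → ℂ) n) hw
    simpa [w] using this
  -- hence rational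
  have hrat : ∀ j, (b j : ι → ℂ) ∈ {v | v ∈ V ∧ ∀ n, ∃ r : ℚ, v n = (r : ℂ)} := by
    intro j
    refine ⟨(b j).2, fun n => ?_⟩
    exact exists_rat_of_forall_ringEquiv_fixed _ (fun σ => hfix σ j n)
  intro v hv
  have hv' : (⟨v, hv⟩ : V) ∈ Submodule.span ℂ (Set.range b) := by
    rw [b.span_eq]; trivial
  have : V.subtype ⟨v, hv⟩ ∈ Submodule.map V.subtype (Submodule.span ℂ (Set.range b)) :=
    Submodule.mem_map_of_mem hv'
  rw [Submodule.map_span] at this
  refine Submodule.span_mono ?_ this
  rintro _ ⟨_, ⟨j, rfl⟩, rfl⟩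
  exact hrat j

end Fermat.Agent.S23.helper87
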