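import Mathlib

set_option autoImplicit false

open UpperHalfPlane ModularForm ModularFormClass EisensteinSeries
open scoped MatrixGroups

namespace Fermat.Agent.S23.helper16

/-- The q-expansion of the level one Eisenstein series `E_k` is fixed by every ring
endomorphism of `ℂ` (its coefficients are rational). -/
theorem map_qExpansion_E (σ : ℂ →+* ℂ) {k : ℕ} (hk : 3 ≤ k) (hk2 : Even k) :
    PowerSeries.map σ (qExpansion 1 (E hk)) = qExpansion 1 (E hk) := by
  ext m
  rw [PowerSeries.coeff_map, E_qExpansion_coeff hk hk2 m]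
  split_ifs with h
  · simp
  · simp [map_neg, map_mul, map_div₀, map_natCast, map_ratCast, map_ofNat]

/-- The weight 12 level one form `E₄³ - E₆²`. -/
noncomputable def e4CubeSubE6Sq : ModularForm 𝒮ℒ 12 :=
  ModularForm.mcast (by decide) (E₄.pow 3) - ModularForm.mcast (by decide) (E₆.pow 2)

theorem qExpansion_e4CubeSubE6Sq :
    qExpansion 1 e4CubeSubE6Sq = qExpansion 1 E₄ ^ 3 - qExpansion 1 E₆ ^ 2 := by
  simp only [e4CubeSubE6Sq, FunLike.coe_sub, coe_mcast,
    ModularForm.qExpansion_sub one_pos one_mem_strictPeriods_SL,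
    ModularForm.qExpansion_pow one_pos one_mem_strictPeriods_SL]

theorem discriminant_eq_smul :
    (ModularForm.discriminant : ℍ → ℂ) = ((1728 : ℂ)⁻¹) • (e4CubeSubE6Sq : ℍ → ℂ) := by
  funext z
  rw [discriminant_eq_E₄_cube_sub_E₆_sq z]
  simp only [e4CubeSubE6Sq, Pi.smul_apply, smul_eq_mul, sub_apply, coe_mcast, coe_pow,
    Pi.pow_apply]
  ring

theorem qExpansion_discriminant :
    qExpansion 1 ModularForm.discriminant =
      ((1728 : ℂ)⁻¹) • (qExpansion 1 E₄ ^ 3 - qExpansion 1 E₆ ^ 2) := by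
  rw [discriminant_eq_smul, ModularForm.qExpansion_smul one_pos one_mem_strictPeriods_SL,
    qExpansion_e4CubeSubE6Sq]

/-- The q-expansion of `Δ` is fixed by every ring endomorphism of `ℂ`. -/
theorem map_qExpansion_discriminant (σ : ℂ →+* ℂ) :
    PowerSeries.map σ (qExpansion 1 ModularForm.discriminant) =
      qExpansion 1 ModularForm.discriminant := by
  rw [qExpansion_discriminant]
  have h4 := map_qExpansion_E σ (by norm_num : 3 ≤ 4) ⟨2, rfl⟩
  have h6 := map_qExpansion_E σ (by norm_num : 3 ≤ 6) ⟨3, rfl⟩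
  have hsmul : ∀ (c : ℂ) (p : PowerSeries ℂ),
      PowerSeries.map σ (c • p) = σ c • PowerSeries.map σ p := by
    intro c p
    ext n
    simp
  rw [hsmul, map_sub, map_pow, map_pow, h4, h6]
  simp [map_inv₀, map_ofNat]

end Fermat.Agent.S23.helper16

namespace Fermat.Agent.S23.helper16

theorem map_smul_powerSeries (σ : ℂ →+* ℂ) (c : ℂ) (p : PowerSeries ℂ) :
    PowerSeries.map σ (c • p) = σ c • PowerSeries.map σ p := by
  ext n
  simp

/-- Conjugate property: `G` has q-expansion `σ` applied to the q-expansion of `F`. -/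
def HasConj (σ : ℂ →+* ℂ) (k : ℤ) : Prop :=
  ∀ F : ModularForm 𝒮ℒ k, ∃ G : ModularForm 𝒮ℒ k,
    qExpansion 1 G = PowerSeries.map σ (qExpansion 1 F)

theorem hasConj_of_forall_eq_zero (σ : ℂ →+* ℂ) (k : ℤ)
    (h : ∀ F : ModularForm 𝒮ℒ k, F = 0) : HasConj σ k := by
  intro F
  refine ⟨0, ?_⟩
  rw [h F]
  simp [qExpansion_zero]

theorem hasConj_neg (σ : ℂ →+* ℂ) {k : ℤ} (hk : k < 0) : HasConj σ k :=
  hasConj_of_forall_eq_zero σ k
    (rank_zero_iff_forall_zero.mp (ModularForm.levelOne_neg_weight_rank_zero hk))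

theorem hasConj_odd (σ : ℂ →+* ℂ) {k : ℤ} (hk : Odd k) : HasConj σ k :=
  hasConj_of_forall_eq_zero σ k (ModularForm.levelOne_odd_weight_eq_zero hk)

theorem hasConj_two (σ : ℂ →+* ℂ) : HasConj σ 2 :=
  hasConj_of_forall_eq_zero σ 2
    (rank_zero_iff_forall_zero.mp ModularForm.levelOne_weight_two_rank_zero)

theorem hasConj_zero (σ : ℂ →+* ℂ) : HasConj σ 0 := by
  intro F
  have hF := ModularFormClass.levelOne_weight_zero_const F
  obtain ⟨c, hc⟩ := hF
  refine ⟨σ c • (1 : ModularForm 𝒮ℒ 0), ?_⟩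
  have h1 : (F : ℍ → ℂ) = c • ((1 : ModularForm 𝒮ℒ 0) : ℍ → ℂ) := by
    rw [hc]
    funext z
    simp
  rw [h1, ModularForm.qExpansion_smul one_pos one_mem_strictPeriods_SL,
    FunLike.coe_smul,
    ModularForm.qExpansion_smul one_pos one_mem_strictPeriods_SL,
    map_smul_powerSeries, ModularForm.qExpansion_one]
  simp

end Fermat.Agent.S23.helper16

namespace Fermat.Agent.S23.helper16

/-- Inductive step: weight `n ≥ 4` even, assuming the statement in weight `n - 12`. -/
theorem hasConj_step (σ : ℂ →+* ℂ) {n : ℕ} (hn : 3 ≤ n) (hn2 : Even n)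
    (ih : HasConj σ ((n : ℤ) - 12)) : HasConj σ (n : ℤ) := by
  intro F
  set c : ℂ := (qExpansion 1 F).coeff 0 with hc
  -- subtract the Eisenstein part
  set F₀ : ModularForm 𝒮ℒ (n : ℤ) := F - c • E hn with hF₀
  have hqF₀ : qExpansion 1 F₀ = qExpansion 1 F - c • qExpansion 1 (E hn) := by
    rw [hF₀, FunLike.coe_sub, ModularForm.qExpansion_sub one_pos one_mem_strictPeriods_SL,
      FunLike.coe_smul, ModularForm.qExpansion_smul one_pos one_mem_strictPeriods_SL]
  have h0 : (qExpansion 1 F₀).coeff 0 = 0 := by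
    rw [hqF₀, map_sub, PowerSeries.coeff_smul, E_qExpansion_coeff_zero hn hn2]
    simp [hc]
  have hmul := ModularForm.qExpansion_eq_qExpansion_discriminant_mul F₀ h0
  obtain ⟨G', hG'⟩ := ih (CuspForm.discriminantEquiv (F₀.toCuspForm h0))
  refine ⟨σ c • E hn + CuspForm.toModularFormₗ (CuspForm.ofMulDiscriminant G'), ?_⟩
  have hprod : qExpansion 1 (CuspForm.toModularFormₗ (CuspForm.ofMulDiscriminant G') :
      ModularForm 𝒮ℒ (n : ℤ)) = qExpansion 1 ModularForm.discriminant * qExpansion 1 G' := by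
    have : ((CuspForm.toModularFormₗ (CuspForm.ofMulDiscriminant G') :
        ModularForm 𝒮ℒ (n : ℤ)) : ℍ → ℂ) =
        (CuspForm.discriminant : ℍ → ℂ) * (G' : ℍ → ℂ) := by
      funext z
      simp [CuspForm.toModularFormₗ_apply]
    rw [this, ModularForm.qExpansion_mul_coe one_pos one_mem_strictPeriods_SL]
    rfl
  have hF : qExpansion 1 F = c • qExpansion 1 (E hn) +
      qExpansion 1 ModularForm.discriminant *
        qExpansion 1 (CuspForm.discriminantEquiv (F₀.toCuspForm h0)) := by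
    rw [← hmul, hqF₀]
    abel
  rw [FunLike.coe_add, ModularForm.qExpansion_add one_pos one_mem_strictPeriods_SL,
    FunLike.coe_smul, ModularForm.qExpansion_smul one_pos one_mem_strictPeriods_SL, hprod, hG']
  conv_rhs => rw [hF]
  rw [map_add, map_mul, map_smul_powerSeries, map_qExpansion_E σ hn hn2,
    map_qExpansion_discriminant]

end Fermat.Agent.S23.helper16

namespace Fermat.Agent.S23.helper16

theorem hasConj_of_lt (σ : ℂ →+* ℂ) : ∀ (n : ℕ) (k : ℤ), k < n → HasConj σ k := by
  intro n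
  induction n with
  | zero =>
    intro k hk
    exact hasConj_neg σ (by simpa using hk)
  | succ n ih =>
    intro k hk
    have hk' : k ≤ (n : ℤ) := by push_cast at hk; omega
    rcases lt_or_eq_of_le hk' with h | h
    · exact ih k h
    · subst h
      rcases Nat.even_or_odd n with he | ho
      · rcases Nat.lt_or_ge n 3 with h3 | h3
        · have : n = 0 ∨ n = 2 := by
            rcases he with ⟨r, hr⟩
            omega
          rcases this with rfl | rfl
          · exact hasConj_zero σ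
          · exact hasConj_two σ
        · exact hasConj_step σ h3 he (ih _ (by omega))
      · exact hasConj_odd σ (by exact_mod_cast ho)

/-- **Level one forms are stable under conjugation of q-expansion coefficients.**
For every ring endomorphism `σ` of `ℂ` and every level one modular form `F` there is a level
one modular form `G` of the same weight whose q-expansion is `σ` applied to that of `F`. -/
theorem exists_conj_levelOne_map (σ : ℂ →+* ℂ) (k : ℤ) (F : ModularForm 𝒮ℒ k) :
    ∃ G : ModularForm 𝒮ℒ k, qExpansion 1 G = PowerSeries.map σ (qExpansion 1 F) :=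
  hasConj_of_lt σ (k.toNat + 1) k (by omega) F

theorem exists_conj_levelOne (σ : ℂ →+* ℂ) (k : ℤ) (F : ModularForm 𝒮ℒ k) :
    ∃ G : ModularForm 𝒮ℒ k, ∀ n, (qExpansion 1 G).coeff n = σ ((qExpansion 1 F).coeff n) := by
  obtain ⟨G, hG⟩ := exists_conj_levelOne_map σ k F
  exact ⟨G, fun n => by rw [hG, PowerSeries.coeff_map]⟩

/-- Cusp form version. -/
theorem exists_conj_levelOne_cuspForm (σ : ℂ →+* ℂ) (k : ℤ) (F : CuspForm 𝒮ℒ k) :
    ∃ G : CuspForm 𝒮ℒ k, ∀ n, (qExpansion 1 G).coeff n = σ ((qExpansion 1 F).coeff n) := by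
  obtain ⟨G, hG⟩ := exists_conj_levelOne σ k (CuspForm.toModularFormₗ F)
  have hF0 : (qExpansion 1 (CuspForm.toModularFormₗ F)).coeff 0 = 0 :=
    (ModularForm.isCuspForm_iff_coeffZero_eq_zero _).mp
      (CuspForm.isCuspForm_toModularFormₗ F)
  have hG0 : (qExpansion 1 G).coeff 0 = 0 := by rw [hG 0, hF0, map_zero]
  refine ⟨G.toCuspForm hG0, fun n => ?_⟩
  have h1 : ((G.toCuspForm hG0 : CuspForm 𝒮ℒ k) : ℍ → ℂ) = (G : ℍ → ℂ) := by
    funext z
    simp [ModularForm.toCuspForm_apply]
  have h2 : ((CuspForm.toModularFormₗ F : ModularForm 𝒮ℒ k) : ℍ → ℂ) = (F : ℍ → ℂ) := by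
    funext z
    simp [CuspForm.toModularFormₗ_apply]
  rw [h1, hG n, h2]

end Fermat.Agent.S23.helper16
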