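import Mathlib
import Fermat.Agent.S23.helper16_LevelOneConj

set_option autoImplicit false

open UpperHalfPlane ModularForm ModularFormClass EisensteinSeries
open scoped MatrixGroups

namespace Fermat.Agent.S23

/-- A complex power series with integer coefficients. -/
def IsIntSeries (p : PowerSeries ℂ) : Prop :=
  ∃ a : PowerSeries ℤ, p = a.map (Int.castRingHom ℂ)

theorem isIntSeries_iff (p : PowerSeries ℂ) :
    IsIntSeries p ↔ ∀ m, ∃ a : ℤ, p.coeff m = (a : ℂ) := by
  constructor
  · rintro ⟨a, rfl⟩ m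
    exact ⟨a.coeff m, by simp⟩
  · intro h
    choose a ha using h
    refine ⟨PowerSeries.mk a, ?_⟩
    ext m
    simp [ha m]

theorem IsIntSeries.one : IsIntSeries 1 := ⟨1, by simp⟩

theorem IsIntSeries.zero : IsIntSeries 0 := ⟨0, by simp⟩

theorem IsIntSeries.mul {p q : PowerSeries ℂ} (hp : IsIntSeries p) (hq : IsIntSeries q) :
    IsIntSeries (p * q) := by
  obtain ⟨a, rfl⟩ := hp
  obtain ⟨b, rfl⟩ := hq
  exact ⟨a * b, by simp⟩

theorem IsIntSeries.add {p q : PowerSeries ℂ} (hp : IsIntSeries p) (hq : IsIntSeries q) :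
    IsIntSeries (p + q) := by
  obtain ⟨a, rfl⟩ := hp
  obtain ⟨b, rfl⟩ := hq
  exact ⟨a + b, by simp⟩

theorem IsIntSeries.sub {p q : PowerSeries ℂ} (hp : IsIntSeries p) (hq : IsIntSeries q) :
    IsIntSeries (p - q) := by
  obtain ⟨a, rfl⟩ := hp
  obtain ⟨b, rfl⟩ := hq
  exact ⟨a - b, by simp⟩

theorem IsIntSeries.pow {p : PowerSeries ℂ} (hp : IsIntSeries p) (n : ℕ) :
    IsIntSeries (p ^ n) := by
  obtain ⟨a, rfl⟩ := hp
  exact ⟨a ^ n, by simp⟩

/-- The formal series `∑ σ_k(n) qⁿ` over `ℤ`. -/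
noncomputable def sigmaSeries (k : ℕ) : PowerSeries ℤ :=
  PowerSeries.mk fun n => (ArithmeticFunction.sigma k n : ℤ)

theorem coeff_sigmaSeries (k m : ℕ) :
    (sigmaSeries k).coeff m = (ArithmeticFunction.sigma k m : ℤ) := by
  simp [sigmaSeries]

theorem coeff_sigmaSeries_zero (k : ℕ) : (sigmaSeries k).coeff 0 = 0 := by
  simp [coeff_sigmaSeries]

/-- The integral q-expansion of `E₄`. -/
noncomputable def e4Int : PowerSeries ℤ := 1 + PowerSeries.C (240 : ℤ) * sigmaSeries 3

/-- The integral q-expansion of `E₆`. -/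
noncomputable def e6Int : PowerSeries ℤ := 1 - PowerSeries.C (504 : ℤ) * sigmaSeries 5

theorem qExpansion_E₄ : qExpansion 1 E₄ = e4Int.map (Int.castRingHom ℂ) := by
  ext m
  rw [E_qExpansion_coeff (by norm_num : 3 ≤ 4) ⟨2, rfl⟩ m, PowerSeries.coeff_map, e4Int,
    map_add, PowerSeries.coeff_C_mul, coeff_sigmaSeries, PowerSeries.coeff_one,
    show bernoulli 4 = -1 / 30 by decide +kernel]
  rcases Nat.eq_zero_or_pos m with rfl | hm
  · simp
  · have hm' : m ≠ 0 := hm.ne'
    simp only [hm', if_false]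
    push_cast
    norm_num

theorem qExpansion_E₆ : qExpansion 1 E₆ = e6Int.map (Int.castRingHom ℂ) := by
  ext m
  rw [E_qExpansion_coeff (by norm_num : 3 ≤ 6) ⟨3, rfl⟩ m, PowerSeries.coeff_map, e6Int,
    map_sub, PowerSeries.coeff_C_mul, coeff_sigmaSeries, PowerSeries.coeff_one,
    show bernoulli 6 = 1 / 42 by decide +kernel]
  rcases Nat.eq_zero_or_pos m with rfl | hm
  · simp
  · have hm' : m ≠ 0 := hm.ne'
    simp only [hm', if_false]
    push_cast
    norm_num

theorem twelve_dvd_aux (d : ℕ) : (12 : ℤ) ∣ 5 * (d : ℤ) ^ 3 + 7 * (d : ℤ) ^ 5 := by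
  have h : ∀ x : ZMod 12, 5 * x ^ 3 + 7 * x ^ 5 = 0 := by decide
  have := h (d : ZMod 12)
  have h2 : ((5 * (d : ℤ) ^ 3 + 7 * (d : ℤ) ^ 5 : ℤ) : ZMod 12) = 0 := by
    push_cast
    exact this
  exact (ZMod.intCast_zmod_eq_zero_iff_dvd _ 12).mp h2

theorem twelve_dvd_sigma (n : ℕ) :
    (12 : ℤ) ∣ 5 * (ArithmeticFunction.sigma 3 n : ℤ) + 7 * (ArithmeticFunction.sigma 5 n : ℤ) := by
  rw [ArithmeticFunction.sigma_apply, ArithmeticFunction.sigma_apply]
  push_cast
  rw [Finset.mul_sum, Finset.mul_sum, ← Finset.sum_add_distrib]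
  exact Finset.dvd_sum fun d _ => twelve_dvd_aux d

/-- The series `∑ (5 σ₃(n) + 7 σ₅(n)) / 12 qⁿ`. -/
noncomputable def cSeries : PowerSeries ℤ :=
  PowerSeries.mk fun n =>
    (5 * (ArithmeticFunction.sigma 3 n : ℤ) + 7 * (ArithmeticFunction.sigma 5 n : ℤ)) / 12

theorem C_twelve_mul_cSeries :
    PowerSeries.C (12 : ℤ) * cSeries =
      PowerSeries.C (5 : ℤ) * sigmaSeries 3 + PowerSeries.C (7 : ℤ) * sigmaSeries 5 := by
  ext n
  rw [PowerSeries.coeff_C_mul, map_add, PowerSeries.coeff_C_mul, PowerSeries.coeff_C_mul,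
    coeff_sigmaSeries, coeff_sigmaSeries, cSeries, PowerSeries.coeff_mk]
  exact Int.mul_ediv_cancel' (twelve_dvd_sigma n)

/-- The integral q-expansion of `Δ`. -/
noncomputable def deltaInt : PowerSeries ℤ :=
  cSeries + PowerSeries.C (100 : ℤ) * sigmaSeries 3 ^ 2
    + PowerSeries.C (8000 : ℤ) * sigmaSeries 3 ^ 3 - PowerSeries.C (147 : ℤ) * sigmaSeries 5 ^ 2

theorem e4Int_cube_sub_e6Int_sq : e4Int ^ 3 - e6Int ^ 2 = PowerSeries.C (1728 : ℤ) * deltaInt := by
  have h := C_twelve_mul_cSeries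
  have h144 : (PowerSeries.C (144 : ℤ) : PowerSeries ℤ) = 144 := by
    simp [map_ofNat]
  have e1 : (PowerSeries.C (240 : ℤ) : PowerSeries ℤ) = 240 := by simp [map_ofNat]
  have e2 : (PowerSeries.C (504 : ℤ) : PowerSeries ℤ) = 504 := by simp [map_ofNat]
  have e3 : (PowerSeries.C (1728 : ℤ) : PowerSeries ℤ) = 1728 := by simp [map_ofNat]
  have e4 : (PowerSeries.C (100 : ℤ) : PowerSeries ℤ) = 100 := by simp [map_ofNat]
  have e5 : (PowerSeries.C (8000 : ℤ) : PowerSeries ℤ) = 8000 := by simp [map_ofNat]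
  have e6 : (PowerSeries.C (147 : ℤ) : PowerSeries ℤ) = 147 := by simp [map_ofNat]
  have e7 : (PowerSeries.C (12 : ℤ) : PowerSeries ℤ) = 12 := by simp [map_ofNat]
  have e8 : (PowerSeries.C (5 : ℤ) : PowerSeries ℤ) = 5 := by simp [map_ofNat]
  have e9 : (PowerSeries.C (7 : ℤ) : PowerSeries ℤ) = 7 := by simp [map_ofNat]
  rw [e7, e8, e9] at h
  rw [e4Int, e6Int, deltaInt, e1, e2, e3, e4, e5, e6]
  linear_combination (-144 : PowerSeries ℤ) * h

theorem qExpansion_discriminant_eq_map :
    qExpansion 1 ModularForm.discriminant = deltaInt.map (Int.castRingHom ℂ) := by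
  rw [Fermat.Agent.S23.helper16.qExpansion_discriminant, qExpansion_E₄, qExpansion_E₆,
    ← map_pow, ← map_pow, ← map_sub, e4Int_cube_sub_e6Int_sq]
  ext m
  rw [PowerSeries.coeff_smul, PowerSeries.coeff_map, PowerSeries.coeff_C_mul,
    PowerSeries.coeff_map]
  simp only [eq_intCast, Int.cast_mul, Int.cast_ofNat, smul_eq_mul]
  field_simp

/-- **The q-expansion of `Δ` has integer coefficients.** -/
theorem discriminant_qExpansion_int (m : ℕ) :
    ∃ a : ℤ, (qExpansion 1 ModularForm.discriminant).coeff m = (a : ℂ) :=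
  ⟨deltaInt.coeff m, by rw [qExpansion_discriminant_eq_map]; simp⟩

end Fermat.Agent.S23

namespace Fermat.Agent.S23

/-- A nonzero integer multiple of the level one Eisenstein series `E_k` has an integral
q-expansion. -/
theorem exists_int_smul_E_isIntSeries {k : ℕ} (hk : 3 ≤ k) (hk2 : Even k) :
    ∃ d : ℤ, d ≠ 0 ∧ IsIntSeries ((d : ℂ) • qExpansion 1 (E hk)) := by
  by_cases hB : bernoulli k = 0
  · refine ⟨1, one_ne_zero, ?_⟩
    rw [isIntSeries_iff]
    intro m
    rw [PowerSeries.coeff_smul, E_qExpansion_coeff hk hk2 m]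
    split_ifs with h
    · exact ⟨1, by simp⟩
    · exact ⟨0, by simp [hB]⟩
  · refine ⟨(bernoulli k).num, by simpa using hB, ?_⟩
    rw [isIntSeries_iff]
    intro m
    rw [PowerSeries.coeff_smul, E_qExpansion_coeff hk hk2 m]
    split_ifs with h
    · exact ⟨(bernoulli k).num, by simp⟩
    · refine ⟨-(2 * k * (bernoulli k).den) * ArithmeticFunction.sigma (k - 1) m, ?_⟩
      have hnum : ((bernoulli k).num : ℂ) ≠ 0 := by
        simpa using hB
      have hden : ((bernoulli k).den : ℂ) ≠ 0 := by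
        exact_mod_cast (bernoulli k).den_ne_zero
      have hb : ((bernoulli k : ℚ) : ℂ) = ((bernoulli k).num : ℂ) / ((bernoulli k).den : ℂ) := by
        conv_lhs => rw [← Rat.num_div_den (bernoulli k)]
        push_cast
        rfl
      rw [hb, smul_eq_mul]
      push_cast
      field_simp

end Fermat.Agent.S23

namespace Fermat.Agent.S23

/-- The level one forms of weight `W` are spanned by finitely many forms with integral
q-expansions. -/
def HasIntSpan (W : ℤ) : Prop :=
  ∃ (n : ℕ) (B : Fin n → ModularForm 𝒮ℒ W),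
    (∀ i m, ∃ a : ℤ, (qExpansion 1 (B i)).coeff m = (a : ℂ)) ∧
    ∀ s : ModularForm 𝒮ℒ W, ∃ c : Fin n → ℂ, s = ∑ i, c i • B i

theorem hasIntSpan_of_forall_eq_zero (W : ℤ) (h : ∀ F : ModularForm 𝒮ℒ W, F = 0) :
    HasIntSpan W := by
  refine ⟨0, fun i => i.elim0, fun i => i.elim0, fun s => ⟨fun i => i.elim0, ?_⟩⟩
  rw [h s]
  simp

theorem hasIntSpan_neg {W : ℤ} (hW : W < 0) : HasIntSpan W :=
  hasIntSpan_of_forall_eq_zero W
    (rank_zero_iff_forall_zero.mp (ModularForm.levelOne_neg_weight_rank_zero hW))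

theorem hasIntSpan_odd {W : ℤ} (hW : Odd W) : HasIntSpan W :=
  hasIntSpan_of_forall_eq_zero W (ModularForm.levelOne_odd_weight_eq_zero hW)

theorem hasIntSpan_two : HasIntSpan 2 :=
  hasIntSpan_of_forall_eq_zero 2
    (rank_zero_iff_forall_zero.mp ModularForm.levelOne_weight_two_rank_zero)

theorem hasIntSpan_zero : HasIntSpan 0 := by
  refine ⟨1, fun _ => (1 : ModularForm 𝒮ℒ 0), fun _ m => ?_, fun s => ?_⟩
  · rw [ModularForm.qExpansion_one]
    by_cases hm : m = 0
    · exact ⟨1, by simp [hm]⟩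
    · exact ⟨0, by simp [PowerSeries.coeff_one, hm]⟩
  · obtain ⟨c, hc⟩ := ModularFormClass.levelOne_weight_zero_const s
    refine ⟨fun _ => c, ?_⟩
    ext z
    simp [hc]

end Fermat.Agent.S23

namespace Fermat.Agent.S23

theorem qExpansion_ofMulDiscriminant {k : ℤ} (G' : ModularForm 𝒮ℒ (k - 12)) :
    qExpansion 1 (CuspForm.toModularFormₗ (CuspForm.ofMulDiscriminant G') :
      ModularForm 𝒮ℒ k) = qExpansion 1 ModularForm.discriminant * qExpansion 1 G' := by
  have : ((CuspForm.toModularFormₗ (CuspForm.ofMulDiscriminant G') :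
      ModularForm 𝒮ℒ k) : ℍ → ℂ) =
      (CuspForm.discriminant : ℍ → ℂ) * (G' : ℍ → ℂ) := by
    funext z
    simp [CuspForm.toModularFormₗ_apply]
  rw [this, ModularForm.qExpansion_mul_coe one_pos one_mem_strictPeriods_SL]
  rfl

theorem hasIntSpan_step {n : ℕ} (hn : 3 ≤ n) (hn2 : Even n)
    (ih : HasIntSpan ((n : ℤ) - 12)) : HasIntSpan (n : ℤ) := by
  obtain ⟨r, B', hB'int, hB'span⟩ := ih
  obtain ⟨d, hd, hdE⟩ := exists_int_smul_E_isIntSeries hn hn2
  refine ⟨r + 1, Fin.cons ((d : ℂ) • E hn)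
    (fun i => CuspForm.toModularFormₗ (CuspForm.ofMulDiscriminant (B' i))), ?_, ?_⟩
  · intro i m
    refine Fin.cases ?_ ?_ i
    · simp only [Fin.cons_zero]
      rw [FunLike.coe_smul, ModularForm.qExpansion_smul one_pos one_mem_strictPeriods_SL]
      exact (isIntSeries_iff _).mp hdE m
    · intro j
      simp only [Fin.cons_succ]
      rw [qExpansion_ofMulDiscriminant]
      have h1 : IsIntSeries (qExpansion 1 ModularForm.discriminant) :=
        ⟨deltaInt, qExpansion_discriminant_eq_map⟩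
      have h2 : IsIntSeries (qExpansion 1 (B' j)) := (isIntSeries_iff _).mpr (hB'int j)
      exact (isIntSeries_iff _).mp (h1.mul h2) m
  · intro s
    set c : ℂ := (qExpansion 1 s).coeff 0 with hc
    set s₀ : ModularForm 𝒮ℒ (n : ℤ) := s - c • E hn with hs₀
    have hqs₀ : qExpansion 1 s₀ = qExpansion 1 s - c • qExpansion 1 (E hn) := by
      rw [hs₀, FunLike.coe_sub, ModularForm.qExpansion_sub one_pos one_mem_strictPeriods_SL,
        FunLike.coe_smul, ModularForm.qExpansion_smul one_pos one_mem_strictPeriods_SL]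
    have h0 : (qExpansion 1 s₀).coeff 0 = 0 := by
      rw [hqs₀, map_sub, PowerSeries.coeff_smul, E_qExpansion_coeff_zero hn hn2]
      simp [hc]
    obtain ⟨c', hc'⟩ := hB'span (CuspForm.discriminantEquiv (s₀.toCuspForm h0))
    refine ⟨Fin.cons (c / d) c', ?_⟩
    rw [Fin.sum_univ_succ]
    simp only [Fin.cons_zero, Fin.cons_succ]
    have hdC : (d : ℂ) ≠ 0 := by exact_mod_cast hd
    ext z
    have hz : ModularForm.discriminant z * (CuspForm.discriminantEquiv (s₀.toCuspForm h0)) z
        = s₀ z := by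
      rw [ModularForm.discriminant_mul_discriminantEquiv_apply]
      rfl
    have hs₀z : s₀ z = s z - c * E hn z := by
      rw [hs₀]
      rfl
    rw [hc'] at hz
    have hsum : ∀ (t : Finset (Fin r)), (∑ i ∈ t, c' i • B' i) z = ∑ i ∈ t, c' i * B' i z := by
      intro t
      induction t using Finset.induction_on with
      | empty => simp
      | insert a t ha iht =>
        rw [Finset.sum_insert ha, Finset.sum_insert ha, add_apply, iht]
        rfl
    have hsum2 : ∀ (t : Finset (Fin r)),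
        (∑ i ∈ t, c' i • (CuspForm.toModularFormₗ (CuspForm.ofMulDiscriminant (B' i)) :
          ModularForm 𝒮ℒ (n : ℤ))) z = ∑ i ∈ t, c' i * (ModularForm.discriminant z * B' i z) := by
      intro t
      induction t using Finset.induction_on with
      | empty => simp
      | insert a t ha iht =>
        rw [Finset.sum_insert ha, Finset.sum_insert ha, add_apply, iht]
        rfl
    rw [add_apply, hsum2]
    rw [hsum, Finset.mul_sum, hs₀z] at hz
    have e1 : ((c / (d : ℂ)) • ((d : ℂ) • E hn) : ModularForm 𝒮ℒ (n : ℤ)) z = c * E hn z := by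
      change (c / (d : ℂ)) * ((d : ℂ) * E hn z) = c * E hn z
      field_simp
    rw [e1]
    have e2 : ∑ i, c' i * (ModularForm.discriminant z * B' i z) =
        ∑ i, ModularForm.discriminant z * (c' i * B' i z) :=
      Finset.sum_congr rfl fun i _ => by ring
    rw [e2, hz]
    ring

end Fermat.Agent.S23

namespace Fermat.Agent.S23

theorem hasIntSpan_of_lt : ∀ (n : ℕ) (k : ℤ), k < n → HasIntSpan k := by
  intro n
  induction n with
  | zero =>
    intro k hk
    exact hasIntSpan_neg (by simpa using hk)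
  | succ n ih =>
    intro k hk
    have hk' : k ≤ (n : ℤ) := by push_cast at hk; omega
    rcases lt_or_eq_of_le hk' with h | h
    · exact ih k h
    · subst h
      rcases Nat.even_or_odd n with he | ho
      · rcases Nat.lt_or_ge n 3 with h3 | h3
        · have : n = 0 ∨ n = 2 := by
            rcases he with ⟨r, hr⟩
            omega
          rcases this with rfl | rfl
          · exact hasIntSpan_zero
          · exact hasIntSpan_two
        · exact hasIntSpan_step h3 he (ih _ (by omega))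
      · exact hasIntSpan_odd (by exact_mod_cast ho)

/-- **Level one forms of any weight are spanned by finitely many forms with integral
q-expansions.** -/
theorem levelOne_exists_int_span (W : ℤ) : ∃ (n : ℕ) (B : Fin n → ModularForm 𝒮ℒ W),
    (∀ i m, ∃ a : ℤ, (qExpansion 1 (B i)).coeff m = (a : ℂ)) ∧
    ∀ s : ModularForm 𝒮ℒ W, ∃ c : Fin n → ℂ, s = ∑ i, c i • B i :=
  hasIntSpan_of_lt (W.toNat + 1) W (by omega)

end Fermat.Agent.S23
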