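import Mathlib
import Fermat.Prelude.Def_CuspForm_IntegralStructure
import Fermat.Prelude.Thm_CuspForm_intLattice_fg
import Fermat.Agent.S23.helper87_GaloisDescent

/-!
# Rational structure on `S_k(Γ₀(N))` from `Aut(ℂ)`-stability (helper87, cluster S23)

If the space of cusp forms of level `Γ₀(N)` and weight `k` is stable under the action of
`Aut(ℂ)` on `q`-expansion coefficients, then it is spanned by forms with rational
`q`-expansion coefficients.
-/

set_option autoImplicit false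

noncomputable section

namespace Fermat.Agent.S23.helper87

open ModularFormClass CongruenceSubgroup
open P2MW.S_CuspForm_intLattice_fg.W3WsD

variable {N : ℕ} {k : ℤ}

theorem qCoeff_smul_cuspForm (c : ℂ) (f : CuspForm (Gamma0 N) k) (n : ℕ) :
    qCoeff ⇑(c • f) n = c * qCoeff ⇑f n := by
  have h1 : ⇑(c • f) = c • ⇑f := by
    ext z
    simp
  simp only [qCoeff, h1]
  rw [ModularForm.qExpansion_smul one_pos (hΓ N) c f]
  simp

/-- The `q`-expansion coefficient map, as a `ℂ`-linear map. -/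
def qCoeffLin (N : ℕ) (k : ℤ) : CuspForm (Gamma0 N) k →ₗ[ℂ] (ℕ → ℂ) where
  toFun f n := qCoeff ⇑f n
  map_add' f g := by
    funext n
    exact qCoeff_add f g n
  map_smul' c f := by
    funext n
    simp only [Pi.smul_apply, RingHom.id_apply, smul_eq_mul]
    exact qCoeff_smul_cuspForm c f n

@[simp] theorem qCoeffLin_apply (f : CuspForm (Gamma0 N) k) (n : ℕ) :
    qCoeffLin N k f n = qCoeff ⇑f n := rfl

theorem qCoeffLin_injective (N : ℕ) [NeZero N] (k : ℤ) :
    Function.Injective (qCoeffLin N k) := by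
  intro f g hfg
  apply trunc_injective N k
  funext i
  exact congrFun hfg i

instance finiteDimensional_cuspForm_Gamma0 (N : ℕ) [NeZero N] (k : ℤ) :
    FiniteDimensional ℂ (CuspForm (Gamma0 N) k) := by
  let T : CuspForm (Gamma0 N) k →ₗ[ℂ] (Fin (sturmB N k + 1) → ℂ) :=
    (LinearMap.funLeft ℂ ℂ (fun i : Fin (sturmB N k + 1) => (i : ℕ))).comp (qCoeffLin N k)
  have hT : Function.Injective T := by
    intro f g hfg
    apply trunc_injective N k
    funext i
    exact congrFun hfg i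
  exact FiniteDimensional.of_injective T hT

/-- If `S_k(Γ₀(N))` is stable under `Aut(ℂ)` acting on `q`-expansion coefficients, then it is
spanned by the forms with rational `q`-expansion coefficients. -/
theorem span_rational_eq_top (N : ℕ) [NeZero N] (k : ℤ)
    (hstab : ∀ (σ : ℂ ≃+* ℂ) (f : CuspForm (Gamma0 N) k),
      ∃ g : CuspForm (Gamma0 N) k, ∀ n, qCoeff ⇑g n = σ (qCoeff ⇑f n)) :
    Submodule.span ℂ {f : CuspForm (Gamma0 N) k | ∀ n, ∃ r : ℚ, qCoeff ⇑f n = (r : ℂ)} = ⊤ := by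
  set Φ := qCoeffLin N k with hΦ
  have hinj := qCoeffLin_injective N k
  let V : Submodule ℂ (ℕ → ℂ) := LinearMap.range Φ
  have hVstab : ∀ σ : ℂ ≃+* ℂ, ∀ v ∈ V, (fun n => σ (v n)) ∈ V := by
    rintro σ _ ⟨f, rfl⟩
    obtain ⟨g, hg⟩ := hstab σ f
    exact ⟨g, funext fun n => hg n⟩
  have hspan := span_rat_points_eq V hVstab
  rw [eq_top_iff]
  intro f _
  have hf : Φ f ∈ V := ⟨f, rfl⟩
  rw [← hspan] at hf
  have hsub : {v | v ∈ V ∧ ∀ n, ∃ r : ℚ, v n = (r : ℂ)} ⊆
      Φ '' {f : CuspForm (Gamma0 N) k | ∀ n, ∃ r : ℚ, qCoeff ⇑f n = (r : ℂ)} := by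
    rintro _ ⟨⟨g, rfl⟩, hr⟩
    exact ⟨g, hr, rfl⟩
  have hf' := Submodule.span_mono hsub hf
  rw [← Submodule.map_span] at hf'
  obtain ⟨g, hg, hgf⟩ := hf'
  rw [← hinj hgf]
  exact hg

end Fermat.Agent.S23.helper87
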