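import Mathlib
import Fermat.Agent.S23.helper35_Hermite

/-!
# Slash action by upper triangular integer matrices and the function `Δ(Nz)`
-/

open UpperHalfPlane ModularForm Filter
open scoped MatrixGroups ModularForm Manifold Topology

namespace Fermat.Agent.S23.helper35

local notation "Δ" => ModularForm.discriminant

/-- The upper triangular matrix `[[A, B], [0, D]]` (with `A, D > 0`) as an element of `GL(2, ℝ)`. -/
noncomputable def ut (A D : ℕ) (B : ℤ) (hA : 0 < A) (hD : 0 < D) : GL (Fin 2) ℝ :=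
  Matrix.GeneralLinearGroup.mkOfDetNeZero !![(A : ℝ), (B : ℝ); 0, (D : ℝ)] (by
    rw [Matrix.det_fin_two_of, mul_zero, sub_zero]
    positivity)

variable {A D : ℕ} {B : ℤ} (hA : 0 < A) (hD : 0 < D)

@[simp] lemma val_ut : ((ut A D B hA hD : GL (Fin 2) ℝ) : Matrix (Fin 2) (Fin 2) ℝ) =
    !![(A : ℝ), (B : ℝ); 0, (D : ℝ)] := rfl

lemma det_ut : ((ut A D B hA hD).det : ℝ) = A * D := by
  rw [Matrix.GeneralLinearGroup.val_det_apply, val_ut, Matrix.det_fin_two_of]
  ring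

lemma det_ut_pos : 0 < ((ut A D B hA hD).det : ℝ) := by
  rw [det_ut]; positivity

lemma denom_ut (τ : ℍ) : denom (ut A D B hA hD) τ = D := by
  simp [denom, val_ut]

lemma σ_ut : σ (ut A D B hA hD) = .refl ℝ ℂ := by
  rw [σ, if_pos (det_ut_pos hA hD)]

lemma coe_ut_smul (τ : ℍ) : ((ut A D B hA hD • τ : ℍ) : ℂ) = ((A : ℂ) * τ + B) / D := by
  rw [coe_smul_of_det_pos (det_ut_pos hA hD)]
  simp [num, denom, val_ut]

lemma im_ut_smul (τ : ℍ) : (ut A D B hA hD • τ).im = (A : ℝ) / D * τ.im := by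
  have h := coe_ut_smul (B := B) hA hD τ
  have hD' : (D : ℝ) ≠ 0 := by positivity
  have : (ut A D B hA hD • τ).im = (((A : ℂ) * τ + B) / D).im := by
    rw [← h]; rfl
  rw [this]
  have h2 : ((A : ℂ) * τ + B) / D = (((A : ℝ) / D : ℝ) : ℂ) * τ + (((B : ℝ) / D : ℝ) : ℂ) := by
    push_cast
    field_simp
  rw [h2]
  simp [Complex.add_im, Complex.mul_im]

lemma ut_apply_one_zero : (ut A D B hA hD : GL (Fin 2) ℝ) 1 0 = 0 := by
  simp [ut]

lemma slash_ut_apply (k : ℤ) (f : ℍ → ℂ) (τ : ℍ) :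
    (f ∣[k] ut A D B hA hD) τ =
      f (ut A D B hA hD • τ) * ((A : ℂ) * D) ^ (k - 1) * (D : ℂ) ^ (-k) := by
  rw [ModularForm.slash_apply, σ_ut, det_ut, denom_ut]
  have : |(A : ℝ) * D| = A * D := abs_of_pos (by positivity)
  rw [this]
  simp

/-- Real version of the Hermite decomposition. -/
theorem hermite_GL (N : ℕ) (hN : 0 < N) (γ : SL(2, ℤ)) :
    ∃ (δ : SL(2, ℤ)) (A D : ℕ) (B : ℤ) (hA : 0 < A) (hD : 0 < D), A * D = N ∧
      A = Nat.gcd N (γ 1 0).natAbs ∧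
      ut N 1 0 hN one_pos * Matrix.SpecialLinearGroup.mapGL ℝ γ =
        Matrix.SpecialLinearGroup.mapGL ℝ δ * ut A D B hA hD := by
  obtain ⟨δ, A, D, B, hA, hD, hAD, hAgcd, hmat⟩ := hermite_int N hN γ
  refine ⟨δ, A, D, B, hA, hD, hAD, hAgcd, ?_⟩
  apply Matrix.GeneralLinearGroup.ext
  intro i j
  have h := congrArg (fun M : Matrix (Fin 2) (Fin 2) ℤ => ((M i j : ℤ) : ℝ)) hmat
  simp only [Matrix.mul_apply, Fin.sum_univ_two] at h
  simp only [Matrix.GeneralLinearGroup.coe_mul, val_ut,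
    Matrix.SpecialLinearGroup.mapGL_coe_matrix, Matrix.mul_apply, Fin.sum_univ_two,
    Matrix.SpecialLinearGroup.map_apply_coe, RingHom.mapMatrix_apply, Matrix.map_apply,
    algebraMap_int_eq, Int.coe_castRingHom]
  fin_cases i <;> fin_cases j <;> simpa using h

end Fermat.Agent.S23.helper35
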