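import Mathlib
import Fermat.Agent.S23.helper35_Slash

open UpperHalfPlane ModularForm Filter
open scoped MatrixGroups ModularForm Manifold Topology

namespace Fermat.Agent.S23.helper35

local notation "Δ" => ModularForm.discriminant

/-- `Δ` is invariant under the weight-12 slash action of `SL(2, ℤ)` (as elements of `GL(2, ℝ)`). -/
lemma discriminant_slash_mapGL (γ : SL(2, ℤ)) :
    (Δ ∣[(12 : ℤ)] (Matrix.SpecialLinearGroup.mapGL ℝ γ)) = Δ := by
  have := CuspForm.discriminant.slash_action_eq' (Matrix.SpecialLinearGroup.mapGL ℝ γ) ⟨γ, rfl⟩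
  simpa using this

/-- The function `z ↦ Δ(N z)`. -/
noncomputable def DeltaN (N : ℕ) (hN : 0 < N) : ℍ → ℂ := fun z => Δ (ut N 1 0 hN one_pos • z)

lemma DeltaN_ne_zero (N : ℕ) (hN : 0 < N) (z : ℍ) : DeltaN N hN z ≠ 0 :=
  discriminant_ne_zero _

lemma slash_ut_discriminant {A D : ℕ} {B : ℤ} (hA : 0 < A) (hD : 0 < D) (z : ℍ) :
    (Δ ∣[(12 : ℤ)] ut A D B hA hD) z = Δ (ut A D B hA hD • z) * ((A : ℂ) * D) ^ (11 : ℕ) *
      ((D : ℂ) ^ (12 : ℕ))⁻¹ := by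
  rw [slash_ut_apply]
  norm_num

lemma DeltaN_eq_slash (N : ℕ) (hN : 0 < N) :
    (Δ ∣[(12 : ℤ)] ut N 1 0 hN one_pos) = fun z => (N : ℂ) ^ (11 : ℕ) * DeltaN N hN z := by
  ext z
  rw [slash_ut_discriminant, DeltaN]
  simp
  ring

/-- Transformation of `DeltaN` under `γ ∈ SL(2, ℤ)` in terms of the Hermite data. -/
lemma DeltaN_slash (N : ℕ) (hN : 0 < N) (γ δ : SL(2, ℤ)) {A D : ℕ} {B : ℤ} (hA : 0 < A)
    (hD : 0 < D) (hAD : A * D = N)
    (h : ut N 1 0 hN one_pos * Matrix.SpecialLinearGroup.mapGL ℝ γ =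
        Matrix.SpecialLinearGroup.mapGL ℝ δ * ut A D B hA hD) (z : ℍ) :
    ((DeltaN N hN) ∣[(12 : ℤ)] (Matrix.SpecialLinearGroup.mapGL ℝ γ)) z =
      Δ (ut A D B hA hD • z) * ((D : ℂ) ^ (12 : ℕ))⁻¹ := by
  have hN0 : (N : ℂ) ≠ 0 := by exact_mod_cast hN.ne'
  have h1 : DeltaN N hN = ((N : ℂ) ^ (11 : ℕ))⁻¹ • (Δ ∣[(12 : ℤ)] ut N 1 0 hN one_pos) := by
    rw [DeltaN_eq_slash]
    ext z
    simp [hN0]
  have h2 : (Δ ∣[(12 : ℤ)] ut N 1 0 hN one_pos) ∣[(12 : ℤ)] (Matrix.SpecialLinearGroup.mapGL ℝ γ)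
      = Δ ∣[(12 : ℤ)] ut A D B hA hD := by
    rw [← SlashAction.slash_mul, h, SlashAction.slash_mul, discriminant_slash_mapGL]
  rw [h1]
  have h3 : ((((N : ℂ) ^ (11 : ℕ))⁻¹ • (Δ ∣[(12 : ℤ)] ut N 1 0 hN one_pos)) ∣[(12 : ℤ)]
      (Matrix.SpecialLinearGroup.mapGL ℝ γ)) =
      ((N : ℂ) ^ (11 : ℕ))⁻¹ • ((Δ ∣[(12 : ℤ)] ut N 1 0 hN one_pos) ∣[(12 : ℤ)]
      (Matrix.SpecialLinearGroup.mapGL ℝ γ)) := by
    rw [ModularForm.smul_slash]
    congr 1
    have : σ (Matrix.SpecialLinearGroup.mapGL ℝ γ) = .refl ℝ ℂ := by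
      rw [σ, if_pos]
      simp
    rw [this]
    simp
  rw [h3, h2]
  simp only [Pi.smul_apply, smul_eq_mul]
  rw [slash_ut_discriminant]
  have : ((A : ℂ) * D) = N := by exact_mod_cast hAD
  rw [this]
  field_simp


/-- The eta quotient `g(z) = Δ(z)^N / Δ(N z)`. -/
noncomputable def etaQ (N : ℕ) (hN : 0 < N) : ℍ → ℂ := fun z => Δ z ^ N / DeltaN N hN z

lemma etaQ_mul_DeltaN (N : ℕ) (hN : 0 < N) :
    etaQ N hN * DeltaN N hN = Δ ^ N := by
  ext z
  simp only [Pi.mul_apply, Pi.pow_apply, etaQ]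
  exact div_mul_cancel₀ _ (DeltaN_ne_zero N hN z)

lemma discriminant_pow_slash (N : ℕ) (γ : SL(2, ℤ)) :
    ((Δ ^ N : ℍ → ℂ) ∣[(12 * N : ℤ)] (Matrix.SpecialLinearGroup.mapGL ℝ γ)) = Δ ^ N := by
  have h := ((ModularFormClass.modularForm CuspForm.discriminant).pow N).slash_action_eq'
    (Matrix.SpecialLinearGroup.mapGL ℝ γ) ⟨γ, rfl⟩
  have hw : ((N : ℤ) * 12) = 12 * N := by ring
  rw [← hw]
  simpa using h

/-- The weight of the eta quotient. -/
def etaW (N : ℕ) : ℤ := 12 * N - 12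

/-- Transformation of the eta quotient under `γ ∈ SL(2, ℤ)` in terms of the Hermite data. -/
lemma etaQ_slash (N : ℕ) (hN : 0 < N) (γ δ : SL(2, ℤ)) {A D : ℕ} {B : ℤ} (hA : 0 < A)
    (hD : 0 < D) (hAD : A * D = N)
    (h : ut N 1 0 hN one_pos * Matrix.SpecialLinearGroup.mapGL ℝ γ =
        Matrix.SpecialLinearGroup.mapGL ℝ δ * ut A D B hA hD) (z : ℍ) :
    ((etaQ N hN) ∣[etaW N] (Matrix.SpecialLinearGroup.mapGL ℝ γ)) z =
      (D : ℂ) ^ (12 : ℕ) * Δ z ^ N / Δ (ut A D B hA hD • z) := by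
  have h1 := congrFun (congrArg (fun F : ℍ → ℂ =>
    F ∣[(etaW N + 12 : ℤ)] (Matrix.SpecialLinearGroup.mapGL ℝ γ)) (etaQ_mul_DeltaN N hN)) z
  rw [ModularForm.mul_slash] at h1
  have hw : etaW N + 12 = 12 * N := by simp [etaW]
  rw [hw, discriminant_pow_slash] at h1
  have hdet : |((Matrix.SpecialLinearGroup.mapGL ℝ γ).det : ℝ)| = 1 := by simp
  rw [hdet, one_smul] at h1
  simp only [Pi.mul_apply, Pi.pow_apply] at h1
  rw [DeltaN_slash N hN γ δ hA hD hAD h z] at h1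
  have hΔ : Δ (ut A D B hA hD • z) ≠ 0 := discriminant_ne_zero _
  have hD0 : (D : ℂ) ≠ 0 := by exact_mod_cast hD.ne'
  field_simp
  rw [← h1]
  field_simp


section growth

open Asymptotics Real

lemma discriminant_isBigO_exp :
    (Δ : ℍ → ℂ) =O[atImInfty] fun τ => Real.exp (-2 * π * τ.im) := by
  have := CuspFormClass.exp_decay_atImInfty (h := 1) CuspForm.discriminant one_pos
    _root_.one_mem_strictPeriods_SL
  simpa using this

lemma exp_isBigO_discriminant_comp_ut {A D : ℕ} {B : ℤ} (hA : 0 < A) (hD : 0 < D) :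
    (fun z : ℍ => Real.exp (-2 * π * ((A : ℝ) / D * z.im))) =O[atImInfty]
      fun z : ℍ => Δ (ut A D B hA hD • z) := by
  have h := exp_isBigO_discriminant.comp_tendsto
    (tendsto_smul_atImInfty (ut_apply_one_zero (B := B) hA hD))
  refine h.congr_left (fun z => ?_)
  simp only [Function.comp_apply]
  rw [im_ut_smul]

/-- The key growth estimate. -/
lemma etaQ_growth (N : ℕ) {A D : ℕ} {B : ℤ} (hA : 0 < A) (hD : 0 < D) :
    (fun z : ℍ => (D : ℂ) ^ (12 : ℕ) * Δ z ^ N / Δ (ut A D B hA hD • z)) =O[atImInfty]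
      fun z : ℍ => Real.exp (-(2 * π * ((N : ℝ) - (A : ℝ) / D)) * z.im) := by
  have h1 : (fun z : ℍ => Δ z ^ N) =O[atImInfty] fun τ : ℍ => (Real.exp (-2 * π * τ.im)) ^ N :=
    discriminant_isBigO_exp.pow N
  have h2 : (fun z : ℍ => (Δ (ut A D B hA hD • z))⁻¹) =O[atImInfty]
      fun z : ℍ => (Real.exp (-2 * π * ((A : ℝ) / D * z.im)))⁻¹ :=
    (exp_isBigO_discriminant_comp_ut (B := B) hA hD).inv_rev
      (Eventually.of_forall fun z hz => absurd hz (Real.exp_pos _).ne')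
  have h3 := (h1.mul h2).const_mul_left ((D : ℂ) ^ (12 : ℕ))
  refine (h3.congr_left (fun z => by simp only [div_eq_mul_inv]; ring)).congr_right (fun z => ?_)
  rw [← Real.exp_nat_mul, ← Real.exp_neg, ← Real.exp_add]
  congr 1
  ring

lemma etaQ_slash_isBigO (N : ℕ) (hN : 0 < N) (γ δ : SL(2, ℤ)) {A D : ℕ} {B : ℤ} (hA : 0 < A)
    (hD : 0 < D) (hAD : A * D = N)
    (h : ut N 1 0 hN one_pos * Matrix.SpecialLinearGroup.mapGL ℝ γ =
        Matrix.SpecialLinearGroup.mapGL ℝ δ * ut A D B hA hD) :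
    ((etaQ N hN) ∣[etaW N] (Matrix.SpecialLinearGroup.mapGL ℝ γ)) =O[atImInfty]
      fun z : ℍ => Real.exp (-(2 * π * ((N : ℝ) - (A : ℝ) / D)) * z.im) :=
  (etaQ_growth N (B := B) hA hD).congr_left fun z => (etaQ_slash N hN γ δ hA hD hAD h z).symm

lemma sub_div_nonneg {N A D : ℕ} (hD : 0 < D) (hAD : A * D = N) :
    0 ≤ (N : ℝ) - (A : ℝ) / D := by
  have hD1 : (1 : ℝ) ≤ D := by exact_mod_cast hD
  have hA0 : (0 : ℝ) ≤ A := by positivity
  have hN' : (N : ℝ) = A * D := by exact_mod_cast hAD.symm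
  have h1 : (A : ℝ) / D ≤ A := div_le_self hA0 hD1
  have h2 : (A : ℝ) ≤ A * D := le_mul_of_one_le_right hA0 hD1
  linarith

lemma sub_div_pos {N A D : ℕ} (hA : 0 < A) (hD : 0 < D) (hAD : A * D = N) (hne : A ≠ N) :
    0 < (N : ℝ) - (A : ℝ) / D := by
  have hD2 : 2 ≤ D := by
    rcases Nat.lt_or_ge D 2 with h | h
    · have : D = 1 := by omega
      subst this
      simp at hAD
      exact absurd hAD hne
    · exact h
  have hD2' : (2 : ℝ) ≤ D := by exact_mod_cast hD2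
  have hA0 : (0 : ℝ) < A := by exact_mod_cast hA
  have hN' : (N : ℝ) = A * D := by exact_mod_cast hAD.symm
  have h1 : (A : ℝ) / D ≤ A := div_le_self hA0.le (by linarith)
  have h2 : (A : ℝ) * 2 ≤ A * D := by nlinarith
  linarith

/-- Boundedness of all translates of the eta quotient. -/
lemma etaQ_slash_isBoundedAtImInfty (N : ℕ) (hN : 0 < N) (γ : SL(2, ℤ)) :
    IsBoundedAtImInfty ((etaQ N hN) ∣[etaW N] (Matrix.SpecialLinearGroup.mapGL ℝ γ)) := by
  obtain ⟨δ, A, D, B, hA, hD, hAD, -, h⟩ := hermite_GL N hN γ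
  have hO := etaQ_slash_isBigO N hN γ δ hA hD hAD h
  refine hO.trans ?_
  refine IsBigO.of_bound 1 (Eventually.of_forall fun z => ?_)
  simp only [Real.norm_eq_abs, Real.abs_exp, Pi.one_apply, norm_one, mul_one]
  rw [Real.exp_le_one_iff]
  have := sub_div_nonneg hD hAD
  have hz := z.im_pos.le
  have hpi := Real.pi_pos
  nlinarith [mul_nonneg (mul_nonneg (by positivity : (0:ℝ) ≤ 2 * π) this) hz]

/-- Vanishing at `i∞` of the translates of the eta quotient by `γ ∉ Γ₀(N)`. -/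
lemma etaQ_slash_isZeroAtImInfty (N : ℕ) (hN : 0 < N) (γ : SL(2, ℤ))
    (hγ : γ ∉ CongruenceSubgroup.Gamma0 N) :
    IsZeroAtImInfty ((etaQ N hN) ∣[etaW N] (Matrix.SpecialLinearGroup.mapGL ℝ γ)) := by
  obtain ⟨δ, A, D, B, hA, hD, hAD, hAgcd, h⟩ := hermite_GL N hN γ
  have hne : A ≠ N := by
    intro hAN
    apply hγ
    rw [CongruenceSubgroup.Gamma0_mem]
    have h1 : N ∣ (γ 1 0).natAbs := by
      have : N.gcd (γ 1 0).natAbs = N := by rw [← hAgcd, hAN]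
      exact Nat.gcd_eq_left_iff_dvd.mp this
    have h2 : (N : ℤ) ∣ γ 1 0 := Int.natCast_dvd.mpr h1
    exact (ZMod.intCast_zmod_eq_zero_iff_dvd _ _).mpr h2
  have hO := etaQ_slash_isBigO N hN γ δ hA hD hAD h
  have hpos := sub_div_pos hA hD hAD hne
  refine hO.trans_tendsto ?_
  have hc : 0 < 2 * π * ((N : ℝ) - (A : ℝ) / D) := by positivity
  have : Tendsto (fun z : ℍ => -(2 * π * ((N : ℝ) - (A : ℝ) / D)) * z.im) atImInfty atBot := by
    have him : Tendsto (fun z : ℍ => z.im) atImInfty atTop := tendsto_comap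
    have h1 : Tendsto (fun z : ℍ => (2 * π * ((N : ℝ) - (A : ℝ) / D)) * z.im) atImInfty atTop :=
      him.const_mul_atTop hc
    have h2 := tendsto_neg_atTop_atBot.comp h1
    refine h2.congr fun z => ?_
    simp only [Function.comp_apply]
    ring
  exact Real.tendsto_exp_atBot.comp this

end growth

end Fermat.Agent.S23.helper35
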