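import Mathlib
import Fermat.Agent.S23.helper35_EtaGrowth

open UpperHalfPlane ModularForm Filter
open scoped MatrixGroups ModularForm Manifold Topology

namespace Fermat.Agent.S23.helper35

local notation "Δ" => ModularForm.discriminant

/-- Transport an integer matrix identity to `GL(2, ℝ)`. -/
lemma ut_mul_mapGL_eq_of_int (N : ℕ) (hN : 0 < N) (γ δ : SL(2, ℤ)) {A D : ℕ} {B : ℤ}
    (hA : 0 < A) (hD : 0 < D)
    (hmat : !![(N : ℤ), 0; 0, 1] * (γ : Matrix (Fin 2) (Fin 2) ℤ) =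
        (δ : Matrix (Fin 2) (Fin 2) ℤ) * !![(A : ℤ), B; 0, (D : ℤ)]) :
    ut N 1 0 hN one_pos * Matrix.SpecialLinearGroup.mapGL ℝ γ =
        Matrix.SpecialLinearGroup.mapGL ℝ δ * ut A D B hA hD := by
  apply Matrix.GeneralLinearGroup.ext
  intro i j
  have h := congrArg (fun M : Matrix (Fin 2) (Fin 2) ℤ => ((M i j : ℤ) : ℝ)) hmat
  simp only [Matrix.mul_apply, Fin.sum_univ_two] at h
  simp only [Matrix.GeneralLinearGroup.coe_mul, val_ut,
    Matrix.SpecialLinearGroup.mapGL_coe_matrix, Matrix.mul_apply, Fin.sum_univ_two,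
    Matrix.SpecialLinearGroup.map_apply_coe, RingHom.mapMatrix_apply, Matrix.map_apply,
    algebraMap_int_eq, Int.coe_castRingHom]
  fin_cases i <;> fin_cases j <;> simpa using h

/-- For `γ ∈ Γ₀(N)`, `diag(N,1) γ = δ diag(N,1)` with `δ ∈ SL(2,ℤ)`. -/
theorem hermite_Gamma0 (N : ℕ) (hN : 0 < N) (γ : SL(2, ℤ)) (hγ : γ ∈ CongruenceSubgroup.Gamma0 N) :
    ∃ δ : SL(2, ℤ), ut N 1 0 hN one_pos * Matrix.SpecialLinearGroup.mapGL ℝ γ =
        Matrix.SpecialLinearGroup.mapGL ℝ δ * ut N 1 0 hN one_pos := by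
  rw [CongruenceSubgroup.Gamma0_mem] at hγ
  obtain ⟨c', hc'⟩ : (N : ℤ) ∣ γ 1 0 := (ZMod.intCast_zmod_eq_zero_iff_dvd _ _).mp hγ
  have hdet : γ 0 0 * γ 1 1 - γ 0 1 * γ 1 0 = 1 := by
    have := γ.det_coe
    rw [Matrix.det_fin_two] at this
    linarith
  have hdetδ : Matrix.det !![γ 0 0, (N : ℤ) * γ 0 1; c', γ 1 1] = 1 := by
    rw [Matrix.det_fin_two_of]
    rw [hc'] at hdet
    linear_combination hdet
  refine ⟨⟨!![γ 0 0, (N : ℤ) * γ 0 1; c', γ 1 1], hdetδ⟩, ?_⟩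
  have := ut_mul_mapGL_eq_of_int N hN γ ⟨!![γ 0 0, (N : ℤ) * γ 0 1; c', γ 1 1], hdetδ⟩
    (A := N) (D := 1) (B := 0) hN one_pos (by
      ext i j
      fin_cases i <;> fin_cases j <;> simp [Matrix.mul_apply, Fin.sum_univ_two, hc', mul_comm])
  exact this

lemma etaQ_slash_Gamma0 (N : ℕ) (hN : 0 < N) (γ : SL(2, ℤ))
    (hγ : γ ∈ CongruenceSubgroup.Gamma0 N) :
    (etaQ N hN) ∣[etaW N] (Matrix.SpecialLinearGroup.mapGL ℝ γ) = etaQ N hN := by
  obtain ⟨δ, h⟩ := hermite_Gamma0 N hN γ hγ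
  ext z
  rw [etaQ_slash N hN γ δ hN one_pos (by simp) h z]
  simp [etaQ, DeltaN]

lemma mdifferentiable_DeltaN (N : ℕ) (hN : 0 < N) : MDiff (DeltaN N hN) := by
  have h1 : MDiff (Δ ∣[(12 : ℤ)] ut N 1 0 hN one_pos) :=
    CuspForm.discriminant.holo'.slash 12 _
  have hN0 : (N : ℂ) ≠ 0 := by exact_mod_cast hN.ne'
  have h2 : DeltaN N hN = fun z => ((N : ℂ) ^ (11 : ℕ))⁻¹ * (Δ ∣[(12 : ℤ)] ut N 1 0 hN one_pos) z := by
    rw [DeltaN_eq_slash]
    ext z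
    simp [hN0]
  rw [h2]
  exact mdifferentiable_const.mul h1

lemma mdifferentiable_etaQ (N : ℕ) (hN : 0 < N) : MDiff (etaQ N hN) := by
  have h1 : MDiff (fun z : ℍ => Δ z ^ N) := CuspForm.discriminant.holo'.pow N
  have h2 := mdifferentiable_DeltaN N hN
  rw [UpperHalfPlane.mdifferentiable_iff] at h1 h2 ⊢
  have : (etaQ N hN ∘ ofComplex) = fun w => ((fun z : ℍ => Δ z ^ N) ∘ ofComplex) w /
      ((DeltaN N hN) ∘ ofComplex) w := by
    ext w; simp [etaQ]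
  rw [this]
  exact h1.div h2 (fun w _ => DeltaN_ne_zero N hN _)

/-- The eta quotient as a modular form of level `Γ₀(N)`. -/
noncomputable def etaQForm (N : ℕ) [NeZero N] :
    ModularForm ((CongruenceSubgroup.Gamma0 N : Subgroup SL(2, ℤ)) : Subgroup (GL (Fin 2) ℝ))
      (etaW N) where
  toFun := etaQ N (NeZero.pos N)
  slash_action_eq' := by
    rintro _ ⟨γ, hγ, rfl⟩
    exact etaQ_slash_Gamma0 N (NeZero.pos N) γ hγ
  holo' := mdifferentiable_etaQ N (NeZero.pos N)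
  bdd_at_cusps' := by
    intro c hc
    rw [Subgroup.IsArithmetic.isCusp_iff_isCusp_SL2Z] at hc
    rw [OnePoint.isBoundedAt_iff_forall_SL2Z hc]
    intro γ _
    exact etaQ_slash_isBoundedAtImInfty N (NeZero.pos N) γ

lemma coe_etaQForm (N : ℕ) [NeZero N] : ⇑(etaQForm N) = etaQ N (NeZero.pos N) := rfl

lemma etaQForm_slash_isZeroAtImInfty (N : ℕ) [NeZero N] (h : SL(2, ℤ))
    (hh : h ∉ CongruenceSubgroup.Gamma0 N) :
    IsZeroAtImInfty (⇑(etaQForm N) ∣[etaW N] h) :=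
  etaQ_slash_isZeroAtImInfty N (NeZero.pos N) h hh

end Fermat.Agent.S23.helper35
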