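import Mathlib
import Fermat.Agent.S23.helper35_EtaForm
import Fermat.Prelude.Thm_CongruenceSubgroup_one_mem_strictPeriods_Gamma0
import Fermat.Agent.S23.LevelOne

open UpperHalfPlane ModularForm Filter
open scoped MatrixGroups ModularForm Manifold Topology

namespace Fermat.Agent.S23.helper35

local notation "Δ" => ModularForm.discriminant

/-- `z ↦ Δ(N z)` as a modular form of weight 12 and level `Γ₀(N)`. -/
noncomputable def DeltaNForm (N : ℕ) [NeZero N] :
    ModularForm ((CongruenceSubgroup.Gamma0 N : Subgroup SL(2, ℤ)) : Subgroup (GL (Fin 2) ℝ)) 12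
    where
  toFun := DeltaN N (NeZero.pos N)
  slash_action_eq' := by
    rintro _ ⟨γ, hγ, rfl⟩
    obtain ⟨δ, h⟩ := hermite_Gamma0 N (NeZero.pos N) γ hγ
    ext z
    rw [DeltaN_slash N (NeZero.pos N) γ δ (NeZero.pos N) one_pos (by simp) h z]
    simp [DeltaN]
  holo' := mdifferentiable_DeltaN N (NeZero.pos N)
  bdd_at_cusps' := by
    intro c hc
    rw [Subgroup.IsArithmetic.isCusp_iff_isCusp_SL2Z] at hc
    rw [OnePoint.isBoundedAt_iff_forall_SL2Z hc]
    intro γ _
    obtain ⟨δ, A, D, B, hA, hD, hAD, -, h⟩ := hermite_GL N (NeZero.pos N) γ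
    have hfun : (DeltaN N (NeZero.pos N) ∣[(12 : ℤ)] γ) =
        fun z => Δ (ut A D B hA hD • z) * ((D : ℂ) ^ (12 : ℕ))⁻¹ := by
      ext z
      exact DeltaN_slash N (NeZero.pos N) γ δ hA hD hAD h z
    show IsBoundedAtImInfty (DeltaN N (NeZero.pos N) ∣[(12 : ℤ)] γ)
    rw [hfun]
    have h1 : IsBoundedAtImInfty (fun z : ℍ => Δ (ut A D B hA hD • z)) := by
      have hz : IsZeroAtImInfty (Δ : ℍ → ℂ) := discriminant_isZeroAtImInfty
      have hb : IsBoundedAtImInfty (Δ : ℍ → ℂ) := hz.boundedAtFilter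
      exact hb.comp_tendsto (tendsto_smul_atImInfty (ut_apply_one_zero (B := B) hA hD))
    exact h1.mul (Filter.const_boundedAtFilter _ _)

lemma coe_DeltaNForm (N : ℕ) [NeZero N] : ⇑(DeltaNForm N) = DeltaN N (NeZero.pos N) := rfl

lemma one_mem_strictPeriods_Gamma0' (N : ℕ) :
    (1 : ℝ) ∈ ((CongruenceSubgroup.Gamma0 N : Subgroup SL(2, ℤ)) :
      Subgroup (GL (Fin 2) ℝ)).strictPeriods :=
  CongruenceSubgroup.one_mem_strictPeriods_Gamma0 N

lemma qParam_ut_smul (N : ℕ) (hN : 0 < N) (z : ℍ) :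
    Function.Periodic.qParam 1 ((ut N 1 0 hN one_pos • z : ℍ) : ℂ) =
      Function.Periodic.qParam 1 (z : ℂ) ^ N := by
  rw [coe_ut_smul]
  simp only [Function.Periodic.qParam, Complex.ofReal_one, div_one, Int.cast_zero, add_zero,
    Nat.cast_one]
  rw [← Complex.exp_nat_mul]
  congr 1
  ring

/-- The `q`-expansion coefficients of `Δ(N z)`. -/
lemma qExpansion_DeltaN_coeff (N : ℕ) [NeZero N] (n : ℕ) :
    (qExpansion 1 (DeltaN N (NeZero.pos N))).coeff n =
      if N ∣ n then (qExpansion 1 Δ).coeff (n / N) else 0 := by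
  have hN : 0 < N := NeZero.pos N
  set c : ℕ → ℂ := fun n => if N ∣ n then (qExpansion 1 Δ).coeff (n / N) else 0 with hc
  have han : AnalyticAt ℂ (cuspFunction 1 ⇑(DeltaNForm N)) 0 :=
    ModularFormClass.analyticAt_cuspFunction_zero (DeltaNForm N) one_pos
      (one_mem_strictPeriods_Gamma0' N)
  have key := UpperHalfPlane.qExpansion_coeff_unique (DeltaNForm N) (c := c) one_pos han ?_ n
  · rw [← coe_DeltaNForm, ← key]
  intro τ
  have h1 := ModularForm.hasSum_qExpansion (CuspForm.discriminant) one_pos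
    _root_.one_mem_strictPeriods_SL (ut N 1 0 hN one_pos • τ)
  rw [qParam_ut_smul] at h1
  have hinj : Function.Injective (fun m : ℕ => N * m) := fun a b h =>
    Nat.eq_of_mul_eq_mul_left hN h
  rw [← hinj.hasSum_iff]
  · have h2 : ((fun n : ℕ => c n • Function.Periodic.qParam 1 (τ : ℂ) ^ n) ∘ fun m : ℕ => N * m) =
        fun m : ℕ => (qExpansion 1 Δ).coeff m • (Function.Periodic.qParam 1 (τ : ℂ) ^ N) ^ m := by
      funext m
      simp only [Function.comp_apply, hc, dvd_mul_right, if_true, Nat.mul_div_cancel_left _ hN]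
      rw [pow_mul]
    rw [h2]
    exact h1
  · intro x hx
    have : ¬ N ∣ x := by
      rintro ⟨m, rfl⟩
      exact hx ⟨m, rfl⟩
    simp [hc, this]



/-- If `E * A = B` in `ℂ⟦X⟧` with `A, B` integral and `A` of constant coefficient `1`,
then `E` is integral. -/
lemma eq_map_of_mul_map_eq (E : PowerSeries ℂ) (A B : PowerSeries ℤ)
    (hA : PowerSeries.constantCoeff A = 1)
    (h : E * A.map (Int.castRingHom ℂ) = B.map (Int.castRingHom ℂ)) :
    ∃ G : PowerSeries ℤ, E = G.map (Int.castRingHom ℂ) ∧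
      PowerSeries.constantCoeff G = PowerSeries.constantCoeff B := by
  have hu : IsUnit A := PowerSeries.isUnit_iff_constantCoeff.mpr (by rw [hA]; exact isUnit_one)
  obtain ⟨v, hv⟩ := hu.exists_right_inv
  refine ⟨B * v, ?_, ?_⟩
  · have h1 : A.map (Int.castRingHom ℂ) * v.map (Int.castRingHom ℂ) = 1 := by
      rw [← map_mul, hv, map_one]
    calc E = E * (A.map (Int.castRingHom ℂ) * v.map (Int.castRingHom ℂ)) := by rw [h1, mul_one]
      _ = (E * A.map (Int.castRingHom ℂ)) * v.map (Int.castRingHom ℂ) := by ring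
      _ = (B * v).map (Int.castRingHom ℂ) := by rw [h, map_mul]
  · have h2 : PowerSeries.constantCoeff v = 1 := by
      have := congrArg PowerSeries.constantCoeff hv
      rw [map_mul, hA, one_mul, map_one] at this
      exact this
    rw [map_mul, h2, mul_one]

/-- An integral power series with vanishing constant coefficient and linear coefficient `1`
is `X` times a series of constant coefficient `1`. -/
lemma exists_eq_X_mul (T : PowerSeries ℤ) (h0 : PowerSeries.coeff 0 T = 0)
    (h1 : PowerSeries.coeff 1 T = 1) :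
    ∃ U : PowerSeries ℤ, T = PowerSeries.X * U ∧ PowerSeries.constantCoeff U = 1 := by
  have hd : (PowerSeries.X : PowerSeries ℤ) ∣ T := by
    rw [PowerSeries.X_dvd_iff, ← PowerSeries.coeff_zero_eq_constantCoeff_apply, h0]
  obtain ⟨U, hU⟩ := hd
  refine ⟨U, hU, ?_⟩
  rw [← PowerSeries.coeff_zero_eq_constantCoeff_apply, ← PowerSeries.coeff_succ_X_mul, ← hU]
  simpa using h1

/-- The series `T(X^N)` of an integral `T = X * U` is `X^N` times a series of constant
coefficient `1`. -/
lemma exists_eq_X_pow_mul (N : ℕ) (hN : 0 < N) (T : PowerSeries ℤ)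
    (h0 : PowerSeries.coeff 0 T = 0) (h1 : PowerSeries.coeff 1 T = 1) :
    ∃ UN : PowerSeries ℤ,
      (PowerSeries.mk fun n => if N ∣ n then PowerSeries.coeff (n / N) T else 0) =
        PowerSeries.X ^ N * UN ∧ PowerSeries.constantCoeff UN = 1 := by
  set TN : PowerSeries ℤ :=
    PowerSeries.mk fun n => if N ∣ n then PowerSeries.coeff (n / N) T else 0 with hTN
  have hd : (PowerSeries.X : PowerSeries ℤ) ^ N ∣ TN := by
    rw [PowerSeries.X_pow_dvd_iff]
    intro m hm
    rw [hTN, PowerSeries.coeff_mk]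
    split_ifs with hdiv
    · have : m = 0 := Nat.eq_zero_of_dvd_of_lt hdiv hm
      subst this
      simpa using h0
    · rfl
  obtain ⟨UN, hUN⟩ := hd
  refine ⟨UN, hUN, ?_⟩
  have h2 : PowerSeries.coeff N TN = 1 := by
    rw [hTN, PowerSeries.coeff_mk, if_pos dvd_rfl, Nat.div_self hN, h1]
  rw [hUN, PowerSeries.coeff_X_pow_mul' ] at h2
  simpa using h2


/-- The `q`-expansion of `Δ ^ n`. -/
lemma qExpansion_discriminant_pow (n : ℕ) :
    qExpansion 1 ((Δ : ℍ → ℂ) ^ n) = (qExpansion 1 Δ) ^ n := by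
  have h := ModularForm.qExpansion_pow (h := 1) one_pos _root_.one_mem_strictPeriods_SL
    (ModularFormClass.modularForm CuspForm.discriminant) n
  rw [ModularForm.coe_pow] at h
  exact h

/-- The fundamental identity of `q`-expansions `g * Δ(N z) = Δ ^ N`. -/
lemma qExpansion_etaQForm_mul (N : ℕ) [NeZero N] :
    qExpansion 1 (etaQForm N) * qExpansion 1 (DeltaNForm N) = (qExpansion 1 Δ) ^ N := by
  rw [← ModularForm.qExpansion_mul_coe one_pos (one_mem_strictPeriods_Gamma0' N) (etaQForm N)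
    (DeltaNForm N), coe_etaQForm, coe_DeltaNForm, etaQ_mul_DeltaN, qExpansion_discriminant_pow]

/-- **Integrality of the `q`-expansion of the eta quotient** `Δ(z)^N / Δ(N z)`; the constant
coefficient is `1`. -/
theorem qExpansion_etaQForm_eq_map (N : ℕ) [NeZero N] :
    ∃ G : PowerSeries ℤ, qExpansion 1 (etaQForm N) = G.map (Int.castRingHom ℂ) ∧
      PowerSeries.constantCoeff G = 1 := by
  have hN : 0 < N := NeZero.pos N
  have hT : qExpansion 1 Δ = Fermat.Agent.S23.deltaInt.map (Int.castRingHom ℂ) :=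
    Fermat.Agent.S23.qExpansion_discriminant_eq_map
  set T : PowerSeries ℤ := Fermat.Agent.S23.deltaInt with hTdef
  have h0 : PowerSeries.coeff 0 T = 0 := by
    have h := CuspFormClass.qExpansion_coeff_zero (CuspForm.discriminant) (h := 1) one_pos
      _root_.one_mem_strictPeriods_SL
    rw [CuspForm.coe_discriminant, hT, PowerSeries.coeff_map, eq_intCast] at h
    exact_mod_cast h
  have h1 : PowerSeries.coeff 1 T = 1 := by
    have h := discriminant_qExpansion_coeff_one
    rw [hT, PowerSeries.coeff_map, eq_intCast] at h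
    exact_mod_cast h
  obtain ⟨U, hU, hU0⟩ := exists_eq_X_mul T h0 h1
  obtain ⟨UN, hUN, hUN0⟩ := exists_eq_X_pow_mul N hN T h0 h1
  have hDN : qExpansion 1 (DeltaNForm N) =
      (PowerSeries.X ^ N * UN).map (Int.castRingHom ℂ) := by
    rw [← hUN]
    ext n
    rw [coe_DeltaNForm, qExpansion_DeltaN_coeff, PowerSeries.coeff_map, PowerSeries.coeff_mk, hT]
    split_ifs <;> simp
  have hkey := qExpansion_etaQForm_mul N
  rw [hDN, hT, hU] at hkey
  simp only [map_mul, map_pow, PowerSeries.map_X, mul_pow] at hkey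
  have hX : (PowerSeries.X : PowerSeries ℂ) ^ N ≠ 0 := pow_ne_zero N PowerSeries.X_ne_zero
  have hkey2 : qExpansion 1 (etaQForm N) * UN.map (Int.castRingHom ℂ) =
      (U ^ N).map (Int.castRingHom ℂ) := by
    apply mul_left_cancel₀ hX
    rw [map_pow]
    rw [← hkey]
    ring
  obtain ⟨G, hG, hG0⟩ := eq_map_of_mul_map_eq _ UN (U ^ N) hUN0 hkey2
  refine ⟨G, hG, ?_⟩
  rw [hG0, map_pow, hU0, one_pow]

end Fermat.Agent.S23.helper35
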