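import Mathlib
import Fermat.Agent.S23.helper35_EtaQExp

/-!
# The eta quotient `Δ(z)^N / Δ(N z)` (weak form of T3)

`exists_etaQuotient_weak`: for every `N ≥ 1` there is a modular form `g` on `Γ₀(N)` of some
weight `w`, whose `q`-expansion at `∞` has integer coefficients and constant coefficient `1`,
and such that `g ∣[w] h` vanishes at `i∞` for every `h ∈ SL(2, ℤ)` outside `Γ₀(N)`.
-/

open UpperHalfPlane ModularForm
open scoped MatrixGroups ModularForm

namespace Fermat.Agent.S23

/-- The explicit eta quotient `etaQForm N = Δ(z)^N / Δ(N z)` of weight `12 N - 12`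
has an integral `q`-expansion with constant coefficient `1` and vanishes at all cusps
other than `∞` (in the sense that its `SL(2, ℤ)`-translates outside `Γ₀(N)` vanish at `i∞`). -/
theorem etaQForm_spec (N : ℕ) [NeZero N] :
    (∀ n, ∃ a : ℤ, (qExpansion 1 (helper35.etaQForm N)).coeff n = (a : ℂ)) ∧
    (qExpansion 1 (helper35.etaQForm N)).coeff 0 = 1 ∧
    (∀ h : SL(2, ℤ), h ∉ CongruenceSubgroup.Gamma0 N →
      IsZeroAtImInfty (⇑(helper35.etaQForm N) ∣[helper35.etaW N] h)) := by
  obtain ⟨G, hG, hG0⟩ := helper35.qExpansion_etaQForm_eq_map N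
  refine ⟨fun n => ⟨PowerSeries.coeff n G, ?_⟩, ?_, helper35.etaQForm_slash_isZeroAtImInfty N⟩
  · rw [hG, PowerSeries.coeff_map, eq_intCast]
  · rw [hG, PowerSeries.coeff_map, eq_intCast, PowerSeries.coeff_zero_eq_constantCoeff_apply, hG0,
      Int.cast_one]

/-- **Weak T3**: existence of a modular form on `Γ₀(N)` with integral `q`-expansion, constant
coefficient `1`, vanishing at all cusps other than `∞`. -/
theorem exists_etaQuotient_weak (N : ℕ) [NeZero N] :
    ∃ (w : ℤ) (g : ModularForm ((CongruenceSubgroup.Gamma0 N : Subgroup SL(2, ℤ)) :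
        Subgroup (GL (Fin 2) ℝ)) w),
      (∀ n, ∃ a : ℤ, (qExpansion 1 g).coeff n = (a : ℂ)) ∧
      (qExpansion 1 g).coeff 0 = 1 ∧
      (∀ h : SL(2, ℤ), h ∉ CongruenceSubgroup.Gamma0 N → IsZeroAtImInfty (⇑g ∣[w] h)) :=
  ⟨helper35.etaW N, helper35.etaQForm N, etaQForm_spec N⟩

end Fermat.Agent.S23
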