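import Mathlib

/-!
# Functions on `ℍ` which are modular forms of a given weight and level

`IsMF Γ W F` says that `F : ℍ → ℂ` is (the coercion of) a modular form of weight `W` on `Γ`.
This predicate is convenient to keep track of weights in polynomial expressions.
-/

open UpperHalfPlane ModularForm
open scoped MatrixGroups ModularForm Manifold

namespace Fermat.Agent.S23

/-- `F` is the underlying function of a modular form of weight `W` for `Γ`. -/
def IsMF (Γ : Subgroup (GL (Fin 2) ℝ)) (W : ℤ) (F : ℍ → ℂ) : Prop :=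
  ∃ s : ModularForm Γ W, ⇑s = F

namespace IsMF

variable {Γ Γ' : Subgroup (GL (Fin 2) ℝ)} {W a b : ℤ} {F G : ℍ → ℂ}

theorem coe (s : ModularForm Γ W) : IsMF Γ W (⇑s) := ⟨s, rfl⟩

theorem congr_weight (h : a = b) (hF : IsMF Γ a F) : IsMF Γ b F := by
  subst h; exact hF

theorem mono (h : Γ ≤ Γ') (hF : IsMF Γ' W F) : IsMF Γ W F := by
  obtain ⟨s, rfl⟩ := hF
  exact ⟨{ toFun := s
           slash_action_eq' := fun γ hγ => s.slash_action_eq' γ (h hγ)
           holo' := s.holo'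
           bdd_at_cusps' := fun hc => s.bdd_at_cusps' (hc.mono h) }, rfl⟩

theorem mdiff (hF : IsMF Γ W F) : MDiff F := by
  obtain ⟨s, rfl⟩ := hF
  exact s.holo'

theorem slash_eq (hF : IsMF Γ W F) {γ : GL (Fin 2) ℝ} (hγ : γ ∈ Γ) : F ∣[W] γ = F := by
  obtain ⟨s, rfl⟩ := hF
  exact s.slash_action_eq' γ hγ

theorem zero : IsMF Γ W 0 := ⟨0, rfl⟩

theorem add (hF : IsMF Γ W F) (hG : IsMF Γ W G) : IsMF Γ W (F + G) := by
  obtain ⟨s, rfl⟩ := hF
  obtain ⟨t, rfl⟩ := hG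
  exact ⟨s + t, rfl⟩

theorem sum {ι : Type*} (s : Finset ι) (F : ι → ℍ → ℂ) (h : ∀ i ∈ s, IsMF Γ W (F i)) :
    IsMF Γ W (∑ i ∈ s, F i) := by
  classical
  induction s using Finset.induction_on with
  | empty => simpa using zero
  | insert i t hi IH =>
    rw [Finset.sum_insert hi]
    exact (h i (Finset.mem_insert_self i t)).add
      (IH fun i' hi' => h i' (Finset.mem_insert_of_mem hi'))

variable [Γ.HasDetPlusMinusOne]

theorem one : IsMF Γ 0 1 := ⟨1, ModularForm.one_coe_eq_one⟩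

theorem mul (hF : IsMF Γ a F) (hG : IsMF Γ b G) : IsMF Γ (a + b) (F * G) := by
  obtain ⟨s, rfl⟩ := hF
  obtain ⟨t, rfl⟩ := hG
  exact ⟨s.mul t, rfl⟩

theorem mul' {c : ℤ} (hF : IsMF Γ a F) (hG : IsMF Γ b G) (h : a + b = c) :
    IsMF Γ c (F * G) :=
  (hF.mul hG).congr_weight h

theorem pow (hF : IsMF Γ a F) (n : ℕ) : IsMF Γ (n * a) (F ^ n) := by
  obtain ⟨s, rfl⟩ := hF
  exact ⟨s.pow n, ModularForm.coe_pow s n⟩

theorem intCast (n : ℤ) : IsMF Γ 0 (n : ℍ → ℂ) := ⟨(n : ModularForm Γ 0), ModularForm.coe_intCast n⟩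

theorem neg_one_pow (n : ℕ) : IsMF Γ 0 ((-1 : ℍ → ℂ) ^ n) := by
  have h := (intCast (Γ := Γ) (-1)).pow n
  simp only [mul_zero, Int.cast_neg, Int.cast_one] at h
  exact h

end IsMF

end Fermat.Agent.S23
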