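import Mathlib

/-!
# Lagrange interpolation identity (pure algebra)

For a finite family `a i`, `b i` in a commutative ring, `χ = ∏ (X - a i)`,
`P₁ = ∏_{i ≠ i₀} (X - a i)`:
`P₁(a i₀) * b i₀ = ∑_n coeff_n(P₁) * (∑ i, b i * a i ^ n)` and the coefficients of `P₁`
are explicit combinations of the elementary symmetric functions of the `a i` and powers of `a i₀`.
-/

open Polynomial Finset

namespace Fermat.Agent.S23

variable {R : Type*} [CommRing R] {ι : Type*} [Fintype ι]

/-- the polynomial `∏_i (X - a i)` -/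
noncomputable def lagChi (a : ι → R) : R[X] := ∏ i : ι, (X - C (a i))

theorem lagChi_coeff (a : ι → R) {m : ℕ} (hm : m ≤ Fintype.card ι) :
    (lagChi a).coeff m =
      (-1) ^ (Fintype.card ι - m) * ((univ : Finset ι).val.map a).esymm (Fintype.card ι - m) := by
  have h := Multiset.prod_X_sub_C_coeff ((univ : Finset ι).val.map a) (k := m) (by simpa using hm)
  simp only [Multiset.map_map, Multiset.card_map, Finset.card_val, Finset.card_univ] at h
  rw [← h]
  rfl

theorem lagChi_natDegree_le (a : ι → R) : (lagChi a).natDegree ≤ Fintype.card ι := by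
  unfold lagChi
  have h1 := Polynomial.natDegree_prod_le (univ : Finset ι) (fun i => X - C (a i))
  have h2 : ∑ i : ι, (X - C (a i)).natDegree ≤ ∑ _i : ι, (1 : ℕ) :=
    Finset.sum_le_sum fun i _ => Polynomial.natDegree_X_sub_C_le (a i)
  have h3 : ∑ _i : ι, (1 : ℕ) = Fintype.card ι := by simp
  omega

variable [DecidableEq ι]

/-- the polynomial `∏_{i ≠ i₀} (X - a i)` -/
noncomputable def lagP (a : ι → R) (i₀ : ι) : R[X] :=
  ∏ i ∈ (univ : Finset ι).erase i₀, (X - C (a i))

theorem lagChi_eq (a : ι → R) (i₀ : ι) : lagChi a = (X - C (a i₀)) * lagP a i₀ := by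
  unfold lagChi lagP
  exact (Finset.mul_prod_erase univ (fun i => X - C (a i)) (Finset.mem_univ i₀)).symm

theorem lagP_natDegree_le (a : ι → R) (i₀ : ι) : (lagP a i₀).natDegree ≤ Fintype.card ι - 1 := by
  unfold lagP
  have h1 := Polynomial.natDegree_prod_le ((univ : Finset ι).erase i₀) (fun i => X - C (a i))
  have h2 : ∑ i ∈ (univ : Finset ι).erase i₀, (X - C (a i)).natDegree
      ≤ ∑ _i ∈ (univ : Finset ι).erase i₀, (1 : ℕ) :=
    Finset.sum_le_sum fun i _ => Polynomial.natDegree_X_sub_C_le (a i)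
  have h3 : ∑ _i ∈ (univ : Finset ι).erase i₀, (1 : ℕ) = Fintype.card ι - 1 := by
    simp [Finset.card_erase_of_mem]
  omega

theorem lagP_eq_divByMonic (a : ι → R) (i₀ : ι) :
    lagP a i₀ = lagChi a /ₘ (X - C (a i₀)) := by
  nontriviality R
  rw [lagChi_eq a i₀, Polynomial.mul_divByMonic_cancel_left _ (Polynomial.monic_X_sub_C _)]

theorem lagP_coeff (a : ι → R) (i₀ : ι) (n : ℕ) :
    (lagP a i₀).coeff n = ∑ m ∈ Finset.Icc (n + 1) (Fintype.card ι),
      a i₀ ^ (m - (n + 1)) * ((-1) ^ (Fintype.card ι - m) *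
        ((univ : Finset ι).val.map a).esymm (Fintype.card ι - m)) := by
  rw [lagP_eq_divByMonic, Polynomial.coeff_divByMonic_X_sub_C]
  have hdeg := lagChi_natDegree_le a
  have h2 : ∑ m ∈ Finset.Icc (n + 1) (Fintype.card ι),
      a i₀ ^ (m - (n + 1)) * ((-1) ^ (Fintype.card ι - m) *
        ((univ : Finset ι).val.map a).esymm (Fintype.card ι - m)) =
      ∑ m ∈ Finset.Icc (n + 1) (Fintype.card ι), a i₀ ^ (m - (n + 1)) * (lagChi a).coeff m := by
    refine Finset.sum_congr rfl fun m hm => ?_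
    rw [lagChi_coeff a (Finset.mem_Icc.mp hm).2]
  rw [h2]
  refine Finset.sum_subset (Finset.Icc_subset_Icc_right hdeg) ?_
  intro m hm hm'
  have : (lagChi a).natDegree < m := by
    simp only [Finset.mem_Icc, not_and, not_le] at hm hm'
    exact hm' hm.1
  rw [Polynomial.coeff_eq_zero_of_natDegree_lt this, mul_zero]

theorem lagP_eval_of_ne (a : ι → R) {i₀ i : ι} (h : i ≠ i₀) : (lagP a i₀).eval (a i) = 0 := by
  unfold lagP
  rw [Polynomial.eval_prod]
  exact Finset.prod_eq_zero (Finset.mem_erase.mpr ⟨h, Finset.mem_univ i⟩) (by simp)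

theorem lagP_eval_self (a : ι → R) (i₀ : ι) :
    (lagP a i₀).eval (a i₀) = ∏ i ∈ (univ : Finset ι).erase i₀, (a i₀ - a i) := by
  unfold lagP
  rw [Polynomial.eval_prod]
  simp

theorem lagP_eval_eq_sum (a : ι → R) (i₀ : ι) (x : R) :
    (lagP a i₀).eval x = ∑ n ∈ Finset.range (Fintype.card ι), (lagP a i₀).coeff n * x ^ n := by
  rcases Nat.eq_zero_or_pos (Fintype.card ι) with h0 | hpos
  · exact absurd (Fintype.card_pos_iff.mpr ⟨i₀⟩) (by omega)
  · exact Polynomial.eval_eq_sum_range' (lt_of_le_of_lt (lagP_natDegree_le a i₀) (by omega)) x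

/-- The Lagrange identity. -/
theorem lagrange_identity (a b : ι → R) (i₀ : ι) :
    (∏ i ∈ (univ : Finset ι).erase i₀, (a i₀ - a i)) * b i₀ =
      ∑ n ∈ Finset.range (Fintype.card ι), (lagP a i₀).coeff n * ∑ i, b i * a i ^ n := by
  have h1 : ∑ i, b i * (lagP a i₀).eval (a i) = b i₀ * (lagP a i₀).eval (a i₀) := by
    rw [Finset.sum_eq_single i₀]
    · intro i _ hi
      rw [lagP_eval_of_ne a hi, mul_zero]
    · intro h; exact absurd (Finset.mem_univ _) h
  rw [← lagP_eval_self, mul_comm, ← h1]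
  simp_rw [lagP_eval_eq_sum, Finset.mul_sum]
  rw [Finset.sum_comm]
  refine Finset.sum_congr rfl fun n _ => Finset.sum_congr rfl fun i _ => by ring

/-- The monic equation: `a i₀` is a root of `∏ (X - a i)`, in terms of elementary symmetric
functions. -/
theorem esymm_equation (a : ι → R) (i₀ : ι) :
    ∑ m ∈ Finset.range (Fintype.card ι + 1),
      (-1) ^ (Fintype.card ι - m) * ((univ : Finset ι).val.map a).esymm (Fintype.card ι - m)
        * a i₀ ^ m = 0 := by
  have h0 : (lagChi a).eval (a i₀) = 0 := by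
    rw [lagChi_eq a i₀]; simp
  rw [Polynomial.eval_eq_sum_range' (Nat.lt_succ_of_le (lagChi_natDegree_le a))] at h0
  rw [← h0]
  refine Finset.sum_congr rfl fun m hm => ?_
  rw [lagChi_coeff a (Nat.lt_succ_iff.mp (Finset.mem_range.mp hm))]

end Fermat.Agent.S23
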