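import Mathlib
import Fermat.Agent.S23.Lagrange

/-!
# Generic Lagrange expressions in a commutative ring

Given `G : R`, `b : ℕ → R` (playing the role of the elementary symmetric functions of the
conjugates of `G`) and `t : ℕ → R` (the traces of `F * G ^ n`), we define the denominator
`lagDen` and numerator `lagNum` of the Lagrange interpolation formula and the monic relation
`monicRel`, and prove that they are compatible with ring homomorphisms.
-/

open Finset

namespace Fermat.Agent.S23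

variable {R S : Type*} [CommRing R] [CommRing S]

/-- `n`-th coefficient of `∏_{q ≠ 1} (X - G_q)` in terms of `G` and the elementary symmetric
functions `b j` of all the conjugates. -/
def lagCoef (μ : ℕ) (G : R) (b : ℕ → R) (n : ℕ) : R :=
  ∑ m ∈ Finset.Icc (n + 1) μ, G ^ (m - (n + 1)) * ((-1) ^ (μ - m) * b (μ - m))

/-- The denominator `∏_{q ≠ 1} (G - G_q)`. -/
def lagDen (μ : ℕ) (G : R) (b : ℕ → R) : R :=
  ∑ n ∈ Finset.range μ, lagCoef μ G b n * G ^ n

/-- The numerator `∑_n coeff_n * Tr(F G ^ n)`. -/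
def lagNum (μ : ℕ) (G : R) (b : ℕ → R) (t : ℕ → R) : R :=
  ∑ n ∈ Finset.range μ, lagCoef μ G b n * t n

/-- The monic relation `∑_m (-1)^(μ-m) a_{μ-m} F^m`. -/
def monicRel (μ : ℕ) (a : ℕ → R) (F : R) : R :=
  ∑ m ∈ Finset.range (μ + 1), (-1) ^ (μ - m) * a (μ - m) * F ^ m

/-- The homogenised monic relation `∑_m (-1)^(μ-m) a_{μ-m} D^(μ-m) P^m`. -/
def monicRelHom (μ : ℕ) (a : ℕ → R) (D P : R) : R :=
  ∑ m ∈ Finset.range (μ + 1), (-1) ^ (μ - m) * a (μ - m) * D ^ (μ - m) * P ^ m

theorem map_lagCoef (φ : R →+* S) (μ : ℕ) (G : R) (b : ℕ → R) (n : ℕ) :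
    φ (lagCoef μ G b n) = lagCoef μ (φ G) (fun j => φ (b j)) n := by
  simp [lagCoef, map_sum, map_mul, map_pow]

theorem map_lagDen (φ : R →+* S) (μ : ℕ) (G : R) (b : ℕ → R) :
    φ (lagDen μ G b) = lagDen μ (φ G) (fun j => φ (b j)) := by
  simp [lagDen, map_sum, map_mul, map_pow, map_lagCoef]

theorem map_lagNum (φ : R →+* S) (μ : ℕ) (G : R) (b : ℕ → R) (t : ℕ → R) :
    φ (lagNum μ G b t) = lagNum μ (φ G) (fun j => φ (b j)) (fun n => φ (t n)) := by
  simp [lagNum, map_sum, map_mul, map_lagCoef]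

theorem map_monicRel (φ : R →+* S) (μ : ℕ) (a : ℕ → R) (F : R) :
    φ (monicRel μ a F) = monicRel μ (fun j => φ (a j)) (φ F) := by
  simp [monicRel, map_sum, map_mul, map_pow]

theorem map_monicRelHom (φ : R →+* S) (μ : ℕ) (a : ℕ → R) (D P : R) :
    φ (monicRelHom μ a D P) = monicRelHom μ (fun j => φ (a j)) (φ D) (φ P) := by
  simp [monicRelHom, map_sum, map_mul, map_pow]

theorem monicRelHom_eq (μ : ℕ) (a : ℕ → R) (D F : R) :
    monicRelHom μ a D (D * F) = D ^ μ * monicRel μ a F := by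
  unfold monicRelHom monicRel
  rw [Finset.mul_sum]
  refine Finset.sum_congr rfl fun m hm => ?_
  have hm' : m ≤ μ := Nat.lt_succ_iff.mp (Finset.mem_range.mp hm)
  have : D ^ μ = D ^ (μ - m) * D ^ m := by rw [← pow_add, Nat.sub_add_cancel hm']
  rw [this, mul_pow]
  ring

theorem monicRelHom_eq_zero {μ : ℕ} {a : ℕ → R} {D F P : R} (hP : D * F = P)
    (h : monicRel μ a F = 0) : monicRelHom μ a D P = 0 := by
  rw [← hP, monicRelHom_eq, h, mul_zero]

/-- rewriting of the homogenised relation in the form used by the quotient lemma -/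
theorem monicRelHom_eq_fin (μ : ℕ) (a : ℕ → R) (ha : a 0 = 1) (D P : R) :
    monicRelHom μ a D P =
      P ^ μ + ∑ i : Fin μ, ((-1) ^ (μ - (i : ℕ)) * a (μ - (i : ℕ))) * D ^ (μ - (i : ℕ))
        * P ^ (i : ℕ) := by
  unfold monicRelHom
  rw [Finset.sum_range_succ, Finset.sum_range, add_comm]
  simp [ha]

theorem monicRel_eq_fin (μ : ℕ) (a : ℕ → R) (ha : a 0 = 1) (F : R) :
    monicRel μ a F =
      F ^ μ + ∑ i ∈ Finset.range μ, ((-1) ^ (μ - i) * a (μ - i)) * F ^ i := by
  unfold monicRel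
  rw [Finset.sum_range_succ, add_comm]
  simp [ha]

section explicit

variable {ι : Type*} [Fintype ι] [DecidableEq ι]

theorem lagCoef_esymm (a : ι → R) (i₀ : ι) (n : ℕ) :
    lagCoef (Fintype.card ι) (a i₀)
      (fun j => ((univ : Finset ι).val.map a).esymm j) n = (lagP a i₀).coeff n := by
  rw [lagP_coeff]
  rfl

theorem lagDen_esymm (a : ι → R) (i₀ : ι) :
    lagDen (Fintype.card ι) (a i₀) (fun j => ((univ : Finset ι).val.map a).esymm j)
      = ∏ i ∈ (univ : Finset ι).erase i₀, (a i₀ - a i) := by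
  rw [← lagP_eval_self, lagP_eval_eq_sum]
  unfold lagDen
  refine Finset.sum_congr rfl fun n _ => ?_
  rw [lagCoef_esymm]

theorem lagNum_esymm (a b : ι → R) (i₀ : ι) :
    lagNum (Fintype.card ι) (a i₀) (fun j => ((univ : Finset ι).val.map a).esymm j)
      (fun n => ∑ i, b i * a i ^ n) = (∏ i ∈ (univ : Finset ι).erase i₀, (a i₀ - a i)) * b i₀ := by
  rw [lagrange_identity]
  unfold lagNum
  refine Finset.sum_congr rfl fun n _ => ?_
  rw [lagCoef_esymm]

theorem lagDen_mul_eq_lagNum (a b : ι → R) (i₀ : ι) :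
    lagDen (Fintype.card ι) (a i₀) (fun j => ((univ : Finset ι).val.map a).esymm j) * b i₀ =
    lagNum (Fintype.card ι) (a i₀) (fun j => ((univ : Finset ι).val.map a).esymm j)
      (fun n => ∑ i, b i * a i ^ n) := by
  rw [lagDen_esymm, lagNum_esymm]

theorem monicRel_esymm (a : ι → R) (i₀ : ι) :
    monicRel (Fintype.card ι) (fun j => ((univ : Finset ι).val.map a).esymm j) (a i₀) = 0 :=
  esymm_equation a i₀

end explicit

end Fermat.Agent.S23
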