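import Mathlib
import Fermat.Agent.S23.IsMF
import Fermat.Agent.S23.LagGeneric

/-!
# Weights of the Lagrange expressions
-/

open UpperHalfPlane ModularForm
open scoped MatrixGroups ModularForm Manifold

namespace Fermat.Agent.S23

variable {Γ : Subgroup (GL (Fin 2) ℝ)} [Γ.HasDetPlusMinusOne] {k w : ℤ} {μ : ℕ}
  {G : ℍ → ℂ} {b t : ℕ → ℍ → ℂ}

theorem isMF_lagCoef (hG : IsMF Γ w G) (hb : ∀ j : ℕ, IsMF Γ (w * (j : ℤ)) (b j)) {n : ℕ} (hn : n < μ) :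
    IsMF Γ (((μ - 1 - n : ℕ) : ℤ) * w) (lagCoef μ G b n) := by
  unfold lagCoef
  refine IsMF.sum _ _ fun m hm => ?_
  obtain ⟨h1, h2⟩ := Finset.mem_Icc.mp hm
  refine IsMF.mul' (hG.pow (m - (n + 1))) (IsMF.mul' (IsMF.neg_one_pow (μ - m)) (hb (μ - m)) rfl) ?_
  have e1 : ((m - (n + 1) : ℕ) : ℤ) = (m : ℤ) - n - 1 := by omega
  have e2 : ((μ - m : ℕ) : ℤ) = (μ : ℤ) - m := by omega
  have e3 : ((μ - 1 - n : ℕ) : ℤ) = (μ : ℤ) - 1 - n := by omega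
  rw [e1, e2, e3]
  ring

theorem isMF_lagDen (hG : IsMF Γ w G) (hb : ∀ j : ℕ, IsMF Γ (w * (j : ℤ)) (b j)) :
    IsMF Γ (((μ - 1 : ℕ) : ℤ) * w) (lagDen μ G b) := by
  unfold lagDen
  refine IsMF.sum _ _ fun n hn => ?_
  have hn' : n < μ := Finset.mem_range.mp hn
  refine IsMF.mul' (isMF_lagCoef hG hb hn') (hG.pow n) ?_
  have e3 : ((μ - 1 - n : ℕ) : ℤ) = (μ : ℤ) - 1 - n := by omega
  have e4 : ((μ - 1 : ℕ) : ℤ) = (μ : ℤ) - 1 := by omega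
  rw [e3, e4]
  ring

theorem isMF_lagNum (hG : IsMF Γ w G) (hb : ∀ j : ℕ, IsMF Γ (w * (j : ℤ)) (b j))
    (ht : ∀ n : ℕ, IsMF Γ (k + (n : ℤ) * w) (t n)) :
    IsMF Γ (k + ((μ - 1 : ℕ) : ℤ) * w) (lagNum μ G b t) := by
  unfold lagNum
  refine IsMF.sum _ _ fun n hn => ?_
  have hn' : n < μ := Finset.mem_range.mp hn
  refine IsMF.mul' (isMF_lagCoef hG hb hn') (ht n) ?_
  have e3 : ((μ - 1 - n : ℕ) : ℤ) = (μ : ℤ) - 1 - n := by omega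
  have e4 : ((μ - 1 : ℕ) : ℤ) = (μ : ℤ) - 1 := by omega
  rw [e3, e4]
  ring

end Fermat.Agent.S23
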