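import Mathlib
import Fermat.Agent.S23.Lagrange

/-!
# Conjugates of a modular form and their symmetric functions as level-one forms
-/

open UpperHalfPlane ModularForm SlashInvariantForm Finset
open scoped MatrixGroups ModularForm Manifold Pointwise

namespace Fermat.Agent.S23

noncomputable section

variable {𝒢 : Subgroup (GL (Fin 2) ℝ)} [𝒢.IsArithmetic] {k : ℤ}

local notation "𝒬" => 𝒮ℒ ⧸ 𝒢.subgroupOf 𝒮ℒ

/-- The coset space is finite; we fix the `Fintype` instance. -/
instance instFintypeQuot : Fintype (𝒮ℒ ⧸ 𝒢.subgroupOf 𝒮ℒ) := Fintype.ofFinite _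

instance instDecEqQuot : DecidableEq (𝒮ℒ ⧸ 𝒢.subgroupOf 𝒮ℒ) := Classical.decEq _

omit [𝒢.IsArithmetic] in
theorem mdiff_quotientFunc (f : ModularForm 𝒢 k) (q : 𝒬) : MDiff (quotientFunc f q) := by
  induction q using Quotient.inductionOn with
  | h r => exact (ModularForm.translate f r.1⁻¹).holo'

theorem isBoundedAtImInfty_quotientFunc (f : ModularForm 𝒢 k) (q : 𝒬) :
    IsBoundedAtImInfty (quotientFunc f q) := by
  induction q using Quotient.inductionOn with
  | h r =>
    obtain ⟨r, γ, rfl⟩ := r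
    have := ModularFormClass.bdd_at_infty_slash f γ⁻¹
    rw [SL_slash, map_inv] at this
    rw [quotientFunc_mk]
    exact this

theorem isZeroAtImInfty_quotientFunc (f : CuspForm 𝒢 k) (q : 𝒬) :
    IsZeroAtImInfty (quotientFunc f q) := by
  induction q using Quotient.inductionOn with
  | h r =>
    obtain ⟨r, γ, rfl⟩ := r
    have := CuspFormClass.zero_at_infty_slash f γ⁻¹
    rw [SL_slash, map_inv] at this
    rw [quotientFunc_mk]
    exact this

omit [𝒢.IsArithmetic] in
theorem quotientFunc_one (f : ModularForm 𝒢 k) :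
    quotientFunc f (⟦1⟧ : 𝒬) = ⇑f := by
  rw [quotientFunc_mk]
  simp

/-- `j`-th elementary symmetric function of the conjugates of `f`. -/
def esymmFun (f : ModularForm 𝒢 k) (j : ℕ) : ℍ → ℂ :=
  ∑ t ∈ powersetCard j (univ : Finset 𝒬), ∏ q ∈ t, quotientFunc f q

theorem esymmFun_apply (f : ModularForm 𝒢 k) (j : ℕ) (z : ℍ) :
    esymmFun f j z = ((univ : Finset 𝒬).val.map (fun q => quotientFunc f q z)).esymm j := by
  rw [Finset.esymm_map_val]
  simp [esymmFun, Finset.sum_apply, Finset.prod_apply]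

theorem esymmFun_slash (f : ModularForm 𝒢 k) (j : ℕ) {h : GL (Fin 2) ℝ} (hh : h ∈ 𝒮ℒ) :
    esymmFun f j ∣[k * j] h = esymmFun f j := by
  unfold esymmFun
  rw [SlashAction.sum_slash]
  have hdet : |h.det.val| = 1 := Subgroup.HasDetPlusMinusOne.abs_det hh
  have key : ∀ t ∈ powersetCard j (univ : Finset 𝒬),
      (∏ q ∈ t, quotientFunc f q) ∣[k * j] h =
        ∏ q ∈ t, quotientFunc f ((⟨h, hh⟩ : 𝒮ℒ)⁻¹ • q) := by
    intro t ht
    have hcard : #t = j := (Finset.mem_powersetCard.mp ht).2
    rw [← hcard, ModularForm.prod_slash, hdet, one_zpow, one_smul]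
    exact Finset.prod_congr rfl fun q _ => quotientFunc_smul f hh q
  rw [Finset.sum_congr rfl key]
  let e : 𝒬 ≃ 𝒬 := MulAction.toPerm ((⟨h, hh⟩ : 𝒮ℒ)⁻¹)
  refine Finset.sum_equiv (Equiv.finsetCongr e) ?_ ?_
  · intro t
    simp only [Finset.mem_powersetCard, Finset.subset_univ, true_and, Equiv.finsetCongr_apply,
      Finset.card_map]
  · intro t _
    rw [Equiv.finsetCongr_apply, Finset.prod_map]
    rfl

omit [𝒢.IsArithmetic] in
theorem isBoundedAtImInfty_finset_sum {ι : Type*} (s : Finset ι) (F : ι → ℍ → ℂ)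
    (hF : ∀ i ∈ s, IsBoundedAtImInfty (F i)) : IsBoundedAtImInfty (∑ i ∈ s, F i) := by
  classical
  induction s using Finset.induction_on with
  | empty =>
    simp only [Finset.sum_empty]
    exact Filter.const_boundedAtFilter _ (0 : ℂ)
  | insert i t hi IH =>
    rw [Finset.sum_insert hi]
    exact (hF i (Finset.mem_insert_self i t)).add
      (IH fun i' hi' => hF i' (Finset.mem_insert_of_mem hi'))

omit [𝒢.IsArithmetic] in
theorem isBoundedAtImInfty_finset_prod {ι : Type*} (s : Finset ι) (F : ι → ℍ → ℂ)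
    (hF : ∀ i ∈ s, IsBoundedAtImInfty (F i)) : IsBoundedAtImInfty (∏ i ∈ s, F i) := by
  classical
  induction s using Finset.induction_on with
  | empty =>
    simp only [Finset.prod_empty]
    exact Filter.const_boundedAtFilter _ (1 : ℂ)
  | insert i t hi IH =>
    rw [Finset.prod_insert hi]
    exact (hF i (Finset.mem_insert_self i t)).mul
      (IH fun i' hi' => hF i' (Finset.mem_insert_of_mem hi'))

omit [𝒢.IsArithmetic] in
theorem isZeroAtImInfty_finset_sum {ι : Type*} (s : Finset ι) (F : ι → ℍ → ℂ)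
    (hF : ∀ i ∈ s, IsZeroAtImInfty (F i)) : IsZeroAtImInfty (∑ i ∈ s, F i) := by
  classical
  induction s using Finset.induction_on with
  | empty =>
    simp only [Finset.sum_empty]
    exact Filter.zero_zeroAtFilter _
  | insert i t hi IH =>
    rw [Finset.sum_insert hi]
    exact (hF i (Finset.mem_insert_self i t)).add
      (IH fun i' hi' => hF i' (Finset.mem_insert_of_mem hi'))

omit [𝒢.IsArithmetic] in
theorem isZeroAtImInfty_finset_prod {ι : Type*} (s : Finset ι) (hs : s.Nonempty)
    (F : ι → ℍ → ℂ) (hF : ∀ i ∈ s, IsZeroAtImInfty (F i)) :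
    IsZeroAtImInfty (∏ i ∈ s, F i) := by
  classical
  induction hs using Finset.Nonempty.cons_induction with
  | singleton i =>
    simpa using hF i (by simp)
  | cons i t hi ht IH =>
    rw [Finset.prod_cons]
    have h1 : IsZeroAtImInfty (F i) := hF i (Finset.mem_cons_self i t)
    have h2 : IsZeroAtImInfty (∏ i ∈ t, F i) :=
      IH fun i' hi' => hF i' (Finset.mem_cons.mpr (Or.inr hi'))
    exact h1.mul_boundedAtFilter h2.boundedAtFilter

theorem mdiff_esymmFun (f : ModularForm 𝒢 k) (j : ℕ) : MDiff (esymmFun f j) := by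
  unfold esymmFun
  exact MDifferentiable.sum fun t _ => MDifferentiable.prod fun q _ => mdiff_quotientFunc f q

theorem isBoundedAtImInfty_esymmFun (f : ModularForm 𝒢 k) (j : ℕ) :
    IsBoundedAtImInfty (esymmFun f j) :=
  isBoundedAtImInfty_finset_sum _ _ fun _ _ =>
    isBoundedAtImInfty_finset_prod _ _ fun q _ => isBoundedAtImInfty_quotientFunc f q

/-- `j`-th elementary symmetric function of the conjugates, as a level one modular form. -/
def esymmForm (f : ModularForm 𝒢 k) (j : ℕ) : ModularForm 𝒮ℒ (k * j) where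
  toFun := esymmFun f j
  slash_action_eq' h hh := esymmFun_slash f j hh
  holo' := mdiff_esymmFun f j
  bdd_at_cusps' {c} hc := by
    rw [OnePoint.isBoundedAt_iff_forall_SL2Z hc]
    intro γ _
    have h := esymmFun_slash f j (h := Matrix.SpecialLinearGroup.mapGL ℝ γ) ⟨γ, rfl⟩
    rw [SL_slash]
    change IsBoundedAtImInfty (esymmFun f j ∣[k * ↑j] (Matrix.SpecialLinearGroup.mapGL ℝ) γ)
    rw [h]
    exact isBoundedAtImInfty_esymmFun f j

@[simp] theorem coe_esymmForm (f : ModularForm 𝒢 k) (j : ℕ) :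
    ⇑(esymmForm f j) = esymmFun f j := rfl

theorem isZeroAtImInfty_esymmFun (f : ModularForm 𝒢 k)
    (hf : ∀ q : 𝒬, IsZeroAtImInfty (quotientFunc f q)) {j : ℕ} (hj : 0 < j) :
    IsZeroAtImInfty (esymmFun f j) := by
  refine isZeroAtImInfty_finset_sum _ _ fun t ht => ?_
  have hcard : #t = j := (Finset.mem_powersetCard.mp ht).2
  have hne : t.Nonempty := Finset.card_pos.mp (by omega)
  exact isZeroAtImInfty_finset_prod t hne _ fun q _ => hf q

theorem quotientFunc_mul {k₁ k₂ : ℤ} (f : ModularForm 𝒢 k₁) (g : ModularForm 𝒢 k₂) (q : 𝒬) :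
    quotientFunc (f.mul g) q = quotientFunc f q * quotientFunc g q := by
  induction q using Quotient.inductionOn with
  | h r =>
    rw [quotientFunc_mk, quotientFunc_mk, quotientFunc_mk, ModularForm.coe_mul,
      ModularForm.mul_slash]
    have hdet : |(r.val⁻¹).det.val| = 1 :=
      Subgroup.HasDetPlusMinusOne.abs_det (inv_mem r.2)
    rw [hdet, one_smul]

theorem quotientFunc_pow {w : ℤ} (g : ModularForm 𝒢 w) (n : ℕ) (q : 𝒬) :
    quotientFunc (g.pow n) q = quotientFunc g q ^ n := by
  induction q using Quotient.inductionOn with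
  | h r =>
    rw [quotientFunc_mk, quotientFunc_mk, ModularForm.coe_pow]
    have hdet : |(r.val⁻¹).det.val| = 1 :=
      Subgroup.HasDetPlusMinusOne.abs_det (inv_mem r.2)
    have h := ModularForm.prod_slash (k := w) (g := r.val⁻¹) (f := fun _ : Fin n => ⇑g)
      (s := Finset.univ)
    simp only [Finset.prod_const, Finset.card_univ, Fintype.card_fin, hdet, one_zpow,
      one_smul] at h
    rw [mul_comm] at h
    exact h

/-- The trace of `f * g ^ n` as a level one form. -/
def traceMulPow {k w : ℤ} (f : ModularForm 𝒢 k) (g : ModularForm 𝒢 w) (n : ℕ) :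
    ModularForm 𝒮ℒ (k + n * w) :=
  ModularForm.trace 𝒮ℒ (f.mul (g.pow n))

theorem coe_traceMulPow {k w : ℤ} (f : ModularForm 𝒢 k) (g : ModularForm 𝒢 w) (n : ℕ) :
    ⇑(traceMulPow f g n) = ∑ q : 𝒬, quotientFunc f q * quotientFunc g q ^ n := by
  unfold traceMulPow
  rw [ModularForm.coe_trace]
  refine Finset.sum_congr rfl fun q _ => ?_
  rw [quotientFunc_mul, quotientFunc_pow]

end

end Fermat.Agent.S23
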