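import Mathlib
import Fermat.Agent.S23.Conj
import Fermat.Agent.S23.LagGeneric

/-!
# The Lagrange relations for the conjugates of modular forms, as identities of functions on `ℍ`
-/

open UpperHalfPlane ModularForm SlashInvariantForm Finset
open scoped MatrixGroups ModularForm Manifold Pointwise

namespace Fermat.Agent.S23

noncomputable section

variable {𝒢 : Subgroup (GL (Fin 2) ℝ)} [𝒢.IsArithmetic] {k w : ℤ}

local notation "𝒬" => 𝒮ℒ ⧸ 𝒢.subgroupOf 𝒮ℒ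

/-- the index of `𝒢` in `𝒮ℒ` -/
def conjIndex (𝒢 : Subgroup (GL (Fin 2) ℝ)) [𝒢.IsArithmetic] : ℕ :=
  Fintype.card (𝒮ℒ ⧸ 𝒢.subgroupOf 𝒮ℒ)

theorem esymmFun_zero (f : ModularForm 𝒢 k) : esymmFun f 0 = 1 := by
  funext z
  rw [esymmFun_apply]
  simp [Multiset.esymm]

theorem eval_esymmFun (f : ModularForm 𝒢 k) (z : ℍ) :
    (fun j => Pi.evalRingHom (fun _ : ℍ => ℂ) z (esymmFun f j)) =
      fun j => ((univ : Finset 𝒬).val.map (fun q => quotientFunc f q z)).esymm j := by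
  funext j
  exact esymmFun_apply f j z

theorem monicRel_fun (f : ModularForm 𝒢 k) :
    monicRel (conjIndex 𝒢) (esymmFun f) (⇑f) = 0 := by
  funext z
  have h := map_monicRel (Pi.evalRingHom (fun _ : ℍ => ℂ) z) (conjIndex 𝒢) (esymmFun f) (⇑f)
  rw [eval_esymmFun] at h
  change Pi.evalRingHom (fun _ : ℍ => ℂ) z (monicRel (conjIndex 𝒢) (esymmFun f) (⇑f)) = 0
  rw [h]
  have h2 := monicRel_esymm (fun q : 𝒬 => quotientFunc f q z) (⟦1⟧ : 𝒬)
  rw [quotientFunc_one] at h2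
  exact h2

theorem lagDen_fun_eq (g : ModularForm 𝒢 w) :
    lagDen (conjIndex 𝒢) (⇑g) (esymmFun g) =
      ∏ q ∈ (univ : Finset 𝒬).erase ⟦1⟧, (⇑g - quotientFunc g q) := by
  funext z
  have h := map_lagDen (Pi.evalRingHom (fun _ : ℍ => ℂ) z) (conjIndex 𝒢) (⇑g) (esymmFun g)
  rw [eval_esymmFun] at h
  change Pi.evalRingHom (fun _ : ℍ => ℂ) z (lagDen (conjIndex 𝒢) (⇑g) (esymmFun g)) = _
  rw [h]
  have h2 := lagDen_esymm (fun q : 𝒬 => quotientFunc g q z) (⟦1⟧ : 𝒬)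
  rw [quotientFunc_one] at h2
  rw [Finset.prod_apply]
  simp only [Pi.sub_apply]
  exact h2

theorem lagDen_mul_eq_lagNum_fun (f : ModularForm 𝒢 k) (g : ModularForm 𝒢 w) :
    lagDen (conjIndex 𝒢) (⇑g) (esymmFun g) * ⇑f =
      lagNum (conjIndex 𝒢) (⇑g) (esymmFun g) (fun n => ⇑(traceMulPow f g n)) := by
  funext z
  have h := map_lagDen (Pi.evalRingHom (fun _ : ℍ => ℂ) z) (conjIndex 𝒢) (⇑g) (esymmFun g)
  have h' := map_lagNum (Pi.evalRingHom (fun _ : ℍ => ℂ) z) (conjIndex 𝒢) (⇑g) (esymmFun g)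
    (fun n => ⇑(traceMulPow f g n))
  rw [eval_esymmFun] at h h'
  change Pi.evalRingHom (fun _ : ℍ => ℂ) z (lagDen (conjIndex 𝒢) (⇑g) (esymmFun g)) * f z =
    Pi.evalRingHom (fun _ : ℍ => ℂ) z (lagNum (conjIndex 𝒢) (⇑g) (esymmFun g)
      (fun n => ⇑(traceMulPow f g n)))
  rw [h, h']
  have h2 := lagDen_mul_eq_lagNum (fun q : 𝒬 => quotientFunc g q z)
    (fun q : 𝒬 => quotientFunc f q z) (⟦1⟧ : 𝒬)
  rw [quotientFunc_one, quotientFunc_one] at h2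
  refine Eq.trans h2 ?_
  congr 1
  funext n
  rw [coe_traceMulPow]
  simp

end

end Fermat.Agent.S23
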