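import Mathlib
import Fermat.Agent.S23.Relations
import Fermat.Agent.S23.helper87_QRing

/-!
# The Lagrange relations on `q`-expansions
-/

open UpperHalfPlane ModularForm SlashInvariantForm Finset
open scoped MatrixGroups ModularForm Manifold Pointwise

namespace Fermat.Agent.S23

open helper87

section generic

variable {R S : Type*} [CommRing R] [CommRing S]

theorem lagCoef_mem (A : Subring R) {μ : ℕ} {G : R} {b : ℕ → R} (hG : G ∈ A)
    (hb : ∀ j, b j ∈ A) (n : ℕ) : lagCoef μ G b n ∈ A := by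
  unfold lagCoef
  exact A.sum_mem fun m _ => A.mul_mem (A.pow_mem hG _)
    (A.mul_mem (A.pow_mem (A.neg_mem A.one_mem) _) (hb _))

theorem lagDen_mem (A : Subring R) {μ : ℕ} {G : R} {b : ℕ → R} (hG : G ∈ A)
    (hb : ∀ j, b j ∈ A) : lagDen μ G b ∈ A := by
  unfold lagDen
  exact A.sum_mem fun n _ => A.mul_mem (lagCoef_mem A hG hb n) (A.pow_mem hG _)

theorem lagNum_mem (A : Subring R) {μ : ℕ} {G : R} {b t : ℕ → R} (hG : G ∈ A)
    (hb : ∀ j, b j ∈ A) (ht : ∀ n, t n ∈ A) : lagNum μ G b t ∈ A := by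
  unfold lagNum
  exact A.sum_mem fun n _ => A.mul_mem (lagCoef_mem A hG hb n) (ht n)

theorem monicRel_mem (A : Subring R) {μ : ℕ} {a : ℕ → R} {F : R} (hF : F ∈ A)
    (ha : ∀ j, a j ∈ A) : monicRel μ a F ∈ A := by
  unfold monicRel
  exact A.sum_mem fun m _ => A.mul_mem
    (A.mul_mem (A.pow_mem (A.neg_mem A.one_mem) _) (ha _)) (A.pow_mem hF _)

theorem monicRelHom_mem (A : Subring R) {μ : ℕ} {a : ℕ → R} {D P : R} (hD : D ∈ A) (hP : P ∈ A)
    (ha : ∀ j, a j ∈ A) : monicRelHom μ a D P ∈ A := by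
  unfold monicRelHom
  exact A.sum_mem fun m _ => A.mul_mem (A.mul_mem
    (A.mul_mem (A.pow_mem (A.neg_mem A.one_mem) _) (ha _)) (A.pow_mem hD _)) (A.pow_mem hP _)

theorem subring_map_lagDen (A : Subring R) (φ : A →+* S) {μ : ℕ} {G : R} {b : ℕ → R}
    (hG : G ∈ A) (hb : ∀ j, b j ∈ A) :
    φ ⟨lagDen μ G b, lagDen_mem A hG hb⟩ = lagDen μ (φ ⟨G, hG⟩) (fun j => φ ⟨b j, hb j⟩) := by
  rw [← map_lagDen]
  congr 1
  apply Subtype.ext
  have := map_lagDen A.subtype μ (⟨G, hG⟩ : A) (fun j => (⟨b j, hb j⟩ : A))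
  exact this.symm

theorem subring_map_lagNum (A : Subring R) (φ : A →+* S) {μ : ℕ} {G : R} {b t : ℕ → R}
    (hG : G ∈ A) (hb : ∀ j, b j ∈ A) (ht : ∀ n, t n ∈ A) :
    φ ⟨lagNum μ G b t, lagNum_mem A hG hb ht⟩ =
      lagNum μ (φ ⟨G, hG⟩) (fun j => φ ⟨b j, hb j⟩) (fun n => φ ⟨t n, ht n⟩) := by
  rw [← map_lagNum]
  congr 1
  apply Subtype.ext
  have := map_lagNum A.subtype μ (⟨G, hG⟩ : A) (fun j => (⟨b j, hb j⟩ : A))
    (fun n => (⟨t n, ht n⟩ : A))
  exact this.symm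

theorem subring_map_monicRel (A : Subring R) (φ : A →+* S) {μ : ℕ} {a : ℕ → R} {F : R}
    (hF : F ∈ A) (ha : ∀ j, a j ∈ A) :
    φ ⟨monicRel μ a F, monicRel_mem A hF ha⟩ =
      monicRel μ (fun j => φ ⟨a j, ha j⟩) (φ ⟨F, hF⟩) := by
  rw [← map_monicRel]
  congr 1
  apply Subtype.ext
  have := map_monicRel A.subtype μ (fun j => (⟨a j, ha j⟩ : A)) (⟨F, hF⟩ : A)
  exact this.symm

theorem subring_map_monicRelHom (A : Subring R) (φ : A →+* S) {μ : ℕ} {a : ℕ → R} {D P : R}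
    (hD : D ∈ A) (hP : P ∈ A) (ha : ∀ j, a j ∈ A) :
    φ ⟨monicRelHom μ a D P, monicRelHom_mem A hD hP ha⟩ =
      monicRelHom μ (fun j => φ ⟨a j, ha j⟩) (φ ⟨D, hD⟩) (φ ⟨P, hP⟩) := by
  rw [← map_monicRelHom]
  congr 1
  apply Subtype.ext
  have := map_monicRelHom A.subtype μ (fun j => (⟨a j, ha j⟩ : A)) (⟨D, hD⟩ : A) (⟨P, hP⟩ : A)
  exact this.symm

end generic

section nice

variable {μ : ℕ} {G F D P : ℍ → ℂ} {a b t : ℕ → ℍ → ℂ}

theorem isNice_lagDen (hG : IsNice G) (hb : ∀ j, IsNice (b j)) : IsNice (lagDen μ G b) :=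
  lagDen_mem niceRing hG hb

theorem isNice_lagNum (hG : IsNice G) (hb : ∀ j, IsNice (b j)) (ht : ∀ n, IsNice (t n)) :
    IsNice (lagNum μ G b t) :=
  lagNum_mem niceRing hG hb ht

theorem isNice_monicRel (hF : IsNice F) (ha : ∀ j, IsNice (a j)) : IsNice (monicRel μ a F) :=
  monicRel_mem niceRing hF ha

theorem isNice_monicRelHom (hD : IsNice D) (hP : IsNice P) (ha : ∀ j, IsNice (a j)) :
    IsNice (monicRelHom μ a D P) :=
  monicRelHom_mem niceRing hD hP ha

theorem qExpansion_lagDen (hG : IsNice G) (hb : ∀ j, IsNice (b j)) :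
    qExpansion 1 (lagDen μ G b) = lagDen μ (qExpansion 1 G) (fun j => qExpansion 1 (b j)) :=
  subring_map_lagDen niceRing qExpHom hG hb

theorem qExpansion_lagNum (hG : IsNice G) (hb : ∀ j, IsNice (b j)) (ht : ∀ n, IsNice (t n)) :
    qExpansion 1 (lagNum μ G b t) =
      lagNum μ (qExpansion 1 G) (fun j => qExpansion 1 (b j)) (fun n => qExpansion 1 (t n)) :=
  subring_map_lagNum niceRing qExpHom hG hb ht

theorem qExpansion_monicRel (hF : IsNice F) (ha : ∀ j, IsNice (a j)) :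
    qExpansion 1 (monicRel μ a F) =
      monicRel μ (fun j => qExpansion 1 (a j)) (qExpansion 1 F) :=
  subring_map_monicRel niceRing qExpHom hF ha

theorem qExpansion_monicRelHom (hD : IsNice D) (hP : IsNice P) (ha : ∀ j, IsNice (a j)) :
    qExpansion 1 (monicRelHom μ a D P) =
      monicRelHom μ (fun j => qExpansion 1 (a j)) (qExpansion 1 D) (qExpansion 1 P) :=
  subring_map_monicRelHom niceRing qExpHom hD hP ha

end nice

section forms

variable {𝒢 : Subgroup (GL (Fin 2) ℝ)} [𝒢.IsArithmetic] {k w : ℤ}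

local notation "𝒬" => 𝒮ℒ ⧸ 𝒢.subgroupOf 𝒮ℒ

theorem isNice_esymmFun (f : ModularForm 𝒢 k) (j : ℕ) : IsNice (esymmFun f j) :=
  IsNice.of_levelOne (esymmForm f j)

/-- (Q1) the monic relation satisfied by the `q`-expansion of `f`. -/
theorem qExpansion_monicRel_eq_zero (h1 : (1 : ℝ) ∈ 𝒢.strictPeriods) (f : ModularForm 𝒢 k) :
    monicRel (conjIndex 𝒢) (fun j => qExpansion 1 (esymmForm f j)) (qExpansion 1 f) = 0 := by
  have h := qExpansion_monicRel (μ := conjIndex 𝒢) (IsNice.of_modularForm h1 f)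
    (isNice_esymmFun f)
  rw [monicRel_fun, UpperHalfPlane.qExpansion_zero] at h
  exact h.symm

/-- (Q2) the Lagrange identity on `q`-expansions. -/
theorem qExpansion_lagDen_mul (h1 : (1 : ℝ) ∈ 𝒢.strictPeriods) (f : ModularForm 𝒢 k)
    (g : ModularForm 𝒢 w) :
    lagDen (conjIndex 𝒢) (qExpansion 1 g) (fun j => qExpansion 1 (esymmForm g j)) *
        qExpansion 1 f =
      lagNum (conjIndex 𝒢) (qExpansion 1 g) (fun j => qExpansion 1 (esymmForm g j))
        (fun n => qExpansion 1 (traceMulPow f g n)) := by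
  have hg : IsNice (⇑g) := IsNice.of_modularForm h1 g
  have hf : IsNice (⇑f) := IsNice.of_modularForm h1 f
  have hD := qExpansion_lagDen (μ := conjIndex 𝒢) hg (isNice_esymmFun g)
  have hN := qExpansion_lagNum (μ := conjIndex 𝒢) hg (isNice_esymmFun g)
    (fun n => IsNice.of_levelOne (traceMulPow f g n))
  have hmul := IsNice.qExpansion_mul (isNice_lagDen (μ := conjIndex 𝒢) hg (isNice_esymmFun g)) hf
  rw [lagDen_mul_eq_lagNum_fun f g, hN, hD] at hmul
  exact hmul.symm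

/-- (Q3) the denominator has constant coefficient one. -/
theorem qExpansion_lagDen_coeff_zero (h1 : (1 : ℝ) ∈ 𝒢.strictPeriods) (g : ModularForm 𝒢 w)
    (hg0 : (qExpansion 1 g).coeff 0 = 1)
    (hgz : ∀ q : 𝒬, q ≠ ⟦1⟧ → IsZeroAtImInfty (quotientFunc g q)) :
    (lagDen (conjIndex 𝒢) (qExpansion 1 g) (fun j => qExpansion 1 (esymmForm g j))).coeff 0
      = 1 := by
  have hg : IsNice (⇑g) := IsNice.of_modularForm h1 g
  have hD : qExpansion 1 (lagDen (conjIndex 𝒢) (⇑g) (esymmFun g)) =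
      lagDen (conjIndex 𝒢) (qExpansion 1 g) (fun j => qExpansion 1 (esymmForm g j)) :=
    qExpansion_lagDen hg (isNice_esymmFun g)
  rw [← hD]
  refine IsNice.qExpansion_coeff_zero_eq_of_tendsto
    (isNice_lagDen (μ := conjIndex 𝒢) hg (isNice_esymmFun g)) ?_
  rw [lagDen_fun_eq]
  have hgt : Filter.Tendsto (⇑g) atImInfty (nhds 1) := by
    have := hg.tendsto_coeff_zero
    rwa [hg0] at this
  have key : Filter.Tendsto (fun z => ∏ q ∈ (univ : Finset 𝒬).erase ⟦1⟧,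
      (g z - quotientFunc g q z)) atImInfty
      (nhds (∏ _q ∈ (univ : Finset 𝒬).erase ⟦1⟧, (1 : ℂ))) := by
    refine tendsto_finsetProd _ fun q hq => ?_
    have hq' : q ≠ ⟦1⟧ := (Finset.mem_erase.mp hq).1
    have h0 : Filter.Tendsto (quotientFunc g q) atImInfty (nhds 0) := hgz q hq'
    simpa using hgt.sub h0
  rw [Finset.prod_const_one] at key
  convert key using 1
  funext z
  simp [Finset.prod_apply]

end forms

section gamma0

open CongruenceSubgroup

/-- The conjugates of `g` other than `g` itself vanish at `i∞` if all `g ∣ h`,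
`h ∉ Γ₀(N)`, do. -/
theorem isZeroAtImInfty_quotientFunc_of_ne (N : ℕ) [NeZero N] {w : ℤ}
    (g : ModularForm (Gamma0 N : Subgroup (GL (Fin 2) ℝ)) w)
    (hgz : ∀ h : SL(2, ℤ), h ∉ Gamma0 N → IsZeroAtImInfty (⇑g ∣[w] h))
    (q : 𝒮ℒ ⧸ (Gamma0 N : Subgroup (GL (Fin 2) ℝ)).subgroupOf 𝒮ℒ) (hq : q ≠ ⟦1⟧) :
    IsZeroAtImInfty (quotientFunc g q) := by
  induction q using Quotient.inductionOn with
  | h r =>
    obtain ⟨r, γ, rfl⟩ := r
    rw [quotientFunc_mk]
    have hγ : γ⁻¹ ∉ Gamma0 N := by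
      intro hmem
      apply hq
      rw [Quotient.eq_iff_equiv]
      change QuotientGroup.leftRel _ _ _
      rw [QuotientGroup.leftRel_apply, Subgroup.mem_subgroupOf]
      refine Subgroup.mem_map.mpr ⟨γ⁻¹, hmem, ?_⟩
      simp
    have := hgz γ⁻¹ hγ
    rw [SL_slash, map_inv] at this
    exact this

end gamma0

end Fermat.Agent.S23
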