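import Mathlib

/-!
# T5 of the S23 plan: a quotient that is integral over holomorphic functions is holomorphic

If `P, D` are holomorphic on the upper half plane, `D ≠ 0`, and `P / D` satisfies a monic
polynomial equation with holomorphic coefficients (written in homogenised form), then `D` divides
`P` in the ring of holomorphic functions on the upper half plane.
-/

open UpperHalfPlane ModularForm Filter
open scoped MatrixGroups ModularForm Manifold Topology

namespace Fermat.Agent.S23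

section Local

variable {μ : ℕ} {p d : ℂ → ℂ} {cc : Fin μ → ℂ → ℂ} {z₀ : ℂ}

/-- The order of a finite sum is larger than `n` if the order of each summand is. -/
lemma lt_analyticOrderAt_sum {ι : Type*} (s : Finset ι) (f : ι → ℂ → ℂ) (n : ℕ∞) (hn : n ≠ ⊤)
    (h : ∀ i ∈ s, n < analyticOrderAt (f i) z₀) :
    n < analyticOrderAt (fun z => ∑ i ∈ s, f i z) z₀ := by
  classical
  induction s using Finset.induction_on with
  | empty =>
    have : analyticOrderAt (fun _ : ℂ => (0 : ℂ)) z₀ = ⊤ := by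
      rw [analyticOrderAt_eq_top]; exact Eventually.of_forall fun _ => rfl
    simpa [this] using lt_of_le_of_ne le_top hn
  | insert a s ha ih =>
    have h1 : n < analyticOrderAt (f a) z₀ := h a (Finset.mem_insert_self a s)
    have h2 : n < analyticOrderAt (fun z => ∑ i ∈ s, f i z) z₀ :=
      ih fun i hi => h i (Finset.mem_insert_of_mem hi)
    have h3 : (fun z => ∑ i ∈ insert a s, f i z) = f a + fun z => ∑ i ∈ s, f i z := by
      funext z
      simp [Finset.sum_insert ha]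
    rw [h3]
    exact lt_of_lt_of_le (lt_min h1 h2) le_analyticOrderAt_add

/-- Key local estimate: if `p / d` is integral over analytic germs, then `ord d ≤ ord p`. -/
lemma analyticOrderAt_le_of_monic_relation
    (hp : AnalyticAt ℂ p z₀) (hd : AnalyticAt ℂ d z₀) (hcc : ∀ i, AnalyticAt ℂ (cc i) z₀)
    (h : ∀ᶠ z in 𝓝 z₀, p z ^ μ + ∑ i : Fin μ, cc i z * d z ^ (μ - (i : ℕ)) * p z ^ (i : ℕ) = 0) :
    analyticOrderAt d z₀ ≤ analyticOrderAt p z₀ := by
  by_contra hlt
  rw [not_le] at hlt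
  obtain ⟨a, ha⟩ : ∃ a : ℕ, analyticOrderAt p z₀ = a :=
    ⟨(analyticOrderAt p z₀).toNat, (ENat.natCast_toNat (ne_top_of_lt hlt)).symm⟩
  have hd' : ((a + 1 : ℕ) : ℕ∞) ≤ analyticOrderAt d z₀ := by
    rw [ha] at hlt
    have := Order.add_one_le_of_lt hlt
    simpa using this
  have hpow : analyticOrderAt (fun z => p z ^ μ) z₀ = ((μ * a : ℕ) : ℕ∞) := by
    have := analyticOrderAt_pow hp μ
    rw [ha] at this
    have h2 : (fun z => p z ^ μ) = p ^ μ := rfl
    rw [h2, this]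
    simp
  have hsum : ((μ * a : ℕ) : ℕ∞) <
      analyticOrderAt (fun z => ∑ i : Fin μ, cc i z * d z ^ (μ - (i : ℕ)) * p z ^ (i : ℕ)) z₀ := by
    refine lt_analyticOrderAt_sum _ _ _ (ENat.natCast_ne_top _) fun i _ => ?_
    have e1 : (fun z => cc i z * d z ^ (μ - (i : ℕ)) * p z ^ (i : ℕ)) =
        cc i * d ^ (μ - (i : ℕ)) * p ^ (i : ℕ) := rfl
    rw [e1, analyticOrderAt_mul ((hcc i).mul (hd.pow _)) (hp.pow _),
      analyticOrderAt_mul (hcc i) (hd.pow _), analyticOrderAt_pow hd, analyticOrderAt_pow hp, ha]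
    have hi : (i : ℕ) < μ := i.2
    have h3 : (((μ - (i : ℕ)) * (a + 1) + (i : ℕ) * a : ℕ) : ℕ∞) ≤
        analyticOrderAt (cc i) z₀ + (μ - (i : ℕ)) • analyticOrderAt d z₀ + (i : ℕ) • (a : ℕ∞) := by
      have h4 : (((μ - (i : ℕ)) * (a + 1) : ℕ) : ℕ∞) ≤ (μ - (i : ℕ)) • analyticOrderAt d z₀ := by
        have h6 : (((μ - (i : ℕ)) * (a + 1) : ℕ) : ℕ∞) = (μ - (i : ℕ)) • (((a + 1 : ℕ)) : ℕ∞) := by
          rw [nsmul_eq_mul, Nat.cast_mul]
        rw [h6]
        exact nsmul_le_nsmul_right hd' _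
      calc (((μ - (i : ℕ)) * (a + 1) + (i : ℕ) * a : ℕ) : ℕ∞)
          = (((μ - (i : ℕ)) * (a + 1) : ℕ) : ℕ∞) + ((i : ℕ) • (a : ℕ∞)) := by
            push_cast; simp [nsmul_eq_mul]
        _ ≤ (μ - (i : ℕ)) • analyticOrderAt d z₀ + (i : ℕ) • (a : ℕ∞) := by gcongr
        _ ≤ analyticOrderAt (cc i) z₀ + (μ - (i : ℕ)) • analyticOrderAt d z₀ +
              (i : ℕ) • (a : ℕ∞) := by
            gcongr
            exact le_add_self
    refine lt_of_lt_of_le ?_ h3
    have h5 : μ * a < (μ - (i : ℕ)) * (a + 1) + (i : ℕ) * a := by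
      have : (μ - (i : ℕ)) * (a + 1) + (i : ℕ) * a = μ * a + (μ - (i : ℕ)) := by
        zify [hi.le]
        ring
      omega
    exact_mod_cast h5
  have htot : analyticOrderAt (fun z => p z ^ μ +
      ∑ i : Fin μ, cc i z * d z ^ (μ - (i : ℕ)) * p z ^ (i : ℕ)) z₀ = ((μ * a : ℕ) : ℕ∞) := by
    have := analyticOrderAt_add_eq_left_of_lt (f := fun z => p z ^ μ)
      (g := fun z => ∑ i : Fin μ, cc i z * d z ^ (μ - (i : ℕ)) * p z ^ (i : ℕ)) (z₀ := z₀)
      (by rw [hpow]; exact hsum)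
    rw [← hpow, ← this]
    rfl
  have htop : analyticOrderAt (fun z => p z ^ μ +
      ∑ i : Fin μ, cc i z * d z ^ (μ - (i : ℕ)) * p z ^ (i : ℕ)) z₀ = ⊤ :=
    analyticOrderAt_eq_top.mpr h
  rw [htop] at htot
  exact ENat.top_ne_natCast _ htot

/-- Local division: if `ord d ≤ ord p` and `d` is not locally zero, then `p / d` extends to an
analytic germ. -/
lemma exists_analyticAt_mul_eq {p d : ℂ → ℂ} {z₀ : ℂ}
    (hp : AnalyticAt ℂ p z₀) (hd : AnalyticAt ℂ d z₀) (hdtop : analyticOrderAt d z₀ ≠ ⊤)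
    (hle : analyticOrderAt d z₀ ≤ analyticOrderAt p z₀) :
    ∃ g : ℂ → ℂ, AnalyticAt ℂ g z₀ ∧ ∀ᶠ z in 𝓝 z₀, d z * g z = p z := by
  obtain ⟨b, hb⟩ : ∃ b : ℕ, analyticOrderAt d z₀ = b :=
    ⟨(analyticOrderAt d z₀).toNat, (ENat.natCast_toNat hdtop).symm⟩
  obtain ⟨d₁, hd₁, hd₁0, hd₁e⟩ := hd.analyticOrderAt_eq_natCast.mp hb
  rw [hb] at hle
  obtain ⟨p₁, hp₁, hp₁e⟩ := (natCast_le_analyticOrderAt hp).mp hle
  refine ⟨fun z => p₁ z / d₁ z, hp₁.div hd₁ hd₁0, ?_⟩
  filter_upwards [hd₁e, hp₁e, hd₁.continuousAt.eventually_ne hd₁0] with z h1 h2 h3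
  rw [h1, h2]
  simp only [smul_eq_mul]
  field_simp

end Local

section Global

/-- **T5.** If `P / D` is integral over the ring of holomorphic functions on the upper half plane
(monic relation written in homogenised form) and `D ≠ 0`, then `D` divides `P` in the ring of
holomorphic functions on the upper half plane. -/
theorem exists_holomorphic_quotient {μ : ℕ} (P D : ℍ → ℂ) (c : Fin μ → ℍ → ℂ)
    (hP : MDiff P) (hD : MDiff D) (hc : ∀ i, MDiff (c i)) (hD0 : D ≠ 0)
    (h : ∀ z, P z ^ μ + ∑ i : Fin μ, c i z * D z ^ (μ - (i : ℕ)) * P z ^ (i : ℕ) = 0) :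
    ∃ G : ℍ → ℂ, MDiff G ∧ ∀ z, D z * G z = P z := by
  have hU : IsOpen upperHalfPlaneSet := isOpen_upperHalfPlaneSet
  have hPa : AnalyticOnNhd ℂ (P ∘ ofComplex) upperHalfPlaneSet :=
    (UpperHalfPlane.mdifferentiable_iff.mp hP).analyticOnNhd hU
  have hDa : AnalyticOnNhd ℂ (D ∘ ofComplex) upperHalfPlaneSet :=
    (UpperHalfPlane.mdifferentiable_iff.mp hD).analyticOnNhd hU
  have hca : ∀ i, AnalyticOnNhd ℂ (c i ∘ ofComplex) upperHalfPlaneSet := fun i =>
    (UpperHalfPlane.mdifferentiable_iff.mp (hc i)).analyticOnNhd hU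
  have hconn : IsPreconnected upperHalfPlaneSet :=
    (Complex.isConnected_of_upperHalfPlane subset_rfl (by grind)).isPreconnected
  -- the order of `D` is finite everywhere
  have hDtop : ∀ z ∈ upperHalfPlaneSet, analyticOrderAt (D ∘ ofComplex) z ≠ ⊤ := by
    intro z hz htop
    apply hD0
    have h0 := hDa.eqOn_zero_of_preconnected_of_eventuallyEq_zero hconn hz
      (analyticOrderAt_eq_top.mp htop)
    funext τ
    have := h0 τ.im_pos
    simpa [ofComplex_apply] using this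
  -- the relation in terms of functions on `ℂ`
  have hrel : ∀ z ∈ upperHalfPlaneSet, ∀ᶠ w in 𝓝 z,
      (P ∘ ofComplex) w ^ μ + ∑ i : Fin μ, (c i ∘ ofComplex) w *
        (D ∘ ofComplex) w ^ (μ - (i : ℕ)) * (P ∘ ofComplex) w ^ (i : ℕ) = 0 := by
    intro z hz
    exact Eventually.of_forall fun w => h (ofComplex w)
  have hloc : ∀ τ : ℍ, ∃ g : ℂ → ℂ, AnalyticAt ℂ g (τ : ℂ) ∧
      ∀ᶠ z in 𝓝 (τ : ℂ), (D ∘ ofComplex) z * g z = (P ∘ ofComplex) z := by
    intro τ
    have hτ : (τ : ℂ) ∈ upperHalfPlaneSet := τ.im_pos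
    exact exists_analyticAt_mul_eq (hPa _ hτ) (hDa _ hτ) (hDtop _ hτ)
      (analyticOrderAt_le_of_monic_relation (hPa _ hτ) (hDa _ hτ) (fun i => hca i _ hτ)
        (hrel _ hτ))
  choose g hg hge using hloc
  have hmul : ∀ τ : ℍ, D τ * g τ τ = P τ := by
    intro τ
    have := (hge τ).self_of_nhds
    simpa [ofComplex_apply] using this
  refine ⟨fun τ => g τ τ, ?_, hmul⟩
  rw [UpperHalfPlane.mdifferentiable_iff]
  intro z₀ hz₀
  set τ₀ : ℍ := ⟨z₀, hz₀⟩ with hτ₀
  have hev : (fun τ : ℍ => g τ τ) ∘ ofComplex =ᶠ[𝓝 z₀] g τ₀ := by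
    have hiso : ∀ᶠ z in 𝓝 z₀, z = z₀ ∨ (D ∘ ofComplex) z ≠ 0 := by
      rcases (hDa z₀ hz₀).eventually_eq_zero_or_eventually_ne_zero with h1 | h1
      · exact absurd (analyticOrderAt_eq_top.mpr h1) (hDtop z₀ hz₀)
      · rw [eventually_nhdsWithin_iff] at h1
        filter_upwards [h1] with z hz
        by_cases hzz : z = z₀
        · exact Or.inl hzz
        · exact Or.inr (hz hzz)
    filter_upwards [hiso, hU.mem_nhds hz₀, hge τ₀] with z h1 h2 h3
    have hz' : ofComplex z = ⟨z, h2⟩ := ofComplex_apply_of_im_pos h2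
    rcases h1 with rfl | h1
    · simp only [Function.comp_apply, hz']
      rfl
    · simp only [Function.comp_apply] at h1 h3 ⊢
      have h4 := hmul (ofComplex z)
      rw [← h3] at h4
      exact mul_left_cancel₀ h1 h4
  exact ((hg τ₀).differentiableAt.congr_of_eventuallyEq hev).differentiableWithinAt

/-- The ring of holomorphic functions on the upper half plane has no zero divisors:
cancellation of a nonzero holomorphic factor. -/
theorem eq_of_mul_eq_mul_of_mdiff {D A B : ℍ → ℂ} (hD : MDiff D) (hA : MDiff A) (hB : MDiff B)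
    (hD0 : D ≠ 0) (h : ∀ z, D z * A z = D z * B z) : A = B := by
  have hU : IsOpen upperHalfPlaneSet := isOpen_upperHalfPlaneSet
  have hconn : IsPreconnected upperHalfPlaneSet :=
    (Complex.isConnected_of_upperHalfPlane subset_rfl (by grind)).isPreconnected
  have hDa : AnalyticOnNhd ℂ (D ∘ ofComplex) upperHalfPlaneSet :=
    (UpperHalfPlane.mdifferentiable_iff.mp hD).analyticOnNhd hU
  have hAB : AnalyticOnNhd ℂ ((A ∘ ofComplex) - (B ∘ ofComplex)) upperHalfPlaneSet :=
    ((UpperHalfPlane.mdifferentiable_iff.mp hA).analyticOnNhd hU).sub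
      ((UpperHalfPlane.mdifferentiable_iff.mp hB).analyticOnNhd hU)
  have hmul : ∀ z ∈ upperHalfPlaneSet,
      (D ∘ ofComplex) z * ((A ∘ ofComplex) - (B ∘ ofComplex)) z = 0 := by
    intro z _
    simp only [Function.comp_apply, Pi.sub_apply, mul_sub]
    rw [h (ofComplex z), sub_self]
  rcases hDa.eq_zero_or_eq_zero_of_mul_eq_zero hAB hmul hconn with h1 | h1
  · exfalso
    apply hD0
    funext τ
    have := h1 τ τ.im_pos
    simpa [ofComplex_apply] using this
  · funext τ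
    have := h1 τ τ.im_pos
    simp only [Function.comp_apply, Pi.sub_apply, ofComplex_apply] at this
    exact sub_eq_zero.mp this

/-- The quotient `G = P / D` satisfies the (dehomogenised) monic relation. -/
theorem monic_relation_of_mul_eq {μ : ℕ} {P D G : ℍ → ℂ} {c : Fin μ → ℍ → ℂ}
    (hD : MDiff D) (hG : MDiff G) (hc : ∀ i, MDiff (c i)) (hD0 : D ≠ 0)
    (h : ∀ z, P z ^ μ + ∑ i : Fin μ, c i z * D z ^ (μ - (i : ℕ)) * P z ^ (i : ℕ) = 0)
    (hG' : ∀ z, D z * G z = P z) :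
    ∀ z, G z ^ μ + ∑ i : Fin μ, c i z * G z ^ (i : ℕ) = 0 := by
  have hR : MDiff (fun z => G z ^ μ + ∑ i : Fin μ, c i z * G z ^ (i : ℕ)) := by
    have h1 : MDiff (fun z => G z ^ μ) := hG.pow μ
    have h2 : MDiff (fun z => ∑ i : Fin μ, c i z * G z ^ (i : ℕ)) := by
      have := MDifferentiable.sum (ι := Fin μ) (t := Finset.univ)
        (f := fun i z => c i z * G z ^ (i : ℕ)) (fun i _ => (hc i).mul (hG.pow (i : ℕ)))
      have e : (fun z => ∑ i : Fin μ, c i z * G z ^ (i : ℕ)) =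
          ∑ i : Fin μ, (fun z => c i z * G z ^ (i : ℕ)) := by
        funext z
        simp [Finset.sum_apply]
      rw [e]
      exact this
    exact h1.add h2
  have hDμ : MDiff (fun z => D z ^ μ) := hD.pow μ
  have hDμ0 : (fun z => D z ^ μ) ≠ 0 := by
    intro h0
    have hD' : MDiff (D ^ μ) := hD.pow μ
    -- if `D ^ μ = 0` then `D = 0` by cancellation
    rcases Nat.eq_zero_or_pos μ with hμ | hμ
    · subst hμ
      have := congrFun h0 UpperHalfPlane.I
      simp at this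
    · apply hD0
      funext z
      have := congrFun h0 z
      simpa using pow_eq_zero_iff (Nat.pos_iff_ne_zero.mp hμ) |>.mp this
  have hzero : MDiff (fun _ : ℍ => (0 : ℂ)) := mdifferentiable_const
  have key := eq_of_mul_eq_mul_of_mdiff hDμ hR hzero hDμ0 (fun z => by
    simp only [mul_zero]
    rw [← h z, ← hG' z, mul_add, Finset.mul_sum, mul_pow]
    congr 1
    refine Finset.sum_congr rfl fun i _ => ?_
    have hi : (i : ℕ) ≤ μ := i.2.le
    have : D z ^ μ = D z ^ (μ - (i : ℕ)) * D z ^ (i : ℕ) := by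
      rw [← pow_add, Nat.sub_add_cancel hi]
    rw [this, mul_pow]
    ring)
  intro z
  exact congrFun key z

end Global

section RootBound

/-- Cauchy's root bound for a monic polynomial relation. -/
theorem norm_le_of_monic_relation {μ : ℕ} {x : ℂ} {a : Fin μ → ℂ}
    (h : x ^ μ + ∑ i : Fin μ, a i * x ^ (i : ℕ) = 0) : ‖x‖ ≤ max 1 (∑ i : Fin μ, ‖a i‖) := by
  by_contra hlt
  rw [not_le, max_lt_iff] at hlt
  obtain ⟨h1, h2⟩ := hlt
  have hx0 : 0 < ‖x‖ := lt_trans one_pos h1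
  rcases Nat.eq_zero_or_pos μ with hμ | hμ
  · subst hμ
    simp at h
  have hxμ : ‖x‖ ^ μ = ‖∑ i : Fin μ, a i * x ^ (i : ℕ)‖ := by
    have : x ^ μ = - ∑ i : Fin μ, a i * x ^ (i : ℕ) := eq_neg_of_add_eq_zero_left h
    rw [← norm_pow, this, norm_neg]
  have hle : ‖∑ i : Fin μ, a i * x ^ (i : ℕ)‖ ≤ (∑ i : Fin μ, ‖a i‖) * ‖x‖ ^ (μ - 1) := by
    rw [Finset.sum_mul]
    refine (norm_sum_le _ _).trans (Finset.sum_le_sum fun i _ => ?_)
    rw [norm_mul, norm_pow]
    refine mul_le_mul_of_nonneg_left ?_ (norm_nonneg _)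
    exact pow_le_pow_right₀ h1.le (by have := i.2; omega)
  have hpos : 0 < ‖x‖ ^ (μ - 1) := pow_pos hx0 _
  have : ‖x‖ ^ μ = ‖x‖ * ‖x‖ ^ (μ - 1) := by
    rw [← pow_succ', Nat.sub_add_cancel hμ]
  rw [this] at hxμ
  rw [← hxμ] at hle
  have := le_of_mul_le_mul_right hle hpos
  linarith

/-- Second root bound: a root of norm at most one of a monic polynomial of degree `μ` satisfies
`‖x‖ ^ μ ≤ ∑ ‖a i‖`. -/
theorem norm_pow_le_of_monic_relation {μ : ℕ} {x : ℂ} {a : Fin μ → ℂ}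
    (h : x ^ μ + ∑ i : Fin μ, a i * x ^ (i : ℕ) = 0) (hx : ‖x‖ ≤ 1) :
    ‖x‖ ^ μ ≤ ∑ i : Fin μ, ‖a i‖ := by
  have hxμ : ‖x‖ ^ μ = ‖∑ i : Fin μ, a i * x ^ (i : ℕ)‖ := by
    have : x ^ μ = - ∑ i : Fin μ, a i * x ^ (i : ℕ) := eq_neg_of_add_eq_zero_left h
    rw [← norm_pow, this, norm_neg]
  rw [hxμ]
  refine (norm_sum_le _ _).trans (Finset.sum_le_sum fun i _ => ?_)
  rw [norm_mul, norm_pow]
  exact mul_le_of_le_one_right (norm_nonneg _) (pow_le_one₀ (norm_nonneg _) hx)

variable {α : Type*} {l : Filter α}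

/-- A function satisfying (eventually) a monic relation with bounded coefficients is bounded. -/
theorem boundedAtFilter_of_monic_relation {μ : ℕ} {F : α → ℂ} {c : Fin μ → α → ℂ}
    (h : ∀ᶠ z in l, F z ^ μ + ∑ i : Fin μ, c i z * F z ^ (i : ℕ) = 0)
    (hc : ∀ i, BoundedAtFilter l (c i)) : BoundedAtFilter l F := by
  have hsum : BoundedAtFilter l (fun z => ∑ i : Fin μ, ‖c i z‖) := by
    have : ∀ s : Finset (Fin μ), BoundedAtFilter l (fun z => ∑ i ∈ s, ‖c i z‖) := by
      intro s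
      classical
      induction s using Finset.induction_on with
      | empty =>
        simp only [Finset.sum_empty]
        exact Filter.const_boundedAtFilter l (0 : ℝ)
      | insert a s ha ih =>
        have h1 : BoundedAtFilter l (fun z => ‖c a z‖) := by
          have := hc a
          unfold BoundedAtFilter at this ⊢
          exact this.norm_left
        have := h1.add ih
        have e : (fun z => ∑ i ∈ insert a s, ‖c i z‖) =
            (fun z => ‖c a z‖) + fun z => ∑ i ∈ s, ‖c i z‖ := by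
          funext z
          simp [Finset.sum_insert ha]
        rw [e]
        exact this
    exact this Finset.univ
  have hmax : BoundedAtFilter l (fun z => max 1 (∑ i : Fin μ, ‖c i z‖)) := by
    have h1 : BoundedAtFilter l (fun _ : α => (1 : ℝ)) := Filter.const_boundedAtFilter l 1
    have := h1.add hsum
    unfold BoundedAtFilter at this ⊢
    refine Asymptotics.IsBigO.trans (Asymptotics.IsBigO.of_bound 1 ?_) this
    refine Eventually.of_forall fun z => ?_
    have hnn : 0 ≤ ∑ i : Fin μ, ‖c i z‖ := Finset.sum_nonneg fun i _ => norm_nonneg _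
    simp only [Pi.add_apply, one_mul, Real.norm_eq_abs]
    rw [abs_of_nonneg (le_max_of_le_left zero_le_one), abs_of_nonneg (by positivity)]
    exact max_le (by linarith) (by linarith)
  unfold BoundedAtFilter at hmax ⊢
  refine Asymptotics.IsBigO.trans (Asymptotics.IsBigO.of_bound 1 ?_) hmax
  filter_upwards [h] with z hz
  have := norm_le_of_monic_relation (x := F z) (a := fun i => c i z) hz
  rw [one_mul, Real.norm_eq_abs, abs_of_nonneg (le_max_of_le_left zero_le_one)]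
  exact this

/-- A function satisfying (eventually) a monic relation of positive degree whose coefficients
tend to zero tends to zero. -/
theorem zeroAtFilter_of_monic_relation {μ : ℕ} {F : α → ℂ} {c : Fin μ → α → ℂ}
    (h : ∀ᶠ z in l, F z ^ μ + ∑ i : Fin μ, c i z * F z ^ (i : ℕ) = 0)
    (hc : ∀ i, ZeroAtFilter l (c i)) : ZeroAtFilter l F := by
  unfold ZeroAtFilter at hc ⊢
  have hsum : Tendsto (fun z => ∑ i : Fin μ, ‖c i z‖) l (𝓝 0) := by
    have : Tendsto (fun z => ∑ i : Fin μ, ‖c i z‖) l (𝓝 (∑ _i : Fin μ, (0 : ℝ))) :=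
      tendsto_finsetSum _ fun i _ => by simpa using (hc i).norm
    simpa using this
  rw [Metric.tendsto_nhds]
  intro ε hε
  set δ : ℝ := min ε 1 with hδ
  have hδ0 : 0 < δ := lt_min hε one_pos
  have hδμ : 0 < δ ^ μ := pow_pos hδ0 μ
  have hev := (Metric.tendsto_nhds.mp hsum) (min (δ ^ μ) 1) (lt_min hδμ one_pos)
  filter_upwards [h, hev] with z hz hzs
  rw [dist_zero_right] at hzs ⊢
  have hnn : 0 ≤ ∑ i : Fin μ, ‖c i z‖ := Finset.sum_nonneg fun i _ => norm_nonneg _
  rw [Real.norm_eq_abs, abs_of_nonneg hnn] at hzs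
  have hs1 : ∑ i : Fin μ, ‖c i z‖ < 1 := lt_of_lt_of_le hzs (min_le_right _ _)
  have hsδ : ∑ i : Fin μ, ‖c i z‖ < δ ^ μ := lt_of_lt_of_le hzs (min_le_left _ _)
  have hx1 : ‖F z‖ ≤ 1 := by
    have := norm_le_of_monic_relation (x := F z) (a := fun i => c i z) hz
    rwa [max_eq_left hs1.le] at this
  have hpow := norm_pow_le_of_monic_relation (x := F z) (a := fun i => c i z) hz hx1
  have hlt : ‖F z‖ ^ μ < δ ^ μ := lt_of_le_of_lt hpow hsδ
  have : ‖F z‖ < δ := lt_of_pow_lt_pow_left₀ μ hδ0.le hlt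
  exact lt_of_lt_of_le this (min_le_left _ _)

/-- Specialisation to `IsBoundedAtImInfty`. -/
theorem isBoundedAtImInfty_of_monic_relation {μ : ℕ} {F : ℍ → ℂ} {c : Fin μ → ℍ → ℂ}
    (h : ∀ z, F z ^ μ + ∑ i : Fin μ, c i z * F z ^ (i : ℕ) = 0)
    (hc : ∀ i, IsBoundedAtImInfty (c i)) : IsBoundedAtImInfty F :=
  boundedAtFilter_of_monic_relation (Eventually.of_forall h) hc

/-- Specialisation to `IsZeroAtImInfty`. -/
theorem isZeroAtImInfty_of_monic_relation {μ : ℕ} {F : ℍ → ℂ} {c : Fin μ → ℍ → ℂ}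
    (h : ∀ z, F z ^ μ + ∑ i : Fin μ, c i z * F z ^ (i : ℕ) = 0)
    (hc : ∀ i, IsZeroAtImInfty (c i)) : IsZeroAtImInfty F :=
  zeroAtFilter_of_monic_relation (Eventually.of_forall h) hc

end RootBound

end Fermat.Agent.S23
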