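import Mathlib
import Fermat.Agent.S23.HoloQuot

/-!
# S23-T4c: a cusp form from an integral quotient (helper42)

Let `P`, `D` be holomorphic functions on the upper half plane, slash-invariant of weights
`m + k` and `m` under an arithmetic group `𝒢`, with `D ≠ 0`, and suppose that `P / D` satisfies a
monic relation (written in homogenised form) whose coefficients `c i` are holomorphic, level-one
slash-invariant of the complementary weight, and zero (resp. bounded) at `i∞`.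
Then there is a cusp form (resp. modular form) `G` of weight `k` for `𝒢` with `D * G = P`.
-/

open UpperHalfPlane ModularForm Filter
open scoped MatrixGroups ModularForm Manifold Topology

namespace Fermat.Agent.S23.helper42

open Fermat.Agent.S23

/-- Slash-invariance of a holomorphic quotient. -/
theorem slash_eq_of_mul_eq {k m : ℤ} {P D G : ℍ → ℂ} (hD : MDiff D) (hG : MDiff G)
    (hD0 : D ≠ 0) (hDG : ∀ z, D z * G z = P z) (γ : GL (Fin 2) ℝ) (hdet : |γ.det.val| = 1)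
    (hPγ : P ∣[m + k] γ = P) (hDγ : D ∣[m] γ = D) : G ∣[k] γ = G := by
  have hfun : D * G = P := funext hDG
  have h1 : (D * G) ∣[m + k] γ = D * (G ∣[k] γ) := by
    rw [ModularForm.mul_slash, hdet, one_smul, hDγ]
  rw [hfun, hPγ] at h1
  refine eq_of_mul_eq_mul_of_mdiff hD (hG.slash k γ) hG hD0 fun z => ?_
  have := congrFun h1 z
  simp only [Pi.mul_apply] at this
  rw [← this, hDG]

/-- The monic relation is inherited by slashes with elements of `SL(2, ℤ)`. -/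
theorem monic_relation_slash {k : ℤ} {μ : ℕ} {G : ℍ → ℂ} {c : Fin μ → ℍ → ℂ} (w : Fin μ → ℤ)
    (hw : ∀ i, w i + (i : ℕ) * k = μ * k)
    (hcs : ∀ i, ∀ γ : SL(2, ℤ), c i ∣[w i] γ = c i)
    (h : ∀ z, G z ^ μ + ∑ i : Fin μ, c i z * G z ^ (i : ℕ) = 0) (γ : SL(2, ℤ)) :
    ∀ z, (G ∣[k] γ) z ^ μ + ∑ i : Fin μ, c i z * (G ∣[k] γ) z ^ (i : ℕ) = 0 := by
  intro z
  have hden : denom γ z ≠ 0 := denom_ne_zero γ z
  have hG : (G ∣[k] γ) z = G (γ • z) * denom γ z ^ (-k) := SL_slash_apply G γ z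
  have hc : ∀ i, c i z = c i (γ • z) * denom γ z ^ (-(w i)) := fun i => by
    conv_lhs => rw [← hcs i γ]
    exact SL_slash_apply (c i) γ z
  have hrel := h (γ • z)
  have key : (G ∣[k] γ) z ^ μ + ∑ i : Fin μ, c i z * (G ∣[k] γ) z ^ (i : ℕ) =
      denom γ z ^ (-(μ * k)) * (G (γ • z) ^ μ + ∑ i : Fin μ, c i (γ • z) * G (γ • z) ^ (i : ℕ)) := by
    rw [mul_add, Finset.mul_sum]
    congr 1
    · rw [hG, mul_pow, ← zpow_natCast (denom γ z ^ (-k)) μ, ← zpow_mul, mul_comm]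
      congr 2
      ring
    · refine Finset.sum_congr rfl fun i _ => ?_
      rw [hG, hc i, mul_pow, ← zpow_natCast (denom γ z ^ (-k)) (i : ℕ), ← zpow_mul]
      have e : denom γ z ^ (-(μ * k)) = denom γ z ^ (-(w i)) * denom γ z ^ (-k * (i : ℕ)) := by
        rw [← zpow_add₀ hden]
        congr 1
        have := hw i
        linarith
      rw [e]
      ring
  rw [key, hrel, mul_zero]

section Main

variable {𝒢 : Subgroup (GL (Fin 2) ℝ)} [𝒢.IsArithmetic] {k m : ℤ} {μ : ℕ}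

/-- **T4c, cusp form version.** -/
theorem exists_cuspForm_of_integral_quotient (P D : ℍ → ℂ) (c : Fin μ → ℍ → ℂ) (w : Fin μ → ℤ)
    (hP : MDiff P) (hD : MDiff D) (hc : ∀ i, MDiff (c i)) (hD0 : D ≠ 0)
    (hPs : ∀ γ ∈ 𝒢, P ∣[m + k] γ = P) (hDs : ∀ γ ∈ 𝒢, D ∣[m] γ = D)
    (hw : ∀ i, w i + (i : ℕ) * k = μ * k)
    (hcs : ∀ i, ∀ γ : SL(2, ℤ), c i ∣[w i] γ = c i)
    (hc0 : ∀ i, IsZeroAtImInfty (c i))
    (h : ∀ z, P z ^ μ + ∑ i : Fin μ, c i z * D z ^ (μ - (i : ℕ)) * P z ^ (i : ℕ) = 0) :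
    ∃ G : CuspForm 𝒢 k, ∀ z, D z * G z = P z := by
  obtain ⟨G, hG, hDG⟩ := exists_holomorphic_quotient P D c hP hD hc hD0 h
  have hrel := monic_relation_of_mul_eq hD hG hc hD0 h hDG
  refine ⟨{ toFun := G
            slash_action_eq' := fun γ hγ =>
              slash_eq_of_mul_eq hD hG hD0 hDG γ
                (Subgroup.HasDetPlusMinusOne.abs_det hγ) (hPs γ hγ) (hDs γ hγ)
            holo' := hG
            zero_at_cusps' := ?_ }, hDG⟩
  intro c' hc'
  rw [Subgroup.IsArithmetic.isCusp_iff_isCusp_SL2Z] at hc'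
  rw [OnePoint.isZeroAt_iff_forall_SL2Z hc']
  intro γ _
  exact isZeroAtImInfty_of_monic_relation (monic_relation_slash w hw hcs hrel γ) hc0

/-- **T4c, modular form version.** -/
theorem exists_modularForm_of_integral_quotient (P D : ℍ → ℂ) (c : Fin μ → ℍ → ℂ)
    (w : Fin μ → ℤ)
    (hP : MDiff P) (hD : MDiff D) (hc : ∀ i, MDiff (c i)) (hD0 : D ≠ 0)
    (hPs : ∀ γ ∈ 𝒢, P ∣[m + k] γ = P) (hDs : ∀ γ ∈ 𝒢, D ∣[m] γ = D)
    (hw : ∀ i, w i + (i : ℕ) * k = μ * k)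
    (hcs : ∀ i, ∀ γ : SL(2, ℤ), c i ∣[w i] γ = c i)
    (hc0 : ∀ i, IsBoundedAtImInfty (c i))
    (h : ∀ z, P z ^ μ + ∑ i : Fin μ, c i z * D z ^ (μ - (i : ℕ)) * P z ^ (i : ℕ) = 0) :
    ∃ G : ModularForm 𝒢 k, ∀ z, D z * G z = P z := by
  obtain ⟨G, hG, hDG⟩ := exists_holomorphic_quotient P D c hP hD hc hD0 h
  have hrel := monic_relation_of_mul_eq hD hG hc hD0 h hDG
  refine ⟨{ toFun := G
            slash_action_eq' := fun γ hγ =>
              slash_eq_of_mul_eq hD hG hD0 hDG γ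
                (Subgroup.HasDetPlusMinusOne.abs_det hγ) (hPs γ hγ) (hDs γ hγ)
            holo' := hG
            bdd_at_cusps' := ?_ }, hDG⟩
  intro c' hc'
  rw [Subgroup.IsArithmetic.isCusp_iff_isCusp_SL2Z] at hc'
  rw [OnePoint.isBoundedAt_iff_forall_SL2Z hc']
  intro γ _
  exact isBoundedAtImInfty_of_monic_relation (monic_relation_slash w hw hcs hrel γ) hc0

end Main

section QExp

variable {𝒢 : Subgroup (GL (Fin 2) ℝ)} [𝒢.IsArithmetic] {k m : ℤ} {μ : ℕ}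

/-- **T4c with `q`-expansions, cusp form version.** If moreover `X` is a power series with
`qExpansion h D * X = qExpansion h P`, then the quotient cusp form has `q`-expansion `X`. -/
theorem exists_cuspForm_qExpansion_eq {h : ℝ} (hh : 0 < h) (hΓ : h ∈ 𝒢.strictPeriods)
    (P : ModularForm 𝒢 (m + k)) (D : ModularForm 𝒢 m) (hD0 : D ≠ 0)
    (c : Fin μ → ℍ → ℂ) (w : Fin μ → ℤ) (hc : ∀ i, MDiff (c i))
    (hw : ∀ i, w i + (i : ℕ) * k = μ * k)
    (hcs : ∀ i, ∀ γ : SL(2, ℤ), c i ∣[w i] γ = c i)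
    (hc0 : ∀ i, IsZeroAtImInfty (c i))
    (hrel : ∀ z, P z ^ μ + ∑ i : Fin μ, c i z * D z ^ (μ - (i : ℕ)) * P z ^ (i : ℕ) = 0)
    (X : PowerSeries ℂ) (hX : qExpansion h D * X = qExpansion h P) :
    ∃ G : CuspForm 𝒢 k, (∀ z, D z * G z = P z) ∧ qExpansion h G = X := by
  have hD0' : (⇑D : ℍ → ℂ) ≠ 0 := fun h0 => hD0 (DFunLike.coe_injective (by simpa using h0))
  obtain ⟨G, hG⟩ := exists_cuspForm_of_integral_quotient (𝒢 := 𝒢) (k := k) (m := m) (⇑P) (⇑D) c w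
    (ModularFormClass.holo P) (ModularFormClass.holo D) hc hD0'
    (fun γ hγ => SlashInvariantFormClass.slash_action_eq P γ hγ)
    (fun γ hγ => SlashInvariantFormClass.slash_action_eq D γ hγ) hw hcs hc0 hrel
  refine ⟨G, hG, ?_⟩
  have hmul : (⇑D * ⇑G : ℍ → ℂ) = ⇑P := funext hG
  have hq := ModularForm.qExpansion_mul_coe hh hΓ D G
  rw [hmul, ← hX] at hq
  have hDq : qExpansion h D ≠ 0 := fun h0 =>
    hD0 ((ModularForm.qExpansion_eq_zero_iff hh hΓ D).mp h0)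
  exact (mul_left_cancel₀ hDq hq).symm

/-- **T4c with `q`-expansions, modular form version.** -/
theorem exists_modularForm_qExpansion_eq {h : ℝ} (hh : 0 < h) (hΓ : h ∈ 𝒢.strictPeriods)
    (P : ModularForm 𝒢 (m + k)) (D : ModularForm 𝒢 m) (hD0 : D ≠ 0)
    (c : Fin μ → ℍ → ℂ) (w : Fin μ → ℤ) (hc : ∀ i, MDiff (c i))
    (hw : ∀ i, w i + (i : ℕ) * k = μ * k)
    (hcs : ∀ i, ∀ γ : SL(2, ℤ), c i ∣[w i] γ = c i)
    (hc0 : ∀ i, IsBoundedAtImInfty (c i))
    (hrel : ∀ z, P z ^ μ + ∑ i : Fin μ, c i z * D z ^ (μ - (i : ℕ)) * P z ^ (i : ℕ) = 0)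
    (X : PowerSeries ℂ) (hX : qExpansion h D * X = qExpansion h P) :
    ∃ G : ModularForm 𝒢 k, (∀ z, D z * G z = P z) ∧ qExpansion h G = X := by
  have hD0' : (⇑D : ℍ → ℂ) ≠ 0 := fun h0 => hD0 (DFunLike.coe_injective (by simpa using h0))
  obtain ⟨G, hG⟩ := exists_modularForm_of_integral_quotient (𝒢 := 𝒢) (k := k) (m := m)
    (⇑P) (⇑D) c w
    (ModularFormClass.holo P) (ModularFormClass.holo D) hc hD0'
    (fun γ hγ => SlashInvariantFormClass.slash_action_eq P γ hγ)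
    (fun γ hγ => SlashInvariantFormClass.slash_action_eq D γ hγ) hw hcs hc0 hrel
  refine ⟨G, hG, ?_⟩
  have hmul : (⇑D * ⇑G : ℍ → ℂ) = ⇑P := funext hG
  have hq := ModularForm.qExpansion_mul_coe hh hΓ D G
  rw [hmul, ← hX] at hq
  have hDq : qExpansion h D ≠ 0 := fun h0 =>
    hD0 ((ModularForm.qExpansion_eq_zero_iff hh hΓ D).mp h0)
  exact (mul_left_cancel₀ hDq hq).symm

end QExp

end Fermat.Agent.S23.helper42
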