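import Mathlib
import Fermat.Agent.S23.QRel
import Fermat.Agent.S23.LagMF
import Fermat.Agent.S23.helper16_LevelOneConj
import Fermat.Agent.S23.helper42_QuotCusp
import Fermat.Prelude.Def_FLTPrelim_Modularity

/-!
# Conjugation of the `q`-expansion coefficients of cusp forms on `Γ₀(N)`

Given a modular form `g` on `𝒢` with integral `q`-expansion, constant term `1`, all of whose
other conjugates vanish at `i∞`, every cusp form `f` on `𝒢` has, for every ring endomorphism `σ`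
of `ℂ`, a `σ`-conjugate cusp form.
-/

open UpperHalfPlane ModularForm SlashInvariantForm Finset
open scoped MatrixGroups ModularForm Manifold Pointwise

namespace Fermat.Agent.S23

open helper87

theorem map_qExpansion_of_int {F : ℍ → ℂ} (σ : ℂ →+* ℂ)
    (h : ∀ n, ∃ a : ℤ, (qExpansion 1 F).coeff n = (a : ℂ)) :
    PowerSeries.map σ (qExpansion 1 F) = qExpansion 1 F := by
  ext n
  obtain ⟨a, ha⟩ := h n
  rw [PowerSeries.coeff_map, ha, map_intCast]

section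

variable {𝒢 : Subgroup (GL (Fin 2) ℝ)} [𝒢.IsArithmetic] [𝒢.HasDetOne] {k w : ℤ}

local notation "𝒬" => 𝒮ℒ ⧸ 𝒢.subgroupOf 𝒮ℒ

/-- The elementary symmetric functions of positive degree of the conjugates of a cusp form have
vanishing constant coefficient. -/
theorem qExpansion_esymmForm_coeff_zero (f : CuspForm 𝒢 k) {j : ℕ} (hj : 0 < j) :
    (qExpansion 1 (esymmForm (CuspForm.toModularFormₗ f) j)).coeff 0 = 0 := by
  refine IsNice.qExpansion_coeff_zero_eq_of_tendsto (isNice_esymmFun _ j) ?_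
  refine isZeroAtImInfty_esymmFun (CuspForm.toModularFormₗ f) (fun q => ?_) hj
  exact isZeroAtImInfty_quotientFunc f q

omit [𝒢.HasDetOne] in
theorem qExpansion_esymmForm_zero (f : ModularForm 𝒢 k) :
    qExpansion 1 (esymmForm f 0) = 1 := by
  rw [coe_esymmForm, esymmFun_zero]
  exact UpperHalfPlane.qExpansion_one 1

/-- **σ-conjugation of cusp forms**, given an "eta quotient" `g`. -/
theorem exists_conj_of_etaQuotient (h1 : (1 : ℝ) ∈ 𝒢.strictPeriods) (h𝒢 : 𝒢 ≤ 𝒮ℒ)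
    (g : ModularForm 𝒢 w)
    (hgint : ∀ n, ∃ a : ℤ, (qExpansion 1 g).coeff n = (a : ℂ))
    (hg0 : (qExpansion 1 g).coeff 0 = 1)
    (hgz : ∀ q : 𝒬, q ≠ ⟦1⟧ → IsZeroAtImInfty (quotientFunc g q))
    (σ : ℂ →+* ℂ) (f : CuspForm 𝒢 k) :
    ∃ G : CuspForm 𝒢 k, qExpansion 1 G = PowerSeries.map σ (qExpansion 1 f) := by
  classical
  set μ := conjIndex 𝒢 with hμ
  set fM : ModularForm 𝒢 k := CuspForm.toModularFormₗ f with hfM
  -- the level one forms and their conjugates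
  choose A' hA' using fun j : ℕ =>
    helper16.exists_conj_levelOne_map σ (k * j) (esymmForm fM j)
  choose B' hB' using fun j : ℕ =>
    helper16.exists_conj_levelOne_map σ (w * j) (esymmForm g j)
  choose T' hT' using fun n : ℕ =>
    helper16.exists_conj_levelOne_map σ (k + n * w) (traceMulPow fM g n)
  -- q-expansion data
  set φ : PowerSeries ℂ →+* PowerSeries ℂ := PowerSeries.map σ with hφ
  set D₀ := lagDen μ (qExpansion 1 g) (fun j => qExpansion 1 (esymmForm g j)) with hD₀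
  have hQ1 : monicRel μ (fun j => qExpansion 1 (esymmForm fM j)) (qExpansion 1 f) = 0 :=
    qExpansion_monicRel_eq_zero h1 fM
  have hQ2 : D₀ * qExpansion 1 f = lagNum μ (qExpansion 1 g)
      (fun j => qExpansion 1 (esymmForm g j)) (fun n => qExpansion 1 (traceMulPow fM g n)) :=
    qExpansion_lagDen_mul h1 fM g
  have hQ3 : D₀.coeff 0 = 1 := qExpansion_lagDen_coeff_zero h1 g hg0 hgz
  have hgσ : φ (qExpansion 1 g) = qExpansion 1 g := map_qExpansion_of_int σ hgint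
  -- niceness
  have hgN : IsNice (⇑g) := IsNice.of_modularForm h1 g
  have hA'N : ∀ j, IsNice (⇑(A' j)) := fun j => IsNice.of_levelOne _
  have hB'N : ∀ j, IsNice (⇑(B' j)) := fun j => IsNice.of_levelOne _
  have hT'N : ∀ n, IsNice (⇑(T' n)) := fun n => IsNice.of_levelOne _
  -- the functions D', P'
  set D' : ℍ → ℂ := lagDen μ (⇑g) (fun j => ⇑(B' j)) with hD'
  set P' : ℍ → ℂ := lagNum μ (⇑g) (fun j => ⇑(B' j)) (fun n => ⇑(T' n)) with hP'
  have hD'N : IsNice D' := isNice_lagDen hgN hB'N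
  have hP'N : IsNice P' := isNice_lagNum hgN hB'N hT'N
  have hD'q : qExpansion 1 D' = φ D₀ := by
    rw [hD', qExpansion_lagDen hgN hB'N, hD₀, map_lagDen, hgσ]
    congr 1
    funext j
    exact hB' j
  have hP'q : qExpansion 1 P' = φ D₀ * φ (qExpansion 1 f) := by
    rw [hP', qExpansion_lagNum hgN hB'N hT'N, ← map_mul, hQ2, map_lagNum, hgσ]
    congr 1
    · funext j; exact hB' j
    · funext n; exact hT' n
  -- modularity of D', P'
  have hgMF : IsMF 𝒢 w (⇑g) := IsMF.coe g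
  have hB'MF : ∀ j : ℕ, IsMF 𝒢 (w * (j : ℤ)) (⇑(B' j)) := fun j => (IsMF.coe (B' j)).mono h𝒢
  have hT'MF : ∀ n : ℕ, IsMF 𝒢 (k + (n : ℤ) * w) (⇑(T' n)) :=
    fun n => (IsMF.coe (T' n)).mono h𝒢
  obtain ⟨Dm, hDm⟩ := isMF_lagDen (μ := μ) hgMF hB'MF
  obtain ⟨Pm, hPm⟩ :=
    (isMF_lagNum (μ := μ) (k := k) hgMF hB'MF hT'MF).congr_weight (add_comm _ _)
  have hD0coeff : (qExpansion 1 D').coeff 0 = 1 := by
    rw [hD'q, hφ, PowerSeries.coeff_map, hQ3, map_one]
  have hDm0 : Dm ≠ 0 := by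
    intro h0
    have h2 : D' = 0 := by
      rw [hD', ← hDm, h0]
      rfl
    rw [h2, UpperHalfPlane.qExpansion_zero] at hD0coeff
    simp at hD0coeff
  -- the coefficients of the monic relation
  let c : Fin μ → ℍ → ℂ := fun i => (-1 : ℍ → ℂ) ^ (μ - (i : ℕ)) * ⇑(A' (μ - (i : ℕ)))
  let wt : Fin μ → ℤ := fun i => k * ((μ - (i : ℕ) : ℕ) : ℤ)
  have hcMF : ∀ i, IsMF 𝒮ℒ (wt i) (c i) := fun i =>
    IsMF.mul' (IsMF.neg_one_pow _) (IsMF.coe (A' _)) (zero_add _)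
  have hc : ∀ i, MDiff (c i) := fun i => (hcMF i).mdiff
  have hw : ∀ i : Fin μ, wt i + (i : ℕ) * k = μ * k := by
    intro i
    have h2 : ((μ - (i : ℕ) : ℕ) : ℤ) = (μ : ℤ) - ((i : ℕ) : ℤ) := by
      have := i.2
      omega
    simp only [wt]
    rw [h2]
    ring
  have hcs : ∀ i, ∀ γ : SL(2, ℤ), c i ∣[wt i] γ = c i := fun i γ =>
    (hcMF i).slash_eq ⟨γ, rfl⟩
  have hA'0 : ∀ j, 0 < j → (qExpansion 1 (A' j)).coeff 0 = 0 := by
    intro j hj
    rw [hA' j, PowerSeries.coeff_map, qExpansion_esymmForm_coeff_zero f hj, map_zero]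
  have hc0 : ∀ i, IsZeroAtImInfty (c i) := by
    intro i
    have hj : 0 < μ - (i : ℕ) := by
      have := i.2
      omega
    have ht := (hA'N (μ - (i : ℕ))).tendsto_coeff_zero
    rw [hA'0 _ hj] at ht
    have hz : IsZeroAtImInfty (⇑(A' (μ - (i : ℕ)))) := ht
    have hb : IsBoundedAtImInfty ((-1 : ℍ → ℂ) ^ (μ - (i : ℕ))) := (IsNice.one.neg.pow _).bdd
    have := hz.mul_boundedAtFilter hb
    rwa [mul_comm] at this
  -- the relation
  have hA'zero : (⇑(A' 0) : ℍ → ℂ) = 1 := by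
    apply IsNice.eq_of_qExpansion_eq (hA'N 0) IsNice.one
    rw [hA' 0, qExpansion_esymmForm_zero, UpperHalfPlane.qExpansion_one, map_one]
  have hrelfun : monicRelHom μ (fun j => ⇑(A' j)) D' P' = 0 := by
    apply IsNice.eq_of_qExpansion_eq (isNice_monicRelHom hD'N hP'N hA'N) IsNice.zero
    rw [qExpansion_monicRelHom hD'N hP'N hA'N, UpperHalfPlane.qExpansion_zero, hD'q, hP'q]
    have h3 : (fun j => qExpansion 1 (A' j)) = fun j => φ (qExpansion 1 (esymmForm fM j)) :=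
      funext hA'
    rw [h3, ← map_mul, ← map_monicRelHom, monicRelHom_eq_zero rfl hQ1, map_zero]
  have hrel : ∀ z, Pm z ^ μ + ∑ i : Fin μ, c i z * Dm z ^ (μ - (i : ℕ)) * Pm z ^ (i : ℕ)
      = 0 := by
    intro z
    have h := congrFun hrelfun z
    rw [monicRelHom_eq_fin μ _ hA'zero] at h
    have hDm' : (⇑Dm : ℍ → ℂ) = D' := hDm
    have hPm' : (⇑Pm : ℍ → ℂ) = P' := hPm
    rw [← hDm', ← hPm'] at h
    simpa [c] using h
  have hX : qExpansion 1 Dm * φ (qExpansion 1 f) = qExpansion 1 Pm := by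
    have hDm' : (⇑Dm : ℍ → ℂ) = D' := hDm
    have hPm' : (⇑Pm : ℍ → ℂ) = P' := hPm
    rw [hDm', hPm', hD'q, hP'q]
  obtain ⟨G, -, hG⟩ := helper42.exists_cuspForm_qExpansion_eq one_pos h1 Pm Dm hDm0 c wt hc hw
    hcs hc0 hrel _ hX
  exact ⟨G, hG⟩

end

section gamma0

open CongruenceSubgroup

/-- **σ-conjugation of cusp forms on `Γ₀(N)`**, given an eta quotient `g`. -/
theorem exists_conj_Gamma0 (N : ℕ) [NeZero N] (k : ℤ) {w : ℤ}
    (g : ModularForm (Gamma0 N : Subgroup (GL (Fin 2) ℝ)) w)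
    (hgint : ∀ n, ∃ a : ℤ, (qExpansion 1 g).coeff n = (a : ℂ))
    (hg0 : (qExpansion 1 g).coeff 0 = 1)
    (hgz : ∀ h : SL(2, ℤ), h ∉ Gamma0 N → IsZeroAtImInfty (⇑g ∣[w] h))
    (σ : ℂ →+* ℂ) (f : CuspForm (Gamma0 N : Subgroup (GL (Fin 2) ℝ)) k) :
    ∃ G : CuspForm (Gamma0 N : Subgroup (GL (Fin 2) ℝ)) k,
      qExpansion 1 G = PowerSeries.map σ (qExpansion 1 f) :=
  exists_conj_of_etaQuotient (CongruenceSubgroup.one_mem_strictPeriods_Gamma0 N)
    (Subgroup.map_le_range _ _) g hgint hg0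
    (isZeroAtImInfty_quotientFunc_of_ne N g hgz) σ f

/-- The stability hypothesis of the Galois descent, given an eta quotient `g`. -/
theorem hstab_of_etaQuotient (N : ℕ) [NeZero N] (k : ℤ) {w : ℤ}
    (g : ModularForm (Gamma0 N : Subgroup (GL (Fin 2) ℝ)) w)
    (hgint : ∀ n, ∃ a : ℤ, (qExpansion 1 g).coeff n = (a : ℂ))
    (hg0 : (qExpansion 1 g).coeff 0 = 1)
    (hgz : ∀ h : SL(2, ℤ), h ∉ Gamma0 N → IsZeroAtImInfty (⇑g ∣[w] h))
    (σ : ℂ →+* ℂ) (f : CuspForm (Gamma0 N : Subgroup (GL (Fin 2) ℝ)) k) :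
    ∃ G : CuspForm (Gamma0 N : Subgroup (GL (Fin 2) ℝ)) k,
      ∀ n, ModularFormClass.qCoeff ⇑G n = σ (ModularFormClass.qCoeff ⇑f n) := by
  obtain ⟨G, hG⟩ := exists_conj_Gamma0 N k g hgint hg0 hgz σ f
  refine ⟨G, fun n => ?_⟩
  unfold ModularFormClass.qCoeff
  rw [hG, PowerSeries.coeff_map]

end gamma0

end Fermat.Agent.S23
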