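import Fermat.Agent.S23.helper68_BD
import Fermat.Agent.S23.LevelOne

/-!
# S23-BD-APPLY (helper68): subalgebra form of `bd_main`

`intAlg` is the `ℂ`-subalgebra of `ℂ⟦X⟧` generated by the integral power series; as a set it is the
`ℂ`-span of the integral power series (`mem_intAlg_iff`).  `bd_of_intAlg` is `bd_main` with all
"complex combination of integral power series" hypotheses expressed as membership in `intAlg`,
which is closed under `+` and `*`.
-/

set_option autoImplicit false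

namespace Fermat.Agent.S23.helper68

open PowerSeries UpperHalfPlane ModularForm ModularFormClass
open scoped MatrixGroups

/-- The `ℂ`-subalgebra of `ℂ⟦X⟧` generated by (equivalently: spanned by) the power series with
integer coefficients. -/
noncomputable def intAlg : Subalgebra ℂ (PowerSeries ℂ) := Algebra.adjoin ℂ (Set.range zc)

theorem zc_mem_intAlg (A : PowerSeries ℤ) : zc A ∈ intAlg :=
  Algebra.subset_adjoin ⟨A, rfl⟩

theorem mem_intAlg_of_int {p : PowerSeries ℂ}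
    (hp : ∀ n, ∃ a : ℤ, PowerSeries.coeff n p = (a : ℂ)) : p ∈ intAlg := by
  choose a ha using hp
  have : p = zc (PowerSeries.mk a) := by
    ext n
    simp [ha n]
  rw [this]
  exact zc_mem_intAlg _

theorem mem_intAlg_of_isIntSeries {p : PowerSeries ℂ} (hp : IsIntSeries p) : p ∈ intAlg := by
  obtain ⟨a, rfl⟩ := hp
  exact zc_mem_intAlg a

theorem sum_smul_zc_mem_intAlg {ι : Type*} (s : Finset ι) (u : ι → ℂ) (A : ι → PowerSeries ℤ) :
    ∑ i ∈ s, u i • zc (A i) ∈ intAlg :=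
  Subalgebra.sum_mem _ fun i _ => Subalgebra.smul_mem _ (zc_mem_intAlg (A i)) (u i)

/-- Elements of `intAlg` are exactly the finite complex linear combinations of integral power
series. -/
theorem mem_intAlg_iff (p : PowerSeries ℂ) :
    p ∈ intAlg ↔ ∃ (n : ℕ) (u : Fin n → ℂ) (A : Fin n → PowerSeries ℤ),
      p = ∑ i, u i • zc (A i) := by
  constructor
  · intro hp
    have h1 : p ∈ Submodule.span ℂ (Set.range zc) := by
      have h2 : p ∈ Subalgebra.toSubmodule intAlg := hp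
      rw [intAlg, Algebra.adjoin_eq_span] at h2
      have h3 : ((Submonoid.closure (Set.range zc) : Submonoid (PowerSeries ℂ)) :
          Set (PowerSeries ℂ)) = Set.range zc := by
        have : Set.range zc = ((MonoidHom.mrange (zc : PowerSeries ℤ →* PowerSeries ℂ) :
            Submonoid (PowerSeries ℂ)) : Set (PowerSeries ℂ)) := by
          ext y
          simp
        rw [this, Submonoid.closure_eq]
      rwa [h3] at h2
    obtain ⟨n, u, g, hg⟩ := (Submodule.mem_span_set').1 h1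
    choose A hA using fun i => (g i).2
    refine ⟨n, u, A, ?_⟩
    rw [← hg]
    refine Finset.sum_congr rfl fun i _ => ?_
    rw [hA i]
  · rintro ⟨n, u, A, rfl⟩
    exact sum_smul_zc_mem_intAlg _ u A

/-- q-expansions of level one modular forms lie in `intAlg`. -/
theorem levelOne_qExpansion_mem_intAlg (W : ℤ) (F : ModularForm 𝒮ℒ W) :
    qExpansion 1 F ∈ intAlg := by
  obtain ⟨n, B, hB, hspan⟩ := levelOne_exists_int_span W
  obtain ⟨c, hc⟩ := hspan F
  have h1 : qExpansion 1 F = ∑ i, c i • qExpansion 1 (B i) := by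
    have h2 : qExpansion 1 F =
        ModularForm.qExpansionAddHom one_pos one_mem_strictPeriods_SL W F := rfl
    rw [h2, hc, map_sum]
    refine Finset.sum_congr rfl fun i _ => ?_
    change qExpansion 1 (⇑(c i • B i)) = _
    rw [FunLike.coe_smul, ModularForm.qExpansion_smul one_pos one_mem_strictPeriods_SL]
  rw [h1]
  exact Subalgebra.sum_mem _ fun i _ =>
    Subalgebra.smul_mem _ (mem_intAlg_of_int (hB i)) (c i)

/-- `bd_main` with arbitrary finite index types. -/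
theorem bd_main_fintype (x : PowerSeries ℂ)
    (hx : ∀ n, ∃ r : ℚ, PowerSeries.coeff n x = (r : ℂ))
    {ι₁ ι₂ ι₃ : Type} [Fintype ι₁] [Fintype ι₂] [Fintype ι₃]
    (A : ι₁ → PowerSeries ℤ) (B : ι₂ → PowerSeries ℤ) (u : ι₁ → ℂ) (v : ι₂ → ℂ)
    (hD0 : ∑ i, u i • zc (A i) ≠ 0)
    (hDP : (∑ i, u i • zc (A i)) * x = ∑ j, v j • zc (B j))
    (μ : ℕ) (C : ι₃ → PowerSeries ℤ) (e : ι₃ → ℕ) (he : ∀ i, e i < μ) (t : ι₃ → ℂ)
    (hroot : x ^ μ + ∑ i, t i • (zc (C i) * x ^ (e i)) = 0) :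
    ∃ M : ℤ, M ≠ 0 ∧ ∀ n, ∃ a : ℤ, (M : ℂ) * PowerSeries.coeff n x = (a : ℂ) := by
  classical
  have e₁ := Fintype.equivFin ι₁
  have e₂ := Fintype.equivFin ι₂
  have e₃ := Fintype.equivFin ι₃
  have s₁ : ∑ i, u i • zc (A i) = ∑ i, (u ∘ e₁.symm) i • zc ((A ∘ e₁.symm) i) :=
    (Equiv.sum_comp e₁.symm (fun i => u i • zc (A i))).symm
  have s₂ : ∑ j, v j • zc (B j) = ∑ j, (v ∘ e₂.symm) j • zc ((B ∘ e₂.symm) j) :=
    (Equiv.sum_comp e₂.symm (fun j => v j • zc (B j))).symm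
  have s₃ : ∑ i, t i • (zc (C i) * x ^ (e i)) =
      ∑ i, (t ∘ e₃.symm) i • (zc ((C ∘ e₃.symm) i) * x ^ ((e ∘ e₃.symm) i)) :=
    (Equiv.sum_comp e₃.symm (fun i => t i • (zc (C i) * x ^ (e i)))).symm
  rw [s₁] at hD0 hDP
  rw [s₂] at hDP
  rw [s₃] at hroot
  exact bd_main x hx (A ∘ e₁.symm) (B ∘ e₂.symm) (u ∘ e₁.symm) (v ∘ e₂.symm) hD0 hDP μ
    (C ∘ e₃.symm) (e ∘ e₃.symm) (fun i => he _) (t ∘ e₃.symm) hroot

/-- **BD-APPLY.** Subalgebra form of `bd_main`: a complex power series `x` with rational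
coefficients such that `D * x ∈ intAlg` for some nonzero `D ∈ intAlg` and which is a root of a
monic polynomial with lower coefficients in `intAlg` has bounded denominators. -/
theorem bd_of_intAlg (x : PowerSeries ℂ)
    (hx : ∀ n, ∃ r : ℚ, PowerSeries.coeff n x = (r : ℂ))
    (D : PowerSeries ℂ) (hD : D ∈ intAlg) (hD0 : D ≠ 0) (hDx : D * x ∈ intAlg)
    (μ : ℕ) (c : ℕ → PowerSeries ℂ) (hc : ∀ i, i < μ → c i ∈ intAlg)
    (hroot : x ^ μ + ∑ i ∈ Finset.range μ, c i * x ^ i = 0) :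
    ∃ M : ℤ, M ≠ 0 ∧ ∀ n, ∃ a : ℤ, (M : ℂ) * PowerSeries.coeff n x = (a : ℂ) := by
  classical
  obtain ⟨n₁, u, A, rfl⟩ := (mem_intAlg_iff D).1 hD
  obtain ⟨n₂, v, B, hB⟩ := (mem_intAlg_iff _).1 hDx
  have hc' : ∀ i : Fin μ, ∃ (n : ℕ) (t : Fin n → ℂ) (C : Fin n → PowerSeries ℤ),
      c i = ∑ j, t j • zc (C j) := fun i => (mem_intAlg_iff _).1 (hc i i.2)
  choose m t C hC using hc'
  refine bd_main_fintype x hx A B u v hD0 hB μ
    (fun p : (Σ i : Fin μ, Fin (m i)) => C p.1 p.2) (fun p => (p.1 : ℕ)) (fun p => p.1.2)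
    (fun p => t p.1 p.2) ?_
  rw [← hroot, Finset.sum_range, Fintype.sum_sigma]
  congr 1
  refine Finset.sum_congr rfl fun i _ => ?_
  rw [hC i, Finset.sum_mul]
  refine Finset.sum_congr rfl fun j _ => ?_
  rw [smul_mul_assoc]

end Fermat.Agent.S23.helper68
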