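import Mathlib
import Fermat.Prelude.Def_CuspForm_IntegralStructure
import Fermat.Agent.S23.helper87_RationalBasis

/-!
# Final wiring for the integral structure (helper87, cluster S23)

`Aut(ℂ)`-stability of `S_k(Γ₀(N))` together with bounded denominators of the forms with rational
`q`-expansion gives `CuspForm.HasIntegralStructure N k`.
-/

set_option autoImplicit false

noncomputable section

namespace Fermat.Agent.S23.helper87

open ModularFormClass CongruenceSubgroup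

/-- A form all of whose `q`-expansion coefficients are integers lies in the integral lattice. -/
theorem mem_intLattice_of_int {N : ℕ} {k : ℤ} (f : CuspForm (Gamma0 N) k)
    (hf : ∀ n : ℕ, ∃ m : ℤ, qCoeff ⇑f n = (m : ℂ)) : f ∈ CuspForm.intLattice N k :=
  Submodule.subset_span hf

/-- A form with rational `q`-expansion and bounded denominators lies in the complex span of the
integral lattice. -/
theorem mem_span_intLattice_of_bd {N : ℕ} {k : ℤ} (f : CuspForm (Gamma0 N) k)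
    (hbd : ∃ M : ℤ, M ≠ 0 ∧ ∀ n, ∃ a : ℤ, (M : ℂ) * qCoeff ⇑f n = (a : ℂ)) :
    f ∈ Submodule.span ℂ ((CuspForm.intLattice N k :
      Submodule ℤ (CuspForm (Gamma0 N) k)) : Set (CuspForm (Gamma0 N) k)) := by
  obtain ⟨M, hM, hMf⟩ := hbd
  have hM' : (M : ℂ) ≠ 0 := by exact_mod_cast hM
  have h1 : (M : ℂ) • f ∈ CuspForm.intLattice N k := by
    apply mem_intLattice_of_int
    intro n
    obtain ⟨a, ha⟩ := hMf n
    exact ⟨a, by rw [qCoeff_smul_cuspForm, ha]⟩
  have h2 : f = (M : ℂ)⁻¹ • ((M : ℂ) • f) := by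
    rw [smul_smul, inv_mul_cancel₀ hM', one_smul]
  rw [h2]
  exact Submodule.smul_mem _ _ (Submodule.subset_span h1)

/-- Rational spanning set plus bounded denominators give the integral structure. -/
theorem hasIntegralStructure_of (N : ℕ) [NeZero N] (k : ℤ)
    (hrat : Submodule.span ℂ
      {f : CuspForm (Gamma0 N) k | ∀ n, ∃ r : ℚ, qCoeff ⇑f n = (r : ℂ)} = ⊤)
    (hbd : ∀ f : CuspForm (Gamma0 N) k, (∀ n, ∃ r : ℚ, qCoeff ⇑f n = (r : ℂ)) →
      ∃ M : ℤ, M ≠ 0 ∧ ∀ n, ∃ a : ℤ, (M : ℂ) * qCoeff ⇑f n = (a : ℂ)) :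
    CuspForm.HasIntegralStructure N k := by
  unfold CuspForm.HasIntegralStructure
  rw [eq_top_iff, ← hrat]
  apply Submodule.span_le.mpr
  intro f hf
  exact mem_span_intLattice_of_bd f (hbd f hf)

/-- `Aut(ℂ)`-stability plus bounded denominators give the integral structure. -/
theorem hasIntegralStructure_of_hstab_of_bd (N : ℕ) [NeZero N] (k : ℤ)
    (hstab : ∀ (σ : ℂ ≃+* ℂ) (f : CuspForm (Gamma0 N) k),
      ∃ g : CuspForm (Gamma0 N) k, ∀ n, qCoeff ⇑g n = σ (qCoeff ⇑f n))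
    (hbd : ∀ f : CuspForm (Gamma0 N) k, (∀ n, ∃ r : ℚ, qCoeff ⇑f n = (r : ℂ)) →
      ∃ M : ℤ, M ≠ 0 ∧ ∀ n, ∃ a : ℤ, (M : ℂ) * qCoeff ⇑f n = (a : ℂ)) :
    CuspForm.HasIntegralStructure N k :=
  hasIntegralStructure_of N k (span_rational_eq_top N k hstab) hbd

/-- Variant with ring homomorphisms instead of automorphisms in the stability hypothesis. -/
theorem hasIntegralStructure_of_hstab_ringHom_of_bd (N : ℕ) [NeZero N] (k : ℤ)
    (hstab : ∀ (σ : ℂ →+* ℂ) (f : CuspForm (Gamma0 N) k),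
      ∃ g : CuspForm (Gamma0 N) k, ∀ n, qCoeff ⇑g n = σ (qCoeff ⇑f n))
    (hbd : ∀ f : CuspForm (Gamma0 N) k, (∀ n, ∃ r : ℚ, qCoeff ⇑f n = (r : ℂ)) →
      ∃ M : ℤ, M ≠ 0 ∧ ∀ n, ∃ a : ℤ, (M : ℂ) * qCoeff ⇑f n = (a : ℂ)) :
    CuspForm.HasIntegralStructure N k :=
  hasIntegralStructure_of_hstab_of_bd N k (fun σ f => hstab σ.toRingHom f) hbd

end Fermat.Agent.S23.helper87
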