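import Mathlib
import Fermat.Agent.S23.SigmaConj
import Fermat.Agent.S23.EtaQuotient
import Fermat.Agent.S23.helper68_BDApply
import Fermat.Agent.S23.helper87_Final

/-!
# Integral structure on `S_k(Γ₀(N))`

Assembly: σ-conjugation (`hstab`) + Galois descent + bounded denominators.
-/

open UpperHalfPlane ModularForm SlashInvariantForm Finset CongruenceSubgroup
open scoped MatrixGroups ModularForm Manifold Pointwise

namespace Fermat.Agent.S23

open helper87 helper68

/-- **Bounded denominators**: a cusp form on `Γ₀(N)` with rational `q`-expansion has a nonzero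
integer multiple with integral `q`-expansion (given an eta quotient `g`). -/
theorem bounded_denominators_of_etaQuotient (N : ℕ) [NeZero N] (k : ℤ) {w : ℤ}
    (g : ModularForm (Gamma0 N : Subgroup (GL (Fin 2) ℝ)) w)
    (hgint : ∀ n, ∃ a : ℤ, (qExpansion 1 g).coeff n = (a : ℂ))
    (hg0 : (qExpansion 1 g).coeff 0 = 1)
    (hgz : ∀ h : SL(2, ℤ), h ∉ Gamma0 N → IsZeroAtImInfty (⇑g ∣[w] h))
    (f : CuspForm (Gamma0 N : Subgroup (GL (Fin 2) ℝ)) k)
    (hf : ∀ n, ∃ r : ℚ, ModularFormClass.qCoeff ⇑f n = (r : ℂ)) :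
    ∃ M : ℤ, M ≠ 0 ∧ ∀ n, ∃ a : ℤ, (M : ℂ) * ModularFormClass.qCoeff ⇑f n = (a : ℂ) := by
  classical
  have h1 : (1 : ℝ) ∈ (Gamma0 N : Subgroup (GL (Fin 2) ℝ)).strictPeriods :=
    CongruenceSubgroup.one_mem_strictPeriods_Gamma0 N
  set μ := conjIndex (Gamma0 N : Subgroup (GL (Fin 2) ℝ)) with hμ
  set fM : ModularForm (Gamma0 N : Subgroup (GL (Fin 2) ℝ)) k := CuspForm.toModularFormₗ f
    with hfM
  set D₀ := lagDen μ (qExpansion 1 g) (fun j => qExpansion 1 (esymmForm g j)) with hD₀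
  have hQ1 : monicRel μ (fun j => qExpansion 1 (esymmForm fM j)) (qExpansion 1 f) = 0 :=
    qExpansion_monicRel_eq_zero h1 fM
  have hQ2 : D₀ * qExpansion 1 f = lagNum μ (qExpansion 1 g)
      (fun j => qExpansion 1 (esymmForm g j)) (fun n => qExpansion 1 (traceMulPow fM g n)) :=
    qExpansion_lagDen_mul h1 fM g
  have hQ3 : D₀.coeff 0 = 1 :=
    qExpansion_lagDen_coeff_zero h1 g hg0 (isZeroAtImInfty_quotientFunc_of_ne N g hgz)
  have hgA : qExpansion 1 g ∈ intAlg.toSubring := mem_intAlg_of_int hgint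
  have hbA : ∀ j, qExpansion 1 (esymmForm g j) ∈ intAlg.toSubring :=
    fun j => levelOne_qExpansion_mem_intAlg _ _
  have htA : ∀ n, qExpansion 1 (traceMulPow fM g n) ∈ intAlg.toSubring :=
    fun n => levelOne_qExpansion_mem_intAlg _ _
  have haA : ∀ j, qExpansion 1 (esymmForm fM j) ∈ intAlg :=
    fun j => levelOne_qExpansion_mem_intAlg _ _
  have hD : D₀ ∈ intAlg := lagDen_mem intAlg.toSubring hgA hbA
  have hD0 : D₀ ≠ 0 := by
    intro h0
    rw [h0] at hQ3
    simp at hQ3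
  have hDx : D₀ * qExpansion 1 f ∈ intAlg := by
    rw [hQ2]
    exact lagNum_mem intAlg.toSubring hgA hbA htA
  have hroot : qExpansion 1 f ^ μ + ∑ i ∈ Finset.range μ,
      ((-1) ^ (μ - i) * qExpansion 1 (esymmForm fM (μ - i))) * qExpansion 1 f ^ i = 0 := by
    rw [← monicRel_eq_fin μ (fun j => qExpansion 1 (esymmForm fM j))
      (qExpansion_esymmForm_zero fM)]
    exact hQ1
  exact bd_of_intAlg (qExpansion 1 f) hf D₀ hD hD0 hDx μ
    (fun i => (-1) ^ (μ - i) * qExpansion 1 (esymmForm fM (μ - i)))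
    (fun i _ => intAlg.mul_mem (intAlg.pow_mem (intAlg.neg_mem intAlg.one_mem) _) (haA _))
    hroot

/-- **Integral structure** on `S_k(Γ₀(N))`, for every weight `k`. -/
theorem hasIntegralStructure_all (N : ℕ) [NeZero N] (k : ℤ) :
    CuspForm.HasIntegralStructure N k := by
  obtain ⟨w, g, hgint, hg0, hgz⟩ := exists_etaQuotient_weak N
  exact hasIntegralStructure_of_hstab_ringHom_of_bd N k
    (fun σ f => hstab_of_etaQuotient N k g hgint hg0 hgz σ f)
    (fun f hf => bounded_denominators_of_etaQuotient N k g hgint hg0 hgz f hf)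

end Fermat.Agent.S23
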