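import Mathlib.NumberTheory.ModularForms.Discriminant
import Mathlib.NumberTheory.ModularForms.QExpansion
import Mathlib.RingTheory.IntegralClosure.IsIntegralClosure.Basic
import Fermat.Prelude.Thm_UpperHalfPlane_qExpansion_coeff_nat_mul

/-!
# Periodic holomorphic functions bounded at infinity ("nice" functions) and integrality of
their `q`-expansions (helper74, cluster S23, sub-lemma T3).
-/

open UpperHalfPlane ModularForm Complex Filter Function
open scoped MatrixGroups ModularForm Manifold Topology

noncomputable section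

namespace Fermat.Agent.S23.helper74

local notation "𝕢" => Periodic.qParam

/-- Wrapper giving bare functions `ℍ → ℂ` a `FunLike` instance (needed to apply Mathlib lemmas
stated for bundled function types). -/
structure FunWrap where
  /-- the underlying function -/
  toFun : ℍ → ℂ

instance FunWrap.instFunLike : FunLike FunWrap ℍ ℂ :=
  ⟨FunWrap.toFun, fun a b h => by cases a; cases b; congr⟩

/-- A function on the upper half plane which is `h`-periodic, holomorphic and bounded at `i∞`. -/
structure Nice (h : ℝ) (f : ℍ → ℂ) : Prop where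
  per : Periodic (f ∘ ofComplex) h
  hol : MDiff f
  bdd : IsBoundedAtImInfty f

namespace Nice

variable {h : ℝ} {f g : ℍ → ℂ}

lemma analyticAt (hf : Nice h f) (hh : 0 < h) : AnalyticAt ℂ (cuspFunction h f) 0 :=
  analyticAt_cuspFunction_zero hh hf.per hf.hol hf.bdd

lemma hasSum (hf : Nice h f) (hh : 0 < h) (τ : ℍ) :
    HasSum (fun m : ℕ ↦ (qExpansion h f).coeff m • 𝕢 h τ ^ m) (f τ) :=
  hasSum_qExpansion hh hf.per hf.hol hf.bdd τ

lemma mul (hf : Nice h f) (hg : Nice h g) : Nice h (f * g) where
  per := by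
    intro w
    have h1 := hf.per w
    have h2 := hg.per w
    simp only [comp_apply, Pi.mul_apply] at h1 h2 ⊢
    rw [h1, h2]
  hol := hf.hol.mul hg.hol
  bdd := hf.bdd.mul hg.bdd

lemma const (h : ℝ) (c : ℂ) : Nice h (fun _ ↦ c) where
  per := fun _ ↦ rfl
  hol := mdifferentiable_const
  bdd := Filter.const_boundedAtFilter _ c

lemma one (h : ℝ) : Nice h (1 : ℍ → ℂ) := const h 1

lemma pow (hf : Nice h f) (n : ℕ) : Nice h (f ^ n) := by
  induction n with
  | zero => simpa using one h
  | succ n ih => rw [pow_succ]; exact ih.mul hf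

lemma smul (hf : Nice h f) (c : ℂ) : Nice h (c • f) := by
  have : c • f = (fun _ ↦ c) * f := by ext; simp
  rw [this]
  exact (const h c).mul hf

lemma qExpansion_mul (hf : Nice h f) (hg : Nice h g) (hh : 0 < h) :
    qExpansion h (f * g) = qExpansion h f * qExpansion h g :=
  UpperHalfPlane.qExpansion_mul (hf.analyticAt hh) (hg.analyticAt hh)

lemma qExpansion_pow (hf : Nice h f) (hh : 0 < h) (n : ℕ) :
    qExpansion h (f ^ n) = qExpansion h f ^ n := by
  induction n with
  | zero => simpa using qExpansion_one h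
  | succ n ih => rw [pow_succ, (hf.pow n).qExpansion_mul hf hh, ih, pow_succ]

lemma qExpansion_smul (hf : Nice h f) (hh : 0 < h) (c : ℂ) :
    qExpansion h (c • f) = c • qExpansion h f :=
  UpperHalfPlane.qExpansion_smul (hf.analyticAt hh) c

/-- A `h`-periodic nice function is also `M * h`-periodic nice. -/
lemma nat_mul (hf : Nice h f) (M : ℕ) : Nice (M * h) f where
  per := by
    have := hf.per.nat_mul M
    simpa using this
  hol := hf.hol
  bdd := hf.bdd

lemma qExpansion_coeff_nat_mul (hf : Nice h f) (hh : 0 < h) {M : ℕ} (hM : 0 < M) (n : ℕ) :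
    (qExpansion (M * h) f).coeff n = if M ∣ n then (qExpansion h f).coeff (n / M) else 0 :=
  UpperHalfPlane.qExpansion_coeff_nat_mul hh hf.per hf.hol hf.bdd hM n

/-- Uniqueness of `q`-expansion coefficients. -/
lemma coeff_unique (hf : Nice h f) (hh : 0 < h) {c : ℕ → ℂ}
    (hc : ∀ τ : ℍ, HasSum (fun m : ℕ ↦ c m • 𝕢 h (τ : ℂ) ^ m) (f τ)) (m : ℕ) :
    (qExpansion h f).coeff m = c m :=
  (UpperHalfPlane.qExpansion_coeff_unique (⟨f⟩ : FunWrap) hh (hf.analyticAt hh) hc m).symm

end Nice

/-- A power series over `ℂ` all of whose coefficients are algebraic integers. -/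
def IntCoeffs (P : PowerSeries ℂ) : Prop := ∀ n, IsIntegral ℤ (P.coeff n)

namespace IntCoeffs

variable {P Q : PowerSeries ℂ}

lemma mul (hP : IntCoeffs P) (hQ : IntCoeffs Q) : IntCoeffs (P * Q) := by
  intro n
  rw [PowerSeries.coeff_mul]
  exact IsIntegral.sum _ fun i _ ↦ (hP _).mul (hQ _)

lemma one : IntCoeffs (1 : PowerSeries ℂ) := by
  intro n
  rw [PowerSeries.coeff_one]
  split_ifs
  · exact isIntegral_one
  · exact isIntegral_zero

lemma pow (hP : IntCoeffs P) (n : ℕ) : IntCoeffs (P ^ n) := by
  induction n with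
  | zero => simpa using one
  | succ n ih => rw [pow_succ]; exact ih.mul hP

lemma smul (hP : IntCoeffs P) {c : ℂ} (hc : IsIntegral ℤ c) : IntCoeffs (c • P) := by
  intro n
  rw [PowerSeries.coeff_smul]
  exact hc.mul (hP n)

lemma of_int {P : PowerSeries ℂ} (hP : ∀ n, ∃ a : ℤ, P.coeff n = (a : ℂ)) : IntCoeffs P := by
  intro n
  obtain ⟨a, ha⟩ := hP n
  rw [ha]
  exact isIntegral_algebraMap (R := ℤ) (A := ℂ) (x := a)

end IntCoeffs

end Fermat.Agent.S23.helper74
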