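import Mathlib
import Fermat.Agent.S23.helper87_GaloisDescent

/-!
# T1 of the S23 plan: the fixed field of the ring endomorphisms of `ℂ` is `ℚ` (helper87)
-/

set_option autoImplicit false

namespace Fermat.Agent.S23

/-- A non-rational complex number is moved by some ring automorphism of `ℂ`. -/
theorem exists_ringEquiv_ne_of_not_rat (x : ℂ) (hx : x ∉ Set.range (Rat.cast : ℚ → ℂ)) :
    ∃ σ : ℂ ≃+* ℂ, σ x ≠ x := by
  by_contra hcon
  push Not at hcon
  obtain ⟨r, hr⟩ := helper87.exists_rat_of_forall_ringEquiv_fixed x hcon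
  exact hx ⟨r, hr.symm⟩

/-- A non-rational complex number is moved by some ring endomorphism of `ℂ`. -/
theorem exists_ringHom_ne_of_not_rat (x : ℂ) (hx : x ∉ Set.range (Rat.cast : ℚ → ℂ)) :
    ∃ σ : ℂ →+* ℂ, σ x ≠ x := by
  obtain ⟨σ, hσ⟩ := exists_ringEquiv_ne_of_not_rat x hx
  exact ⟨σ.toRingHom, hσ⟩

end Fermat.Agent.S23
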