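import Fermat.Agent.S23.helper68_BDClosed

/-!
# S23-BD (helper68), part 2: bounded denominators, abstractly

Pure power-series algebra:

* `exists_rat_solution` / `exists_rat_solution_ne`: a linear relation with complex coefficients
  between rational power series can be replaced by one with rational coefficients;
* `bd_main`: a complex power series `x` with rational coefficients which
  (i) is a root of a monic polynomial whose lower coefficients are complex linear combinations
  of integral power series, and (ii) satisfies `D * x = P` with `D ≠ 0`, `D` and `P` complex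
  linear combinations of integral power series, has bounded denominators.
-/

set_option autoImplicit false

namespace Fermat.Agent.S23.helper68

open PowerSeries Polynomial

/-- The coefficientwise inclusion `ℚ⟦X⟧ → ℂ⟦X⟧`. -/
noncomputable abbrev qc : PowerSeries ℚ →+* PowerSeries ℂ := PowerSeries.map (algebraMap ℚ ℂ)

/-- The coefficientwise inclusion `ℤ⟦X⟧ → ℂ⟦X⟧`. -/
noncomputable abbrev zc : PowerSeries ℤ →+* PowerSeries ℂ := PowerSeries.map (Int.castRingHom ℂ)

lemma qc_injective : Function.Injective qc :=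
  PowerSeries.map_injective _ (algebraMap ℚ ℂ).injective

lemma qc_zq (A : PowerSeries ℤ) : qc (zq A) = zc A := by
  ext n
  simp

/-- A `ℚ`-linear functional on `ℂ` taking the value `1` at a prescribed nonzero number. -/
lemma exists_ratFunctional (d : ℂ) (hd : d ≠ 0) : ∃ l : ℂ →ₗ[ℚ] ℚ, l d = 1 := by
  obtain ⟨g, hg⟩ := (LinearMap.toSpanSingleton ℚ ℂ d).exists_leftInverse_of_injective
    (LinearMap.ker_toSpanSingleton ℚ hd)
  refine ⟨g, ?_⟩
  have := congrArg (fun f : ℚ →ₗ[ℚ] ℚ => f 1) hg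
  simpa using this

lemma ratFunctional_mul_rat (l : ℂ →ₗ[ℚ] ℚ) (t : ℂ) (r : ℚ) : l (t * (r : ℂ)) = l t * r := by
  have h : t * (r : ℂ) = r • t := by
    rw [Algebra.smul_def, mul_comm]
    rfl
  rw [h, map_smul, smul_eq_mul, mul_comm]

/-- Applying a `ℚ`-linear functional to the coefficients of a complex linear combination of
rational power series. -/
lemma coeff_sum_functional {ι : Type} [Fintype ι] (l : ℂ →ₗ[ℚ] ℚ) (w : ι → PowerSeries ℚ)
    (t : ι → ℂ) (n : ℕ) :
    PowerSeries.coeff n (∑ i, PowerSeries.C (l (t i)) * w i) =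
      l (PowerSeries.coeff n (∑ i, PowerSeries.C (t i) * qc (w i))) := by
  rw [map_sum, map_sum, map_sum]
  refine Finset.sum_congr rfl fun i _ => ?_
  rw [PowerSeries.coeff_C_mul, PowerSeries.coeff_C_mul, PowerSeries.coeff_map]
  exact (ratFunctional_mul_rat l (t i) _).symm

/-- A homogeneous linear relation with complex coefficients between rational power series yields
one with rational coefficients (apply any `ℚ`-linear functional to the coefficients). -/
lemma sum_functional_eq_zero {ι : Type} [Fintype ι] (l : ℂ →ₗ[ℚ] ℚ) (w : ι → PowerSeries ℚ)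
    (t : ι → ℂ) (h : ∑ i, PowerSeries.C (t i) * qc (w i) = 0) :
    ∑ i, PowerSeries.C (l (t i)) * w i = 0 := by
  ext n
  rw [coeff_sum_functional, h, map_zero, map_zero, map_zero]

/-- Common denominators. -/
lemma exists_common_den {ι : Type} [Finite ι] (t : ι → ℚ) :
    ∃ M : ℤ, M ≠ 0 ∧ ∀ i, ∃ z : ℤ, (M : ℚ) * t i = z := by
  obtain ⟨b, hb⟩ := IsLocalization.exist_integer_multiples_of_finite (nonZeroDivisors ℤ) t
  refine ⟨b, nonZeroDivisors.coe_ne_zero b, fun i => ?_⟩
  obtain ⟨z, hz⟩ := hb i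
  refine ⟨z, ?_⟩
  have h2 : ((b : ℤ) : ℚ) * t i = (algebraMap ℤ ℚ) z := by
    rw [hz, Algebra.smul_def]
    rfl
  rw [h2]
  rfl

/-- Rational power series underlying a complex power series with rational coefficients. -/
lemma exists_rat_powerSeries (x : PowerSeries ℂ)
    (hx : ∀ n, ∃ r : ℚ, PowerSeries.coeff n x = (r : ℂ)) :
    ∃ xQ : PowerSeries ℚ, qc xQ = x := by
  choose r hr using hx
  refine ⟨PowerSeries.mk r, ?_⟩
  ext n
  simp [hr n]

/-- From a monic relation with complex combinations of integral power series as coefficients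
to a monic polynomial over `ℤ⟦X⟧` killing an integer multiple of `xQ`. -/
lemma exists_monic_root (xQ : PowerSeries ℚ) (μ : ℕ) {m : ℕ} (C : Fin m → PowerSeries ℤ)
    (e : Fin m → ℕ) (he : ∀ i, e i < μ) (t : Fin m → ℂ)
    (hroot : (qc xQ) ^ μ + ∑ i, PowerSeries.C (t i) * (zc (C i) * (qc xQ) ^ (e i)) = 0) :
    ∃ M : ℤ, M ≠ 0 ∧ ∃ p : Polynomial (PowerSeries ℤ), p.Monic ∧
      p.eval₂ zq (PowerSeries.C (M : ℚ) * xQ) = 0 := by
  classical
  obtain ⟨l, hl⟩ := exists_ratFunctional 1 one_ne_zero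
  -- the rational relation
  have hrat : xQ ^ μ + ∑ i, PowerSeries.C (l (t i)) * (zq (C i) * xQ ^ (e i)) = 0 := by
    have h := sum_functional_eq_zero l
      (fun o : Option (Fin m) => o.elim (xQ ^ μ) (fun i => zq (C i) * xQ ^ (e i)))
      (fun o : Option (Fin m) => o.elim 1 t)
      (by
        rw [Fintype.sum_option]
        simp only [Option.elim_none, Option.elim_some, map_one, one_mul, map_mul, map_pow,
          qc_zq]
        exact hroot)
    rw [Fintype.sum_option] at h
    simpa only [Option.elim_none, Option.elim_some, hl, map_one, one_mul] using h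
  obtain ⟨M, hM, hMz⟩ := exists_common_den (fun i => l (t i))
  choose z hz using hMz
  refine ⟨M, hM, Polynomial.X ^ μ +
    ∑ i, Polynomial.C (PowerSeries.C (M ^ (μ - e i - 1) * z i) * C i) *
    Polynomial.X ^ (e i), ?_, ?_⟩
  · apply Polynomial.monic_X_pow_add
    refine lt_of_le_of_lt (Polynomial.degree_sum_le _ _) ?_
    refine (Finset.sup_lt_iff (WithBot.bot_lt_coe μ)).2 ?_
    intro i _
    exact lt_of_le_of_lt (Polynomial.degree_C_mul_X_pow_le _ _) (WithBot.coe_lt_coe.mpr (he i))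
  · rw [Polynomial.eval₂_add, Polynomial.eval₂_X_pow, Polynomial.eval₂_finsetSum]
    have hterm : ∀ i, Polynomial.eval₂ zq (PowerSeries.C (M : ℚ) * xQ)
        (Polynomial.C (PowerSeries.C (M ^ (μ - e i - 1) * z i) * C i) *
          Polynomial.X ^ (e i)) =
        PowerSeries.C ((M : ℚ) ^ μ) * (PowerSeries.C (l (t i)) * (zq (C i) * xQ ^ (e i))) := by
      intro i
      rw [Polynomial.eval₂_mul, Polynomial.eval₂_C, Polynomial.eval₂_X_pow, map_mul,
        PowerSeries.map_C, mul_pow]
      have h1 : (Int.castRingHom ℚ) (M ^ (μ - e i - 1) * z i) * (M : ℚ) ^ (e i)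
          = (M : ℚ) ^ μ * l (t i) := by
        have h2 : μ = (μ - e i - 1) + 1 + e i := by have := he i; omega
        rw [eq_intCast, Int.cast_mul, Int.cast_pow, ← hz i]
        conv_rhs => rw [h2]
        ring
      have h3 : PowerSeries.C ((M : ℚ) ^ μ) * (PowerSeries.C (l (t i)) * (zq (C i) * xQ ^ e i))
          = PowerSeries.C ((M : ℚ) ^ μ * l (t i)) * (zq (C i) * xQ ^ e i) := by
        rw [(PowerSeries.C : ℚ →+* PowerSeries ℚ).map_mul, mul_assoc]
      rw [h3, ← h1]
      generalize (Int.castRingHom ℚ) (M ^ (μ - e i - 1) * z i) = a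
      rw [(PowerSeries.C : ℚ →+* PowerSeries ℚ).map_mul,
        (PowerSeries.C : ℚ →+* PowerSeries ℚ).map_pow]
      ring
    rw [Finset.sum_congr rfl (fun i _ => hterm i), ← Finset.mul_sum, mul_pow, ← map_pow,
      ← mul_add, hrat, mul_zero]

/-- From `D * x = P` with complex combinations of integral power series to an integral relation
`a * xQ = b`, `a ≠ 0`. -/
lemma exists_int_relation (xQ : PowerSeries ℚ) {n₁ n₂ : ℕ} (A : Fin n₁ → PowerSeries ℤ)
    (B : Fin n₂ → PowerSeries ℤ) (u : Fin n₁ → ℂ) (v : Fin n₂ → ℂ)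
    (hD0 : ∑ i, PowerSeries.C (u i) * zc (A i) ≠ 0)
    (hDP : (∑ i, PowerSeries.C (u i) * zc (A i)) * qc xQ = ∑ j, PowerSeries.C (v j) * zc (B j)) :
    ∃ a b : PowerSeries ℤ, a ≠ 0 ∧ zq a * xQ = zq b := by
  classical
  obtain ⟨n, hn⟩ : ∃ n, PowerSeries.coeff n (∑ i, PowerSeries.C (u i) * zc (A i)) ≠ 0 := by
    by_contra hcon
    push Not at hcon
    exact hD0 (PowerSeries.ext fun n => by rw [hcon n, map_zero])
  obtain ⟨l, hl⟩ := exists_ratFunctional _ hn
  -- rational relation
  have hrat : (∑ i, PowerSeries.C (l (u i)) * zq (A i)) * xQ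
      = ∑ j, PowerSeries.C (l (v j)) * zq (B j) := by
    have h := sum_functional_eq_zero l
      (fun o : Fin n₁ ⊕ Fin n₂ => o.elim (fun i => zq (A i) * xQ) (fun j => - zq (B j)))
      (fun o : Fin n₁ ⊕ Fin n₂ => o.elim u v)
      (by
        rw [Fintype.sum_sum_type]
        simp only [Sum.elim_inl, Sum.elim_inr, map_mul, map_neg, qc_zq, mul_neg,
          Finset.sum_neg_distrib]
        rw [← hDP, Finset.sum_mul]
        simp only [mul_assoc]
        exact add_neg_cancel _)
    rw [Fintype.sum_sum_type] at h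
    simp only [Sum.elim_inl, Sum.elim_inr, mul_neg, Finset.sum_neg_distrib] at h
    rw [Finset.sum_mul]
    simp only [mul_assoc]
    exact eq_of_sub_eq_zero (by rw [sub_eq_add_neg]; exact h)
  have hcoeff : PowerSeries.coeff n (∑ i, PowerSeries.C (l (u i)) * zq (A i)) = 1 := by
    rw [coeff_sum_functional l (fun i => zq (A i)) u n]
    simp only [qc_zq]
    exact hl
  obtain ⟨M, hM, hMz⟩ := exists_common_den
    (fun o : Fin n₁ ⊕ Fin n₂ => l (o.elim u v))
  choose z hz using hMz
  have hza : zq (∑ i, PowerSeries.C (z (Sum.inl i)) * A i)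
      = PowerSeries.C (M : ℚ) * ∑ i, PowerSeries.C (l (u i)) * zq (A i) := by
    rw [map_sum, Finset.mul_sum]
    refine Finset.sum_congr rfl fun i _ => ?_
    have := hz (Sum.inl i)
    simp only [Sum.elim_inl] at this
    rw [map_mul, PowerSeries.map_C, eq_intCast, ← this, map_mul, mul_assoc]
  have hzb : zq (∑ j, PowerSeries.C (z (Sum.inr j)) * B j)
      = PowerSeries.C (M : ℚ) * ∑ j, PowerSeries.C (l (v j)) * zq (B j) := by
    rw [map_sum, Finset.mul_sum]
    refine Finset.sum_congr rfl fun j _ => ?_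
    have := hz (Sum.inr j)
    simp only [Sum.elim_inr] at this
    rw [map_mul, PowerSeries.map_C, eq_intCast, ← this, map_mul, mul_assoc]
  refine ⟨∑ i, PowerSeries.C (z (Sum.inl i)) * A i, ∑ j, PowerSeries.C (z (Sum.inr j)) * B j,
    ?_, ?_⟩
  · intro h0
    have h1 := congrArg (fun s => PowerSeries.coeff n (zq s)) h0
    simp only [hza, PowerSeries.coeff_C_mul, hcoeff, mul_one, map_zero] at h1
    exact hM (by exact_mod_cast h1)
  · rw [hza, hzb, mul_assoc, hrat]

/-- **BD-MAIN** (formulated with `PowerSeries.C` scalars). -/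
theorem bd_main_C (x : PowerSeries ℂ) (hx : ∀ n, ∃ r : ℚ, PowerSeries.coeff n x = (r : ℂ))
    {n₁ n₂ : ℕ} (A : Fin n₁ → PowerSeries ℤ) (B : Fin n₂ → PowerSeries ℤ)
    (u : Fin n₁ → ℂ) (v : Fin n₂ → ℂ)
    (hD0 : ∑ i, PowerSeries.C (u i) * zc (A i) ≠ 0)
    (hDP : (∑ i, PowerSeries.C (u i) * zc (A i)) * x = ∑ j, PowerSeries.C (v j) * zc (B j))
    (μ : ℕ) {m : ℕ} (C : Fin m → PowerSeries ℤ) (e : Fin m → ℕ) (he : ∀ i, e i < μ)
    (t : Fin m → ℂ)
    (hroot : x ^ μ + ∑ i, PowerSeries.C (t i) * (zc (C i) * x ^ (e i)) = 0) :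
    ∃ M : ℤ, M ≠ 0 ∧ ∀ n, ∃ a : ℤ, (M : ℂ) * PowerSeries.coeff n x = (a : ℂ) := by
  obtain ⟨xQ, rfl⟩ := exists_rat_powerSeries x hx
  obtain ⟨M, hM, p, hp, hpr⟩ := exists_monic_root xQ μ C e he t hroot
  obtain ⟨a, b, ha, hab⟩ := exists_int_relation xQ A B u v hD0 hDP
  obtain ⟨z, hz⟩ := exists_int_of_monic_root (PowerSeries.C (M : ℚ) * xQ) a
    (PowerSeries.C M * b) ha (by
      rw [map_mul, PowerSeries.map_C, eq_intCast, ← hab]; ring) p hp hpr
  refine ⟨M, hM, fun n => ⟨PowerSeries.coeff n z, ?_⟩⟩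
  have h1 := congrArg (fun s => PowerSeries.coeff n (qc s)) hz
  simp only [map_mul, PowerSeries.map_C, PowerSeries.coeff_C_mul, qc_zq,
    PowerSeries.coeff_map] at h1
  rw [PowerSeries.coeff_map]
  simpa using h1.symm

/-- **BD-MAIN.** A complex power series with rational coefficients which is a root of a monic
polynomial whose lower coefficients are complex combinations of integral power series, and which
satisfies `D * x = P` with `D ≠ 0` and `D`, `P` complex combinations of integral power series,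
has bounded denominators. -/
theorem bd_main (x : PowerSeries ℂ) (hx : ∀ n, ∃ r : ℚ, PowerSeries.coeff n x = (r : ℂ))
    {n₁ n₂ : ℕ} (A : Fin n₁ → PowerSeries ℤ) (B : Fin n₂ → PowerSeries ℤ)
    (u : Fin n₁ → ℂ) (v : Fin n₂ → ℂ)
    (hD0 : ∑ i, u i • zc (A i) ≠ 0)
    (hDP : (∑ i, u i • zc (A i)) * x = ∑ j, v j • zc (B j))
    (μ : ℕ) {m : ℕ} (C : Fin m → PowerSeries ℤ) (e : Fin m → ℕ) (he : ∀ i, e i < μ)
    (t : Fin m → ℂ)
    (hroot : x ^ μ + ∑ i, t i • (zc (C i) * x ^ (e i)) = 0) :
    ∃ M : ℤ, M ≠ 0 ∧ ∀ n, ∃ a : ℤ, (M : ℂ) * PowerSeries.coeff n x = (a : ℂ) := by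
  simp only [PowerSeries.smul_eq_C_mul] at hD0 hDP hroot
  exact bd_main_C x hx A B u v hD0 hDP μ C e he t hroot

end Fermat.Agent.S23.helper68
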