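import Mathlib

/-!
# S23-BD (helper68), part 1: `ℤ⟦X⟧` is integrally closed, concretely

If `y ∈ ℚ⟦X⟧` is a root of a monic polynomial with coefficients in `ℤ⟦X⟧` and `a * y = b` for
some `a b ∈ ℤ⟦X⟧`, `a ≠ 0`, then `y ∈ ℤ⟦X⟧`.
-/

set_option autoImplicit false

namespace Fermat.Agent.S23.helper68

open PowerSeries Polynomial

/-- The coefficientwise inclusion `ℤ⟦X⟧ → ℚ⟦X⟧`. -/
noncomputable abbrev zq : PowerSeries ℤ →+* PowerSeries ℚ := PowerSeries.map (Int.castRingHom ℚ)

lemma zq_injective : Function.Injective zq :=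
  PowerSeries.map_injective _ (RingHom.injective_int (Int.castRingHom ℚ))

/-- **BD-UFD.** -/
theorem exists_int_of_monic_root (y : PowerSeries ℚ) (a b : PowerSeries ℤ) (ha : a ≠ 0)
    (hab : zq a * y = zq b) (p : Polynomial (PowerSeries ℤ)) (hp : p.Monic)
    (hroot : p.eval₂ zq y = 0) :
    ∃ z : PowerSeries ℤ, zq z = y := by
  classical
  let K := FractionRing (PowerSeries ℤ)
  let L := FractionRing (PowerSeries ℚ)
  let g : PowerSeries ℤ →+* L := (algebraMap (PowerSeries ℚ) L).comp zq
  have hSL : Function.Injective (algebraMap (PowerSeries ℚ) L) :=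
    IsFractionRing.injective (PowerSeries ℚ) L
  have hg : Function.Injective g := hSL.comp zq_injective
  let φ : K →+* L := IsFractionRing.lift hg
  have hφ : ∀ r : PowerSeries ℤ, φ (algebraMap (PowerSeries ℤ) K r) = g r :=
    fun r => IsFractionRing.lift_algebraMap hg r
  have hφinj : Function.Injective φ := φ.injective
  have haK : algebraMap (PowerSeries ℤ) K a ≠ 0 := by
    intro h
    exact ha ((IsFractionRing.injective (PowerSeries ℤ) K) (by rw [h, map_zero]))
  have hga : g a ≠ 0 := by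
    intro h
    exact ha (hg (by rw [h, map_zero]))
  set κ : K := algebraMap (PowerSeries ℤ) K b / algebraMap (PowerSeries ℤ) K a with hκ
  have hφκ : φ κ = algebraMap (PowerSeries ℚ) L y := by
    rw [hκ, map_div₀, hφ, hφ]
    rw [div_eq_iff hga]
    show (algebraMap (PowerSeries ℚ) L) (zq b) =
      (algebraMap (PowerSeries ℚ) L) y * (algebraMap (PowerSeries ℚ) L) (zq a)
    rw [← map_mul, ← hab, mul_comm]
  have hκint : IsIntegral (PowerSeries ℤ) κ := by
    refine ⟨p, hp, ?_⟩
    apply hφinj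
    rw [map_zero, Polynomial.hom_eval₂, hφκ]
    have h1 : φ.comp (algebraMap (PowerSeries ℤ) K) = g := RingHom.ext hφ
    rw [h1]
    show p.eval₂ ((algebraMap (PowerSeries ℚ) L).comp zq) ((algebraMap (PowerSeries ℚ) L) y) = 0
    rw [← Polynomial.hom_eval₂, hroot, map_zero]
  obtain ⟨z, hz⟩ := IsIntegrallyClosed.isIntegral_iff.mp hκint
  refine ⟨z, hSL ?_⟩
  rw [← hφκ, ← hz, hφ]
  rfl

end Fermat.Agent.S23.helper68
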