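import Fermat.Agent.S23.helper74_Nice

/-!
# The functions `u = Δ / q` and `v = q / Δ` (helper74, cluster S23, sub-lemma T3).
-/

open ModularForm Complex Filter Function Metric
open UpperHalfPlane hiding I
open scoped MatrixGroups ModularForm Manifold Topology Real

noncomputable section

namespace Fermat.Agent.S23.helper74

local notation "𝕢" => Periodic.qParam

lemma qParam_add_period {h : ℝ} (hh : h ≠ 0) (w : ℂ) : 𝕢 h (w + h) = 𝕢 h w := by
  have hh' : (h : ℂ) ≠ 0 := by exact_mod_cast hh
  simp only [Periodic.qParam]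
  rw [show 2 * (π : ℂ) * I * (w + h) / h = 2 * π * I * w / h + 2 * π * I by field_simp]
  rw [Complex.exp_add, Complex.exp_two_pi_mul_I, mul_one]

/-- A function of the form `τ ↦ G (𝕢 h τ)` with `G` holomorphic on the unit disc is nice. -/
lemma Nice.of_disc {h : ℝ} (hh : 0 < h) {G : ℂ → ℂ}
    (hG : DifferentiableOn ℂ G (ball 0 1)) : Nice h (fun τ : ℍ ↦ G (𝕢 h τ)) where
  per := by
    intro w
    by_cases hw : 0 < im w
    · have hw' : 0 < im (w + h) := by simpa using hw
      simp only [comp_apply, ofComplex_apply_of_im_pos hw', ofComplex_apply_of_im_pos hw]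
      congr 1
      exact qParam_add_period hh.ne' w
    · have hw1 : im w ≤ 0 := not_lt.mp hw
      have hw' : im (w + h) ≤ 0 := by simpa using hw1
      simp only [comp_apply, ofComplex_apply_of_im_nonpos hw', ofComplex_apply_of_im_nonpos hw1]
  hol := by
    rw [UpperHalfPlane.mdifferentiable_iff]
    have h1 : DifferentiableOn ℂ (G ∘ 𝕢 h) {z | 0 < z.im} := by
      refine hG.comp (fun z _ ↦ ?_) (fun z hz ↦ ?_)
      · exact (Periodic.differentiable_qParam (h := h) z).differentiableWithinAt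
      · simpa using Periodic.norm_qParam_lt_one hh hz
    refine h1.congr fun z hz ↦ ?_
    simp only [comp_apply, ofComplex_apply_of_im_pos hz]
  bdd := by
    have h0 : ContinuousAt G 0 :=
      (hG.differentiableAt (ball_mem_nhds 0 one_pos)).continuousAt
    have : Tendsto (fun τ : ℍ ↦ G (𝕢 h τ)) atImInfty (𝓝 (G 0)) :=
      h0.tendsto.comp (qParam_tendsto_atImInfty hh)
    exact this.isBigO_one ℝ

/-- `φ(q) = ∏ (1 - q^(n+1))^24`, so that `Δ = q * φ(q)`. -/
def phi (q : ℂ) : ℂ := ∏' n : ℕ, (1 - q ^ (n + 1)) ^ 24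

lemma differentiableOn_phi : DifferentiableOn ℂ phi (ball 0 1) :=
  differentiableOn_tprod_one_sub_pow_pow 24

lemma phi_zero : phi 0 = 1 := by
  simp [phi]

lemma phi_ne_zero {q : ℂ} (hq : ‖q‖ < 1) : phi q ≠ 0 := by
  unfold phi
  rw [(multipliable_one_sub_pow hq).tprod_pow 24]
  refine pow_ne_zero _ ?_
  have hsum : Summable fun n : ℕ ↦ ‖-q ^ (n + 1)‖ := by
    simpa using (summable_nat_add_iff 1).mpr (summable_geometric_of_lt_one (norm_nonneg _) hq)
  have := tprod_one_add_ne_zero_of_summable (f := fun n : ℕ ↦ -q ^ (n + 1)) ?_ hsum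
  · simpa [sub_eq_add_neg] using this
  · intro i
    have : ‖q ^ (i + 1)‖ < 1 := by
      rw [norm_pow]
      exact pow_lt_one₀ (norm_nonneg _) hq (by omega)
    intro h0
    have h1 : q ^ (i + 1) = 1 := by
      have := h0
      rw [← sub_eq_add_neg, sub_eq_zero] at this
      exact this.symm
    rw [h1] at this
    simp at this

lemma discriminant_eq_phi (z : ℍ) : discriminant z = 𝕢 1 z * phi (𝕢 1 z) := by
  rw [discriminant_eq_q_prod]
  rfl

/-- `u = Δ / q` as a function on the upper half plane. -/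
def uFun (z : ℍ) : ℂ := phi (𝕢 1 z)

/-- `v = q / Δ` as a function on the upper half plane. -/
def vFun (z : ℍ) : ℂ := (phi (𝕢 1 z))⁻¹

lemma uFun_ne_zero (z : ℍ) : uFun z ≠ 0 :=
  phi_ne_zero (Periodic.norm_qParam_lt_one one_pos z.im_pos)

lemma uFun_mul_vFun (z : ℍ) : uFun z * vFun z = 1 :=
  mul_inv_cancel₀ (uFun_ne_zero z)

lemma discriminant_eq_uFun (z : ℍ) : discriminant z = 𝕢 1 z * uFun z :=
  discriminant_eq_phi z

lemma differentiableOn_phi_inv : DifferentiableOn ℂ (fun q ↦ (phi q)⁻¹) (ball 0 1) :=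
  differentiableOn_phi.inv fun q hq ↦ phi_ne_zero (by simpa using hq)

lemma nice_uFun : Nice 1 uFun := Nice.of_disc one_pos differentiableOn_phi

lemma nice_vFun : Nice 1 vFun := Nice.of_disc one_pos differentiableOn_phi_inv

end Fermat.Agent.S23.helper74
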