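import Fermat.Agent.S23.helper74_EtaSlash

open ModularForm Complex Filter Function Metric
open UpperHalfPlane hiding I
open scoped MatrixGroups ModularForm Manifold Topology Real

noncomputable section

namespace Fermat.Agent.S23.helper74

local notation "𝕢" => Periodic.qParam

section integrality

variable (hΔ : ∀ n, ∃ a : ℤ, (qExpansion 1 discriminant).coeff n = (a : ℂ))
include hΔ

lemma zcoeffs_uFun_nat (N : ℕ) (hN : 0 < N) : ZCoeffs (qExpansion (N : ℝ) uFun) := by
  intro n
  have := nice_uFun.qExpansion_coeff_nat_mul one_pos hN n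
  rw [mul_one] at this
  rw [this]
  split_ifs
  · exact zcoeffs_uFun hΔ _
  · exact ⟨0, by simp⟩

lemma intCoeffs_vFun_affPt (a d : ℕ) (b : ℤ) (ha : 0 < a) (hd : 0 < d) :
    IntCoeffs (qExpansion ((a * d : ℕ) : ℝ) (fun τ ↦ vFun (affPt a d b ha hd τ))) := by
  intro n
  rw [nice_vFun.qExpansion_comp_affPt a d b ha hd n]
  split_ifs
  · exact ((zcoeffs_vFun hΔ).intCoeffs _).mul ((isIntegral_xi d b hd).pow _)
  · exact isIntegral_zero

lemma intCoeffs_etaCore (a d : ℕ) (b : ℤ) (ha : 0 < a) (hd : 0 < d) :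
    IntCoeffs (qExpansion ((a * d : ℕ) : ℝ) (etaCore a d b ha hd)) := by
  rw [qExpansion_etaCore]
  have hX : IntCoeffs (PowerSeries.X : PowerSeries ℂ) := by
    intro n
    rw [PowerSeries.coeff_X]
    split_ifs
    · exact isIntegral_one
    · exact isIntegral_zero
  exact (hX.pow _).mul ((((zcoeffs_uFun_nat hΔ (a * d) (Nat.mul_pos ha hd)).intCoeffs).pow _).mul
    (intCoeffs_vFun_affPt hΔ a d b ha hd))

lemma intCoeffs_etaSlash (a d : ℕ) (b : ℤ) (ha : 0 < a) (hd : 0 < d) :
    IntCoeffs (qExpansion ((a * d : ℕ) : ℝ) (etaSlash a d b ha hd)) := by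
  have hN : (0 : ℝ) < ((a * d : ℕ) : ℝ) := by exact_mod_cast Nat.mul_pos ha hd
  rw [etaSlash_eq, (nice_etaCore a d b ha hd).qExpansion_smul hN]
  refine (intCoeffs_etaCore hΔ a d b ha hd).smul ?_
  exact ((isIntegral_algebraMap (R := ℤ) (A := ℂ) (x := (d : ℤ))).pow 12 |>.mul
    (isIntegral_xi_inv d b hd)) |> fun h => by simpa using h

end integrality

end Fermat.Agent.S23.helper74
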