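import Fermat.Agent.S23.helper74_AffPt

open ModularForm Complex Filter Function Metric
open UpperHalfPlane hiding I
open scoped MatrixGroups ModularForm Manifold Topology Real

noncomputable section

namespace Fermat.Agent.S23.helper74

local notation "𝕢" => Periodic.qParam

/-- Power series over `ℂ` with (rational) integer coefficients. -/
def ZCoeffs (P : PowerSeries ℂ) : Prop := ∀ n, ∃ a : ℤ, P.coeff n = (a : ℂ)

lemma zcoeffs_iff_mem_range {P : PowerSeries ℂ} :
    ZCoeffs P ↔ P ∈ (PowerSeries.map (Int.castRingHom ℂ)).range := by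
  constructor
  · intro h
    choose a ha using h
    refine ⟨PowerSeries.mk a, ?_⟩
    ext n
    simp [ha n]
  · rintro ⟨Q, rfl⟩ n
    exact ⟨Q.coeff n, by simp⟩

namespace ZCoeffs

variable {P Q : PowerSeries ℂ}

lemma mul (hP : ZCoeffs P) (hQ : ZCoeffs Q) : ZCoeffs (P * Q) := by
  rw [zcoeffs_iff_mem_range] at *
  exact Subring.mul_mem _ hP hQ

lemma one : ZCoeffs (1 : PowerSeries ℂ) := by
  rw [zcoeffs_iff_mem_range]
  exact Subring.one_mem _

lemma pow (hP : ZCoeffs P) (n : ℕ) : ZCoeffs (P ^ n) := by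
  rw [zcoeffs_iff_mem_range] at *
  exact Subring.pow_mem _ hP n

lemma intCoeffs (hP : ZCoeffs P) : IntCoeffs P := IntCoeffs.of_int hP

/-- The inverse of an integral power series with constant coefficient one is integral. -/
lemma of_mul_eq_one (hP : ZCoeffs P) (hP0 : P.coeff 0 = 1) (hPQ : P * Q = 1) : ZCoeffs Q := by
  rw [zcoeffs_iff_mem_range] at hP ⊢
  obtain ⟨R, rfl⟩ := hP
  have hR0 : PowerSeries.constantCoeff R = 1 := by
    have : ((R.coeff 0 : ℤ) : ℂ) = 1 := by simpa using hP0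
    have h1 : R.coeff 0 = 1 := by exact_mod_cast this
    simpa using h1
  have hunit : IsUnit R := by
    rw [PowerSeries.isUnit_iff_constantCoeff, hR0]
    exact isUnit_one
  obtain ⟨W, hW⟩ := hunit.exists_right_inv
  refine ⟨W, ?_⟩
  have h2 : PowerSeries.map (Int.castRingHom ℂ) R * PowerSeries.map (Int.castRingHom ℂ) W = 1 := by
    rw [← map_mul, hW, map_one]
  calc PowerSeries.map (Int.castRingHom ℂ) W
      = (Q * PowerSeries.map (Int.castRingHom ℂ) R) * PowerSeries.map (Int.castRingHom ℂ) W := by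
        rw [mul_comm Q, hPQ, one_mul]
    _ = Q := by rw [mul_assoc, h2, mul_one]

end ZCoeffs

/-- The function `τ ↦ 𝕢 h τ ^ k` is nice. -/
lemma nice_qpow {h : ℝ} (hh : 0 < h) (k : ℕ) : Nice h (fun τ : ℍ ↦ 𝕢 h τ ^ k) :=
  Nice.of_disc hh (G := fun q ↦ q ^ k) (by fun_prop)

lemma qExpansion_qpow {h : ℝ} (hh : 0 < h) (k : ℕ) :
    qExpansion h (fun τ : ℍ ↦ 𝕢 h τ ^ k) = PowerSeries.X ^ k := by
  ext m
  rw [(nice_qpow hh k).coeff_unique hh (c := fun m ↦ if m = k then 1 else 0),
    PowerSeries.coeff_X_pow]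
  intro τ
  convert hasSum_ite_eq k (𝕢 h (τ : ℂ) ^ k) using 2 with m
  split_ifs with hm <;> simp [hm]

/-- Relation between the `q`-expansions of `Δ` and `u = Δ / q`. -/
lemma qExpansion_discriminant_eq :
    qExpansion 1 discriminant = PowerSeries.X * qExpansion 1 uFun := by
  have h1 : (discriminant : ℍ → ℂ) = (fun τ : ℍ ↦ 𝕢 1 τ ^ 1) * uFun := by
    ext z
    simp [discriminant_eq_uFun z]
  rw [h1, (nice_qpow one_pos 1).qExpansion_mul nice_uFun one_pos, qExpansion_qpow one_pos 1, pow_one]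

lemma qExpansion_uFun_coeff (n : ℕ) :
    (qExpansion 1 uFun).coeff n = (qExpansion 1 discriminant).coeff (n + 1) := by
  rw [qExpansion_discriminant_eq, PowerSeries.coeff_succ_X_mul]

lemma qExpansion_uFun_coeff_zero : (qExpansion 1 uFun).coeff 0 = 1 := by
  rw [qExpansion_uFun_coeff, zero_add, discriminant_qExpansion_coeff_one]

lemma qExpansion_uFun_mul_vFun : qExpansion 1 uFun * qExpansion 1 vFun = 1 := by
  rw [← nice_uFun.qExpansion_mul nice_vFun one_pos]
  have : uFun * vFun = 1 := by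
    ext z
    simpa using uFun_mul_vFun z
  rw [this, qExpansion_one]

section integrality

variable (hΔ : ∀ n, ∃ a : ℤ, (qExpansion 1 discriminant).coeff n = (a : ℂ))
include hΔ

lemma zcoeffs_uFun : ZCoeffs (qExpansion 1 uFun) := fun n ↦ by
  rw [qExpansion_uFun_coeff]
  exact hΔ (n + 1)

lemma zcoeffs_vFun : ZCoeffs (qExpansion 1 vFun) :=
  (zcoeffs_uFun hΔ).of_mul_eq_one qExpansion_uFun_coeff_zero qExpansion_uFun_mul_vFun

end integrality

lemma qExpansion_vFun_coeff_zero : (qExpansion 1 vFun).coeff 0 = 1 := by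
  have := congrArg (fun P : PowerSeries ℂ ↦ P.coeff 0) qExpansion_uFun_mul_vFun
  simpa [PowerSeries.coeff_mul, qExpansion_uFun_coeff_zero] using this

end Fermat.Agent.S23.helper74
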