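import Fermat.Agent.S23.helper74_Subst

open ModularForm Complex Filter Function Metric
open UpperHalfPlane hiding I
open scoped MatrixGroups ModularForm Manifold Topology Real

noncomputable section

namespace Fermat.Agent.S23.helper74

local notation "𝕢" => Periodic.qParam

lemma Nice.tendsto {h : ℝ} {f : ℍ → ℂ} (hf : Nice h f) (hh : 0 < h) :
    Tendsto f atImInfty (𝓝 (cuspFunction h f 0)) := by
  have h1 : (cuspFunction h f ∘ fun τ : ℍ ↦ 𝕢 h τ) = f := by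
    funext τ
    simpa using eq_cuspFunction τ hh.ne' hf.per
  have h2 := (hf.analyticAt hh).continuousAt.tendsto.comp (qParam_tendsto_atImInfty hh)
  rwa [h1] at h2

lemma qParam_one_eq_pow (N : ℕ) (hN : 0 < N) (z : ℂ) : 𝕢 1 z = 𝕢 (N : ℝ) z ^ N := by
  have hN' : (N : ℂ) ≠ 0 := by exact_mod_cast hN.ne'
  simp only [Periodic.qParam, ← Complex.exp_nat_mul]
  congr 1
  push_cast
  field_simp

/-- The function `τ ↦ d^12 Δ(τ)^(ad) / Δ((aτ+b)/d)`. -/
def etaSlash (a d : ℕ) (b : ℤ) (ha : 0 < a) (hd : 0 < d) (τ : ℍ) : ℂ :=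
  (d : ℂ) ^ 12 * discriminant τ ^ (a * d) / discriminant (affPt a d b ha hd τ)

/-- The nice part of `etaSlash`. -/
def etaCore (a d : ℕ) (b : ℤ) (ha : 0 < a) (hd : 0 < d) : ℍ → ℂ :=
  (fun τ : ℍ ↦ 𝕢 ((a * d : ℕ) : ℝ) τ ^ ((a * d) * (a * d) - a ^ 2)) *
    (uFun ^ (a * d) * fun τ ↦ vFun (affPt a d b ha hd τ))

lemma etaSlash_eq (a d : ℕ) (b : ℤ) (ha : 0 < a) (hd : 0 < d) :
    etaSlash a d b ha hd = ((d : ℂ) ^ 12 * (xi d b)⁻¹) • etaCore a d b ha hd := by
  funext τ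
  have hN : 0 < a * d := Nat.mul_pos ha hd
  have hle : a ^ 2 ≤ (a * d) * (a * d) := by
    have : a ≤ a * d := Nat.le_mul_of_pos_right a hd
    calc a ^ 2 = a * a := sq a
      _ ≤ (a * d) * (a * d) := Nat.mul_le_mul this this
  set Q := 𝕢 ((a * d : ℕ) : ℝ) τ with hQ
  have hQ0 : Q ≠ 0 := Periodic.qParam_ne_zero _
  have hu := uFun_ne_zero (affPt a d b ha hd τ)
  have hxi := xi_ne_zero d b
  have e1 : discriminant τ = Q ^ (a * d) * uFun τ := by
    rw [discriminant_eq_uFun, qParam_one_eq_pow (a * d) hN]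
  have e2 : discriminant (affPt a d b ha hd τ) = xi d b * Q ^ (a ^ 2) * uFun (affPt a d b ha hd τ) := by
    rw [discriminant_eq_uFun, qParam_affPt]
  have e3 : Q ^ ((a * d) * (a * d)) = Q ^ ((a * d) * (a * d) - a ^ 2) * Q ^ (a ^ 2) := by
    rw [← pow_add, Nat.sub_add_cancel hle]
  simp only [etaSlash, etaCore, Pi.smul_apply, Pi.mul_apply, Pi.pow_apply, smul_eq_mul, vFun]
  rw [e1, e2, mul_pow, ← pow_mul, e3]
  change _ = _ * (_ * (_ * (uFun (affPt a d b ha hd τ))⁻¹))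
  field_simp
  rw [← hQ]
  ring

lemma nice_uFun_nat (N : ℕ) : Nice (N : ℝ) uFun := by
  have := nice_uFun.nat_mul N
  simpa using this

lemma nice_etaCore (a d : ℕ) (b : ℤ) (ha : 0 < a) (hd : 0 < d) :
    Nice ((a * d : ℕ) : ℝ) (etaCore a d b ha hd) := by
  have hN : (0 : ℝ) < ((a * d : ℕ) : ℝ) := by exact_mod_cast Nat.mul_pos ha hd
  exact (nice_qpow hN _).mul (((nice_uFun_nat (a * d)).pow _).mul
    (nice_vFun.comp_affPt a d b ha hd))

lemma nice_etaSlash (a d : ℕ) (b : ℤ) (ha : 0 < a) (hd : 0 < d) :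
    Nice ((a * d : ℕ) : ℝ) (etaSlash a d b ha hd) := by
  rw [etaSlash_eq]
  exact (nice_etaCore a d b ha hd).smul _

lemma qExpansion_etaCore (a d : ℕ) (b : ℤ) (ha : 0 < a) (hd : 0 < d) :
    qExpansion ((a * d : ℕ) : ℝ) (etaCore a d b ha hd) =
      PowerSeries.X ^ ((a * d) * (a * d) - a ^ 2) *
        (qExpansion ((a * d : ℕ) : ℝ) uFun ^ (a * d) *
          qExpansion ((a * d : ℕ) : ℝ) (fun τ ↦ vFun (affPt a d b ha hd τ))) := by
  have hN : (0 : ℝ) < ((a * d : ℕ) : ℝ) := by exact_mod_cast Nat.mul_pos ha hd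
  unfold etaCore
  rw [(nice_qpow hN _).qExpansion_mul (((nice_uFun_nat (a * d)).pow _).mul
    (nice_vFun.comp_affPt a d b ha hd)) hN, qExpansion_qpow hN,
    ((nice_uFun_nat (a * d)).pow _).qExpansion_mul (nice_vFun.comp_affPt a d b ha hd) hN,
    (nice_uFun_nat (a * d)).qExpansion_pow hN]

lemma isZeroAtImInfty_etaSlash (a d : ℕ) (b : ℤ) (ha : 0 < a) (hd : 1 < d) :
    IsZeroAtImInfty (etaSlash a d b ha (by omega)) := by
  have hd0 : 0 < d := by omega
  have hN : (0 : ℝ) < ((a * d : ℕ) : ℝ) := by exact_mod_cast Nat.mul_pos ha hd0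
  have hlt : a ^ 2 < (a * d) * (a * d) := by
    have h1 : a < a * d := by
      calc a = a * 1 := (mul_one a).symm
        _ < a * d := Nat.mul_lt_mul_of_pos_left hd ha
    calc a ^ 2 = a * a := sq a
      _ < (a * d) * (a * d) := Nat.mul_lt_mul'' h1 h1
  have hk : (a * d) * (a * d) - a ^ 2 ≠ 0 := by omega
  rw [etaSlash_eq]
  have h1 : Tendsto (fun τ : ℍ ↦ 𝕢 ((a * d : ℕ) : ℝ) τ ^ ((a * d) * (a * d) - a ^ 2))
      atImInfty (𝓝 0) := by
    have := (qParam_tendsto_atImInfty hN).pow ((a * d) * (a * d) - a ^ 2)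
    simpa [zero_pow hk] using this
  have h2 := (((nice_uFun_nat (a * d)).pow (a * d)).mul
    (nice_vFun.comp_affPt a d b ha hd0)).tendsto hN
  have h3 := (h1.mul h2).const_mul ((d : ℂ) ^ 12 * (xi d b)⁻¹)
  simp only [zero_mul, mul_zero] at h3
  exact h3

end Fermat.Agent.S23.helper74
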