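import Fermat.Agent.S23.helper74_EtaQExp

open ModularForm Complex Filter Function Metric
open UpperHalfPlane hiding I
open scoped MatrixGroups ModularForm Manifold Topology Real

noncomputable section

namespace Fermat.Agent.S23.helper74

local notation "𝕢" => Periodic.qParam

section subst

variable {f : ℍ → ℂ} (hf : Nice 1 f) (a d : ℕ) (b : ℤ) (ha : 0 < a) (hd : 0 < d)
include hf

lemma Nice.comp_affPt_eq (τ : ℍ) :
    f (affPt a d b ha hd τ) =
      cuspFunction 1 f (xi d b * 𝕢 ((a * d : ℕ) : ℝ) τ ^ (a ^ 2)) := by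
  rw [← qParam_affPt a d b ha hd τ, eq_cuspFunction _ one_ne_zero hf.per]

/-- Substitution `τ ↦ (a τ + b) / d` in a nice `1`-periodic function gives a nice
`a * d`-periodic function. -/
lemma Nice.comp_affPt : Nice ((a * d : ℕ) : ℝ) (fun τ ↦ f (affPt a d b ha hd τ)) := by
  have hN : (0 : ℝ) < ((a * d : ℕ) : ℝ) := by exact_mod_cast Nat.mul_pos ha hd
  have hG : DifferentiableOn ℂ (fun q ↦ cuspFunction 1 f (xi d b * q ^ (a ^ 2))) (ball 0 1) := by
    refine (differentiableOn_cuspFunction_ball one_pos hf.per hf.hol hf.bdd).comp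
      (by fun_prop) (fun q hq ↦ ?_)
    rw [mem_ball_zero_iff] at hq ⊢
    rw [norm_mul, norm_xi, one_mul, norm_pow]
    exact pow_lt_one₀ (norm_nonneg _) hq (by positivity)
  have := Nice.of_disc hN hG
  have heq : (fun τ ↦ f (affPt a d b ha hd τ)) =
      (fun τ : ℍ ↦ cuspFunction 1 f (xi d b * 𝕢 ((a * d : ℕ) : ℝ) τ ^ (a ^ 2))) := by
    funext τ
    exact hf.comp_affPt_eq a d b ha hd τ
  rw [heq]
  exact this

lemma Nice.qExpansion_comp_affPt (m : ℕ) :
    (qExpansion ((a * d : ℕ) : ℝ) (fun τ ↦ f (affPt a d b ha hd τ))).coeff m =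
      if a ^ 2 ∣ m then (qExpansion 1 f).coeff (m / a ^ 2) * xi d b ^ (m / a ^ 2) else 0 := by
  have hN : (0 : ℝ) < ((a * d : ℕ) : ℝ) := by exact_mod_cast Nat.mul_pos ha hd
  have ha2 : 0 < a ^ 2 := by positivity
  refine (hf.comp_affPt a d b ha hd).coeff_unique hN
    (c := fun m ↦ if a ^ 2 ∣ m then (qExpansion 1 f).coeff (m / a ^ 2) * xi d b ^ (m / a ^ 2)
      else 0) (fun τ ↦ ?_) m
  have h1 := hf.hasSum one_pos (affPt a d b ha hd τ)
  rw [qParam_affPt a d b ha hd τ] at h1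
  have hinj : Function.Injective (fun n : ℕ ↦ a ^ 2 * n) :=
    fun x y hxy ↦ Nat.eq_of_mul_eq_mul_left ha2 hxy
  rw [← hinj.hasSum_iff]
  · convert h1 using 2 with n
    simp only [comp_apply, dvd_mul_right, if_true, Nat.mul_div_cancel_left _ ha2, smul_eq_mul]
    rw [mul_pow, ← pow_mul]
    ring
  · intro x hx
    have : ¬ a ^ 2 ∣ x := by
      rintro ⟨n, rfl⟩
      exact hx ⟨n, rfl⟩
    simp [this]

end subst

end Fermat.Agent.S23.helper74
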